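import Mathlib
import Fermat.Agent.QbarInst
import Fermat.Agent.FrobExists
import Fermat.Agent.FrobPlaceLift
import Fermat.Agent.FlatOrd.InertiaLift

/-!
# Values of elements fixed by inertia

If `x ∈ ℚ̄ˣ` is fixed by the inertia group of a place `A` over `q`, then
`v_A(x) = v_A(q)^k` for some integer `k`.
-/

set_option autoImplicit false

open Pointwise NumberField
open Fermat.Agent.FrobExists Fermat.Agent.FrobPlaceLift

namespace Fermat.Agent.DR.InertiaValue

section numberField

variable {L : Type} [Field L] [NumberField L] [IsGalois ℚ L]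

/-- The inertia field is unramified. -/
theorem ramificationIdx_under_eq_one {q : ℕ} (hq : q.Prime) (P : Ideal (𝓞 L)) [P.IsPrime]
    [hP : P.LiesOver (Ideal.span {(q : ℤ)})]
    (E : IntermediateField ℚ L)
    (hE : E = FixedPoints.intermediateField (P.inertia Gal(L/ℚ))) :
    (P.under (𝓞 E)).ramificationIdx ℤ = 1 := by
  subst hE
  set I := P.inertia Gal(L/ℚ) with hI
  set E : IntermediateField ℚ L := FixedPoints.intermediateField I with hEdef
  have h1 : IsGaloisGroup I E L := IsGaloisGroup.subgroup Gal(L/ℚ) ℚ L I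
  have h2 : IsGaloisGroup I (𝓞 E) (𝓞 L) := IsGaloisGroup.of_isFractionRing I (𝓞 E) (𝓞 L) E L
  have h3 : IsGaloisGroup Gal(L/ℚ) ℤ (𝓞 L) := inferInstance
  have hq' : Prime (q : ℤ) := Nat.prime_iff_prime_int.mp hq
  have hqp : (Ideal.span {(q : ℤ)}).IsPrime := (Ideal.span_singleton_prime hq'.ne_zero).mpr hq'
  have hqm : (Ideal.span {(q : ℤ)}).IsMaximal :=
    PrincipalIdealRing.isMaximal_of_irreducible hq'.irreducible
  have hq0 : (Ideal.span {(q : ℤ)}) ≠ ⊥ := by
    rw [Ne, Ideal.span_singleton_eq_bot]; exact hq'.ne_zero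
  have hunder : (Ideal.span {(q : ℤ)}) = P.under ℤ := hP.over
  have hfin : Finite (ℤ ⧸ Ideal.span {(q : ℤ)}) := Ring.HasFiniteQuotients.finiteQuotient hq0
  have hpf : PerfectField (Ideal.span {(q : ℤ)}).ResidueField := by
    have : Finite (Ideal.span {(q : ℤ)}).ResidueField := by
      infer_instance
    infer_instance
  have hP0 : P.under (𝓞 E) ≠ ⊥ := by
    intro h
    have : Ideal.under ℤ (P.under (𝓞 E)) = ⊥ := by
      rw [h]; exact Ideal.comap_bot_of_injective _ (algebraMap ℤ (𝓞 E)).injective_int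
    rw [Ideal.under_under, ← hunder] at this
    exact hq0 this
  have hpf2 : PerfectField (P.under (𝓞 E)).ResidueField := by
    have hm : (P.under (𝓞 E)).IsMaximal := Ideal.IsPrime.isMaximal inferInstance hP0
    have : Finite (𝓞 E ⧸ P.under (𝓞 E)) := Ring.HasFiniteQuotients.finiteQuotient hP0
    have : Finite (P.under (𝓞 E)).ResidueField := by
      infer_instance
    infer_instance
  have e1 := Ideal.card_inertia_eq_ramificationIdxIn (G := Gal(L/ℚ)) (Ideal.span {(q : ℤ)}) P
  have e2 := Ideal.card_inertia_eq_ramificationIdxIn (G := I) (P.under (𝓞 E)) P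
  rw [Ideal.ramificationIdxIn_eq_ramificationIdx _ P Gal(L/ℚ)] at e1
  rw [Ideal.ramificationIdxIn_eq_ramificationIdx _ P I] at e2
  have e3 : Nat.card (P.inertia I) = Nat.card I := by
    have : P.inertia I = ⊤ := by
      rw [eq_top_iff]
      rintro ⟨σ, hσ⟩ -
      intro x
      exact hσ x
    rw [this, Subgroup.card_top]
  have e4 := Ideal.ramificationIdx_tower (R := ℤ) (P.under (𝓞 E)) P
  rw [← e1, ← e2, e3, ← hI] at e4
  have hc : Nat.card I ≠ 0 := Nat.card_pos.ne'
  have : (P.under (𝓞 E)).ramificationIdx ℤ * Nat.card I = 1 * Nat.card I := by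
    rw [one_mul]; exact e4.symm
  exact Nat.eq_of_mul_eq_mul_right (Nat.pos_of_ne_zero hc) this

/-- In a number field where a prime `𝔭` over `q` is unramified, every nonzero element is a power of
`q` times a `𝔭`-adic unit. -/
theorem exists_zpow_valuation_eq {E : Type} [Field E] [NumberField E] {q : ℕ} (hq : q.Prime)
    (w : IsDedekindDomain.HeightOneSpectrum (𝓞 E)) [hw : w.asIdeal.LiesOver (Ideal.span {(q : ℤ)})]
    (hram : w.asIdeal.ramificationIdx ℤ = 1) {y : E} (hy : y ≠ 0) :
    ∃ k : ℤ, w.valuation E (y * (q : E) ^ k) = 1 := by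
  have hq' : Prime (q : ℤ) := Nat.prime_iff_prime_int.mp hq
  have hqp : (Ideal.span {(q : ℤ)}).IsPrime := (Ideal.span_singleton_prime hq'.ne_zero).mpr hq'
  have hq0 : (Ideal.span {(q : ℤ)}) ≠ ⊥ := by
    rw [Ne, Ideal.span_singleton_eq_bot]; exact hq'.ne_zero
  let v : IsDedekindDomain.HeightOneSpectrum ℤ := ⟨Ideal.span {(q : ℤ)}, hqp, hq0⟩
  have hv : w.asIdeal.LiesOver v.asIdeal := hw
  have h1 := IsDedekindDomain.HeightOneSpectrum.valuation_liesOver (K := ℚ) E v w (q : ℚ)
  have hwp : w.asIdeal.IsPrime := w.isPrime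
  have e1 : algebraMap ℚ E (q : ℚ) = (q : E) := map_natCast _ _
  rw [Ideal.ramificationIdx'_eq_ramificationIdx v.asIdeal w.asIdeal hq0, hram, pow_one,
    e1] at h1
  have h2 : v.valuation ℚ (q : ℚ) = WithZero.exp (-1 : ℤ) := by
    have h3 := v.valuation_of_algebraMap (K := ℚ) (q : ℤ)
    have e2 : ((q : ℤ) : ℚ) = (q : ℚ) := by simp
    change v.valuation ℚ ((q : ℤ) : ℚ) = v.intValuation (q : ℤ) at h3
    rw [e2] at h3
    rw [h3]
    exact IsDedekindDomain.HeightOneSpectrum.intValuation_singleton _ hq'.ne_zero rfl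
  rw [h2] at h1
  obtain ⟨n, hn⟩ : ∃ n : ℤ, w.valuation E y = WithZero.exp n := by
    have h3 : w.valuation E y ≠ 0 := (Valuation.ne_zero_iff _).mpr hy
    exact ⟨WithZero.log (w.valuation E y), (WithZero.exp_log h3).symm⟩
  refine ⟨n, ?_⟩
  rw [map_mul, map_zpow₀, hn, ← h1, ← WithZero.exp_zsmul, ← WithZero.exp_add]
  simp

end numberField

section place

variable (A : ValuationSubring (AlgebraicClosure ℚ)) {q : ℕ}

theorem exists_zpow_of_inertia_fixed (hq : q.Prime) (hA : A.LiesOverPrime q)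
    {x : AlgebraicClosure ℚ} (hx : x ≠ 0) (hfix : ∀ σ ∈ A.inertiaSubgroupIn ℚ, σ x = x) :
    ∃ k : ℤ, A.valuation (x * (q : AlgebraicClosure ℚ) ^ k) = 1 := by
  -- a finite Galois extension containing `x`
  obtain ⟨L, hLfin, hLgal, hxL⟩ : ∃ L : IntermediateField ℚ (AlgebraicClosure ℚ),
      FiniteDimensional ℚ L ∧ IsGalois ℚ L ∧ x ∈ L := by
    have hxi : IsIntegral ℚ x := Algebra.IsIntegral.isIntegral x
    let M : IntermediateField ℚ (AlgebraicClosure ℚ) := IntermediateField.adjoin ℚ {x}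
    have : FiniteDimensional ℚ M := IntermediateField.adjoin.finiteDimensional hxi
    have hn : Normal ℚ (IntermediateField.normalClosure ℚ M (AlgebraicClosure ℚ)) :=
      normalClosure.normal ℚ M (AlgebraicClosure ℚ)
    refine ⟨IntermediateField.normalClosure ℚ M (AlgebraicClosure ℚ), inferInstance, ⟨⟩, ?_⟩
    exact IntermediateField.le_normalClosure M (IntermediateField.mem_adjoin_simple_self ℚ x)
  have hLnf : NumberField L := { to_finiteDimensional := hLfin }
  have hP : (centerOn L A).LiesOver (Ideal.span {(q : ℤ)}) := centerOn_liesOver L A hq hA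
  let G := L ≃ₐ[ℚ] L
  let I := (centerOn L A).inertia G
  let E : IntermediateField ℚ L := FixedPoints.intermediateField I
  have hram := ramificationIdx_under_eq_one hq (centerOn L A) E rfl
  -- `x` is in the inertia field
  have hxE : (⟨x, hxL⟩ : L) ∈ E := by
    rintro ⟨τ, hτ⟩
    have hsurj := AlgEquiv.restrictNormalHom_surjective (F := ℚ) (K₁ := L)
      (AlgebraicClosure ℚ)
    obtain ⟨g, hg⟩ := hsurj τ
    have hg' : ∀ z : L, g (z : AlgebraicClosure ℚ) = ((τ z : L) : AlgebraicClosure ℚ) := by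
      intro z
      rw [← hg]
      exact (AlgEquiv.restrictNormal_commutes g L z).symm
    obtain ⟨σ, hσ, hσg⟩ := Fermat.Agent.FlatOrd.InertiaLift.exists_mul_mem_inertia_of_intermediateField
      L A hq hA g (fun z hz => by
        rw [mem_center]
        have hzi : IsIntegral ℤ (⟨(z : AlgebraicClosure ℚ), hz⟩ : L) :=
          (isIntegral_algebraMap_iff (A := L) (B := AlgebraicClosure ℚ)
            (algebraMap L (AlgebraicClosure ℚ)).injective).mp z.2
        let z' : 𝓞 L := ⟨⟨(z : AlgebraicClosure ℚ), hz⟩, hzi⟩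
        have h1 : τ • z' - z' ∈ centerOn L A := hτ z'
        rw [mem_centerOn] at h1
        have h2 := hg' ⟨(z : AlgebraicClosure ℚ), hz⟩
        have h3 : ((g • z - z : integralClosure ℤ (AlgebraicClosure ℚ)) : AlgebraicClosure ℚ) =
          g (z : AlgebraicClosure ℚ) - (z : AlgebraicClosure ℚ) := rfl
        rw [h3]
        convert h1 using 1
        change g (z : AlgebraicClosure ℚ) - (z : AlgebraicClosure ℚ) =
          ((τ ⟨(z : AlgebraicClosure ℚ), hz⟩ : L) : AlgebraicClosure ℚ) - (z : AlgebraicClosure ℚ)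
        rw [← h2])
    have h4 : ((τ ⟨x, hxL⟩ : L) : AlgebraicClosure ℚ) = x := by
      rw [← hg', ← hσg x hxL]
      exact hfix σ hσ
    exact Subtype.ext h4
  have hEnf : NumberField E := inferInstance
  let x' : E := ⟨⟨x, hxL⟩, hxE⟩
  have hx' : x' ≠ 0 := by
    intro h
    apply hx
    exact congrArg (fun z : E => ((z : L) : AlgebraicClosure ℚ)) h
  have hq' : Prime (q : ℤ) := Nat.prime_iff_prime_int.mp hq
  have hq0 : (Ideal.span {(q : ℤ)}) ≠ ⊥ := by
    rw [Ne, Ideal.span_singleton_eq_bot]; exact hq'.ne_zero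
  have hlies : ((centerOn L A).under (𝓞 E)).LiesOver (Ideal.span {(q : ℤ)}) := by
    refine ⟨?_⟩
    rw [Ideal.under_under]
    exact hP.over
  have hP0 : (centerOn L A).under (𝓞 E) ≠ ⊥ := by
    intro h
    have h5 := hlies.over
    rw [h] at h5
    exact hq0 (h5.trans (Ideal.comap_bot_of_injective _ (algebraMap ℤ (𝓞 E)).injective_int))
  let w : IsDedekindDomain.HeightOneSpectrum (𝓞 E) :=
    ⟨(centerOn L A).under (𝓞 E), inferInstance, hP0⟩
  have hwl : w.asIdeal.LiesOver (Ideal.span {(q : ℤ)}) := hlies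
  obtain ⟨k, hk⟩ := exists_zpow_valuation_eq hq w hram hx'
  refine ⟨k, ?_⟩
  -- units at `w` are units of `A`
  have key : ∀ z : E, w.valuation E z ≤ 1 → ((z : L) : AlgebraicClosure ℚ) ∈ A := by
    intro z hz
    obtain ⟨a, s, has'⟩ : ∃ (a : 𝓞 E) (s : w.asIdeal.primeCompl),
        z * ((s : 𝓞 E) : E) = ((a : 𝓞 E) : E) := by
      obtain ⟨n, d, h | h⟩ := w.exists_primeCompl_mul_eq_or_mul_eq z
      · exact ⟨n, d, h⟩
      · have hd : w.valuation E (algebraMap (𝓞 E) E d) = 1 := by
          rw [w.valuation_of_algebraMap]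
          exact w.intValuation_eq_one_iff.mpr d.2
        have hn : w.valuation E (algebraMap (𝓞 E) E n) = 1 := by
          have hn1 : w.valuation E (algebraMap (𝓞 E) E n) ≤ 1 := w.valuation_le_one n
          have h8 := congrArg (w.valuation E) h
          rw [map_mul, hd] at h8
          refine le_antisymm hn1 ?_
          rw [← h8]
          exact mul_le_of_le_one_left' hz
        rw [w.valuation_of_algebraMap] at hn
        have hn2 : n ∈ w.asIdeal.primeCompl := w.intValuation_eq_one_iff.mp hn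
        refine ⟨d, ⟨n, hn2⟩, h⟩
    have hs : (((algebraMap (𝓞 E) (𝓞 L) (s : 𝓞 E) : 𝓞 L) : L) : AlgebraicClosure ℚ) ∉ A.nonunits := by
      rw [← mem_centerOn]
      exact s.2
    have hs1 : ((((s : 𝓞 E) : E) : L) : AlgebraicClosure ℚ) ∉ A.nonunits := hs
    rw [ValuationSubring.mem_nonunits_iff_or] at hs1
    push Not at hs1
    have ha1 : ((((a : 𝓞 E) : E) : L) : AlgebraicClosure ℚ) ∈ A := by
      apply mem_of_isIntegral
      have h6 : IsIntegral ℤ ((a : 𝓞 E) : E) := RingOfIntegers.isIntegral_coe a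
      exact (h6.map ((algebraMap E L).toIntAlgHom)).map ((algebraMap L (AlgebraicClosure ℚ)).toIntAlgHom)
    have h7 : ((z : L) : AlgebraicClosure ℚ) = ((((a : 𝓞 E) : E) : L) : AlgebraicClosure ℚ) *
        (((((s : 𝓞 E) : E) : L) : AlgebraicClosure ℚ))⁻¹ := by
      rw [← has']
      push_cast
      rw [mul_assoc, mul_inv_cancel₀ hs1.1, mul_one]
    rw [h7]
    exact A.mul_mem _ _ ha1 hs1.2
  have hk1 := key _ hk.le
  have hk2 := key (x' * (q : E) ^ k)⁻¹ (by rw [map_inv₀, hk, inv_one])
  have e : ((((x' * (q : E) ^ k : E) : L)) : AlgebraicClosure ℚ) = x * (q : AlgebraicClosure ℚ) ^ k := by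
    push_cast
    rfl
  rw [e] at hk1
  have e2 : (((((x' * (q : E) ^ k)⁻¹ : E) : L)) : AlgebraicClosure ℚ) =
      (x * (q : AlgebraicClosure ℚ) ^ k)⁻¹ := by
    rw [← e]; push_cast; rfl
  rw [e2] at hk2
  apply le_antisymm
  · exact (A.valuation_le_one_iff _).mpr hk1
  · have := (A.valuation_le_one_iff _).mpr hk2
    rw [map_inv₀] at this
    have hne : A.valuation (x * (q : AlgebraicClosure ℚ) ^ k) ≠ 0 := by
      rw [Valuation.ne_zero_iff]
      exact mul_ne_zero hx (zpow_ne_zero _ (by exact_mod_cast hq.ne_zero))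
    exact (inv_le_one₀ (zero_lt_iff.mpr hne)).mp this

end place

end Fermat.Agent.DR.InertiaValue
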