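import Fermat.Agent.GAL.Final
import Fermat.Agent.JAN.JanMain
import Fermat.Agent.JAN.Degree
import Fermat.Agent.Jan.DegreeWiring
import Fermat.Agent.S37

/-!
# All inputs of team GAL, unconditionally
-/

set_option autoImplicit false

open ModularCurve

namespace Fermat.Agent.DR

/-- The inputs of `GAL.Final` are all available. -/
theorem allInputs : Fermat.Agent.GAL.Final.AllInputs where
  comm N _ := Fermat.Agent.JAN.Degree.heckeOperatorsCommuteBar N
  hpd N _ := Fermat.Agent.Jan.DegreeWiring.hasPrincipalDivisors_modular' (AlgebraicClosure ℚ) N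
  jan N _ := Fermat.Agent.JAN.janMain N
  s37 N p _ hcomm := Fermat.Agent.S37.result N p hcomm

end Fermat.Agent.DR
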