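import Mathlib

/-!
# Annihilators of base changes (Fitting ideal argument)

If `M` is an `R`-module generated by `r` elements and `c : T` kills `T ⊗[R] M`, then `c ^ r` lies in
the extension to `T` of the annihilator of `M`.
-/

set_option autoImplicit false

open scoped TensorProduct

namespace Fermat.Agent.DR.AnnFitting

section

variable {R T M : Type*} [CommRing R] [CommRing T] [Algebra R T] [AddCommGroup M] [Module R M]

/-- The determinant of a square matrix of relations kills the module. -/
theorem det_smul_eq_zero {r : ℕ} (e : Fin r → M) (A : Matrix (Fin r) (Fin r) R)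
    (hA : ∀ i, ∑ j, A i j • e j = 0) (j : Fin r) : A.det • e j = 0 := by
  have h1 : ∑ i, A.adjugate j i • ∑ k, A i k • e k = 0 := by simp [hA]
  have h2 : ∑ i, A.adjugate j i • ∑ k, A i k • e k = ∑ k, (A.adjugate * A) j k • e k := by
    simp only [Matrix.mul_apply, Finset.sum_smul, Finset.smul_sum, smul_smul]
    exact Finset.sum_comm
  rw [h2, Matrix.adjugate_mul] at h1
  simpa [Matrix.smul_apply, Matrix.one_apply, ite_smul] using h1

/-- The determinant of a square matrix whose rows are `T`-combinations of relations lies in the
extension of the annihilator. -/
theorem det_mem_map_annihilator {r : ℕ} (e : Fin r → M)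
    (he : Submodule.span R (Set.range e) = ⊤) (w : Fin r → Fin r → T)
    (hw : ∀ i, w i ∈ Submodule.span T
      {v : Fin r → T | ∃ k : Fin r → R, ∑ j, k j • e j = 0 ∧ v = fun j => algebraMap R T (k j)}) :
    Matrix.det (Matrix.of w) ∈ (Module.annihilator R M).map (algebraMap R T) := by
  classical
  set S : Set (Fin r → T) :=
    {v : Fin r → T | ∃ k : Fin r → R, ∑ j, k j • e j = 0 ∧ v = fun j => algebraMap R T (k j)} with hS
  set I := (Module.annihilator R M).map (algebraMap R T) with hI
  have key : ∀ s : Finset (Fin r), ∀ w : Fin r → Fin r → T,
      (∀ i ∈ s, w i ∈ Submodule.span T S) → (∀ i ∉ s, w i ∈ S) → Matrix.det (Matrix.of w) ∈ I := by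
    intro s
    induction s using Finset.induction_on with
    | empty =>
      intro w _ hw
      have hw' : ∀ i, ∃ k : Fin r → R, ∑ j, k j • e j = 0 ∧ w i = fun j => algebraMap R T (k j) :=
        fun i => hw i (Finset.notMem_empty i)
      choose k hk hwk using hw'
      have h1 : Matrix.of w = (Matrix.of k).map (algebraMap R T) := by
        ext i j
        simp [hwk]
      rw [h1, ← RingHom.mapMatrix_apply, ← RingHom.map_det]
      apply Ideal.mem_map_of_mem
      rw [Module.mem_annihilator]
      intro m
      have hm : m ∈ Submodule.span R (Set.range e) := he ▸ Submodule.mem_top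
      induction hm using Submodule.span_induction with
      | mem x hx =>
        obtain ⟨j, rfl⟩ := hx
        exact det_smul_eq_zero e (Matrix.of k) hk j
      | zero => rw [smul_zero]
      | add x y _ _ hx hy => rw [smul_add, hx, hy, add_zero]
      | smul a x _ hx => rw [smul_comm, hx, smul_zero]
    | insert a s ha ih =>
      intro w hw1 hw2
      -- linear in row `a`
      have hlin : ∀ v ∈ Submodule.span T S,
          Matrix.det (Matrix.of (Function.update w a v)) ∈ I := by
        intro v hv
        induction hv using Submodule.span_induction with
        | mem x hx =>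
          refine ih _ (fun i hi => ?_) (fun i hi => ?_)
          · have hia : i ≠ a := fun h => ha (h ▸ hi)
            rw [Function.update_of_ne hia]
            exact hw1 i (Finset.mem_insert_of_mem hi)
          · by_cases hia : i = a
            · subst hia
              rw [Function.update_self]
              exact hx
            · rw [Function.update_of_ne hia]
              exact hw2 i (by simp [hia, hi])
        | zero =>
          have : Matrix.det (Matrix.of (Function.update w a 0)) = 0 :=
            Matrix.det_eq_zero_of_row_eq_zero a (fun j => by simp)
          rw [this]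
          exact I.zero_mem
        | add x y _ _ hx hy =>
          have h : Matrix.det (Matrix.of (Function.update w a (x + y))) =
              Matrix.det (Matrix.of (Function.update w a x)) +
                Matrix.det (Matrix.of (Function.update w a y)) :=
            Matrix.det_updateRow_add (Matrix.of w) a x y
          rw [h]
          exact I.add_mem hx hy
        | smul c x _ hx =>
          have h : Matrix.det (Matrix.of (Function.update w a (c • x))) =
              c * Matrix.det (Matrix.of (Function.update w a x)) :=
            Matrix.det_updateRow_smul (Matrix.of w) a c x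
          rw [h]
          exact I.mul_mem_left _ hx
      have h := hlin (w a) (hw1 a (Finset.mem_insert_self a s))
      rwa [Function.update_eq_self] at h
  exact key Finset.univ w (fun i _ => hw i) (fun i hi => absurd (Finset.mem_univ i) hi)

/-- **Fitting ideal argument**: if `M` is generated by `r` elements and `c` kills `T ⊗[R] M`, then
`c ^ r` lies in the ideal of `T` generated by the annihilator of `M`. -/
theorem pow_mem_map_annihilator {r : ℕ} (e : Fin r → M)
    (he : Submodule.span R (Set.range e) = ⊤) (c : T)
    (hc : ∀ m : M, c ⊗ₜ[R] m = 0) :
    c ^ r ∈ (Module.annihilator R M).map (algebraMap R T) := by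
  classical
  let f : (Fin r → R) →ₗ[R] M := Fintype.linearCombination R e
  have hf : Function.Surjective f := by
    rw [← LinearMap.range_eq_top, Fintype.range_linearCombination, he]
  have hrow : ∀ i : Fin r, (Pi.single i c : Fin r → T) ∈ Submodule.span T
      {v : Fin r → T | ∃ k : Fin r → R, ∑ j, k j • e j = 0 ∧ v = fun j => algebraMap R T (k j)} := by
    intro i
    have h0 : (LinearMap.lTensor T f) (c ⊗ₜ[R] Pi.single i 1) = 0 := by
      rw [LinearMap.lTensor_tmul]
      exact hc _
    have hex : Function.Exact (LinearMap.lTensor T (LinearMap.ker f).subtype)
        (LinearMap.lTensor T f) :=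
      lTensor_exact T (LinearMap.exact_subtype_ker_map f) hf
    obtain ⟨z, hz⟩ := (hex _).mp h0
    -- apply the canonical map `T ⊗ (Fin r → R) → (Fin r → T)`
    let φ := TensorProduct.piScalarRight R T T (Fin r)
    have h1 : (Pi.single i c : Fin r → T) = φ (c ⊗ₜ[R] Pi.single i 1) := by
      ext j
      simp only [φ, TensorProduct.piScalarRight_apply, TensorProduct.piScalarRightHom_tmul]
      by_cases hj : j = i
      · subst hj; simp
      · simp [Pi.single_apply, hj]
    rw [h1, ← hz]
    clear h1 hz h0
    induction z using TensorProduct.induction_on with
    | zero => rw [map_zero, map_zero]; exact Submodule.zero_mem _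
    | tmul t k =>
      rw [LinearMap.lTensor_tmul]
      have h2 : φ (t ⊗ₜ[R] ((LinearMap.ker f).subtype k)) =
          t • (fun j => algebraMap R T ((k : Fin r → R) j)) := by
        ext j
        simp only [φ, TensorProduct.piScalarRight_apply, TensorProduct.piScalarRightHom_tmul,
          Submodule.subtype_apply, Pi.smul_apply, smul_eq_mul, Algebra.smul_def, mul_comm]
      rw [h2]
      refine Submodule.smul_mem _ _ (Submodule.subset_span ⟨k, ?_, rfl⟩)
      have := k.2
      rw [LinearMap.mem_ker, Fintype.linearCombination_apply] at this
      exact this
    | add x y hx hy => rw [map_add, map_add]; exact Submodule.add_mem _ hx hy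
  have h := det_mem_map_annihilator e he (fun i => (Pi.single i c : Fin r → T)) hrow
  have hdet : Matrix.det (Matrix.of fun i => (Pi.single i c : Fin r → T)) = c ^ r := by
    have : (Matrix.of fun i => (Pi.single i c : Fin r → T)) = Matrix.diagonal fun _ => c := by
      ext i j
      rw [Matrix.of_apply, Matrix.diagonal_apply, Pi.single_apply]
      simp only [eq_comm]
    rw [this, Matrix.det_diagonal, Finset.prod_const, Finset.card_univ, Fintype.card_fin]
  rwa [hdet] at h

end

end Fermat.Agent.DR.AnnFitting
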