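import Fermat.Agent.DR.NodeTorsion
import Fermat.Agent.DR.InertiaValue
import Fermat.Agent.ECRed.Inertia
import Fermat.Agent.EllTorsion.MulXDivPoly
import Fermat.Agent.EllTorsion.Card
import Fermat.Agent.EllTorsion.Frey

/-!
# The mod `p` representation of the Frey curve is ramified at `2`
-/

set_option autoImplicit false

open WeierstrassCurve WeierstrassCurve.Affine WeierstrassCurve.Affine.Point Polynomial
open scoped WeierstrassCurve.Affine

namespace Fermat.Agent.DR.FreyRamifiedTwo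

open Fermat.Agent.ECRed Fermat.Agent.DR.NodeTorsion Fermat.Agent.EllTorsion

/-- A polynomial with unit leading coefficient and nonunit constant term has a small root. -/
theorem exists_root_lt_one {K Γ₀ : Type*} [Field K] [IsAlgClosed K]
    [LinearOrderedCommGroupWithZero Γ₀] (v : Valuation K Γ₀) (F : K[X])
    (h1 : v F.leadingCoeff = 1) (h0 : v (F.eval 0) < 1) : ∃ x, F.eval x = 0 ∧ v x < 1 := by
  have hF : F ≠ 0 := by
    rintro rfl
    rw [leadingCoeff_zero, Valuation.map_zero] at h1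
    exact zero_ne_one h1
  have hs := IsAlgClosed.splits F
  by_contra hcon
  push Not at hcon
  have hroots : ∀ s : Multiset K, (∀ a ∈ s, 1 ≤ v a) →
      1 ≤ v ((s.map (fun a => X - C a)).prod.eval 0) := by
    intro s
    induction s using Multiset.induction_on with
    | empty => intro _; simp
    | cons a s ih =>
      intro h
      rw [Multiset.map_cons, Multiset.prod_cons, eval_mul, map_mul]
      have := ih (fun b hb => h b (Multiset.mem_cons_of_mem hb))
      exact one_le_mul (by simpa using h a (Multiset.mem_cons_self a s)) this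
  have h2 := hroots F.roots (fun a ha => hcon a ((mem_roots hF).mp ha))
  rw [hs.eq_prod_roots] at h0
  rw [eval_mul, eval_C, map_mul, h1, one_mul] at h0
  exact absurd h0 (not_lt.mpr h2)

theorem preNormEDS'_zero_zero {R : Type*} [CommRing R] (n : ℕ) (hn : 3 ≤ n) :
    preNormEDS' (0 : R) 0 0 n = 0 := by
  induction n using Nat.strong_induction_on with
  | _ n ih =>
    rcases Nat.even_or_odd' n with ⟨k, rfl | rfl⟩
    · rcases Nat.lt_or_ge k 3 with hk | hk
      · obtain rfl : k = 2 := by omega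
        exact preNormEDS'_four _ _ _
      · obtain ⟨m, rfl⟩ : ∃ m, k = m + 3 := ⟨k - 3, by omega⟩
        rw [preNormEDS'_even, ih (m + 3) (by omega) (by omega)]
        ring
    · rcases Nat.lt_or_ge k 2 with hk | hk
      · obtain rfl : k = 1 := by omega
        exact preNormEDS'_three _ _ _
      · obtain ⟨m, rfl⟩ : ∃ m, k = m + 2 := ⟨k - 2, by omega⟩
        rw [preNormEDS'_odd, ih (m + 4) (by omega) (by omega), ih (m + 3) (by omega) (by omega)]
        ring

/-- Constant term of the division polynomial modulo a nonunit. -/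
theorem preΨ'_eval_zero_eq_zero {k : Type*} [CommRing k] (W : WeierstrassCurve k)
    (h4 : W.b₄ = 0) (h6 : W.b₆ = 0) (h8 : W.b₈ = 0) {n : ℕ} (hn : 3 ≤ n) :
    (W.preΨ' n).eval 0 = 0 := by
  have h : (W.preΨ' n).eval 0 = evalRingHom 0 (preNormEDS' (W.Ψ₂Sq ^ 2) W.Ψ₃ W.preΨ₄ n) := rfl
  rw [h, map_preNormEDS']
  have e1 : evalRingHom 0 (W.Ψ₂Sq ^ 2) = 0 := by
    simp [Ψ₂Sq, h6]
  have e2 : evalRingHom 0 W.Ψ₃ = 0 := by
    simp [Ψ₃, h8]
  have e3 : evalRingHom 0 W.preΨ₄ = 0 := by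
    simp [preΨ₄, h4, h6]
  rw [e1, e2, e3]
  exact preNormEDS'_zero_zero n hn

/-- Existence of torsion points near the node. -/
theorem exists_torsion_near_node {K : Type*} [Field K] [IsAlgClosed K] [DecidableEq K] [CharZero K]
    (W₀ : WeierstrassCurve ℤ) (W : WeierstrassCurve K) (hW : W = W₀.map (Int.castRingHom K))
    [W.IsElliptic] (A : ValuationSubring K) {q : ℕ} (hq : q.Prime) (hA : A.LiesOverPrime q)
    (h4 : (q : ℤ) ∣ W₀.b₄) (h6 : (q : ℤ) ∣ W₀.b₆) (h8 : (q : ℤ) ∣ W₀.b₈) {p : ℕ} (hp : p.Prime)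
    (hp3 : 3 ≤ p) (hpq : p ≠ q) :
    ∃ P : W.toAffine.Point, p • P = 0 ∧ P ≠ 0 ∧ A.valuation (xc P) < 1 := by
  have hodd : ¬ Even p := by
    intro h
    have := hp.eq_one_or_self_of_dvd 2 h.two_dvd
    omega
  have hcop : Nat.Coprime p q := (Nat.coprime_primes hp hq).mpr hpq
  have hp0 : (p : K) ≠ 0 := Nat.cast_ne_zero.mpr hp.ne_zero
  have e1 : (W.preΨ' p).leadingCoeff = (p : K) := by
    rw [leadingCoeff_preΨ' W hp0, if_neg hodd]
  have e2 : (W.preΨ' p).eval 0 = (((W₀.preΨ' p).eval 0 : ℤ) : K) := by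
    rw [hW, map_preΨ', eval_map, eval₂_at_zero, coeff_zero_eq_eval_zero]
    rfl
  have e3 : (q : ℤ) ∣ (W₀.preΨ' p).eval 0 := by
    rw [← ZMod.intCast_zmod_eq_zero_iff_dvd]
    have e4 : (((W₀.preΨ' p).eval 0 : ℤ) : ZMod q) =
        ((W₀.map (Int.castRingHom (ZMod q))).preΨ' p).eval 0 := by
      rw [map_preΨ', eval_map, eval₂_at_zero, coeff_zero_eq_eval_zero]
      rfl
    rw [e4]
    apply preΨ'_eval_zero_eq_zero _ _ _ _ hp3
    · rw [WeierstrassCurve.map_b₄]
      exact (ZMod.intCast_zmod_eq_zero_iff_dvd _ q).mpr h4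
    · rw [WeierstrassCurve.map_b₆]
      exact (ZMod.intCast_zmod_eq_zero_iff_dvd _ q).mpr h6
    · rw [WeierstrassCurve.map_b₈]
      exact (ZMod.intCast_zmod_eq_zero_iff_dvd _ q).mpr h8
  obtain ⟨x, hx0, hx1⟩ := exists_root_lt_one A.valuation (W.preΨ' p)
    (by rw [e1]; exact valuation_nat_eq_one A hA hcop)
    (by rw [e2]; exact valuation_int_lt_one A hA e3)
  obtain ⟨y, hy⟩ := exists_nonsingular (W := W) x
  refine ⟨.some x y hy, ?_, ?_, hx1⟩
  · rw [(isMulX_Φ_ΨSq W p).nsmul_eq_zero_iff hy, ΨSq_ofNat, if_neg hodd, mul_one, eval_pow, hx0]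
    exact zero_pow two_ne_zero
  · intro h; exact absurd h (by simp)


/-- The integral model base changed. -/
theorem frey_baseChange_eq (P : FreyPackage) (K : Type*) [Field K] [Algebra ℚ K] :
    (P.freyCurve.baseChange K : WeierstrassCurve K) = P.freyCurveInt.map (Int.castRingHom K) := by
  rw [← FreyPackage.AgentFrey.map_freyCurveInt, WeierstrassCurve.baseChange,
    WeierstrassCurve.map_map]
  congr 1
  exact RingHom.ext_int _ _

/-- There is a `p`-torsion point `Q` of the Frey curve with `v (x Q) ^ p = v a₄ ^ 2` for each place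
above `2`. -/
theorem frey_exists_torsion (P : FreyPackage) (A : ValuationSubring (AlgebraicClosure ℚ))
    (hA : A.LiesOverPrime 2) :
    ∃ (x y : AlgebraicClosure ℚ) (h : (P.freyCurve.baseChange
      (AlgebraicClosure ℚ)).toAffine.Nonsingular x y), P.p • Point.some x y h = 0 ∧
      A.valuation x ^ P.p = A.valuation (P.freyCurveInt.a₄ : AlgebraicClosure ℚ) ^ 2 := by
  classical
  obtain ⟨l, hl⟩ := FreyPackage.AgentFrey.b_pow_dvd P
  have h16 := FreyPackage.AgentFrey.sixteen_mul_a₄ P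
  have h4 := FreyPackage.AgentFrey.four_mul_a₂ P
  have hev : (2 : ℤ) ∣ P.freyCurveInt.a₄ := by
    refine ⟨-(P.a ^ P.p) * l, ?_⟩
    have : 16 * P.freyCurveInt.a₄ = 16 * (2 * (-(P.a ^ P.p) * l)) := by
      rw [h16, hl]; ring
    exact mul_left_cancel₀ (by norm_num) this
  have hev0 : P.freyCurveInt.a₄ ≠ 0 := by
    intro h
    rw [h, mul_zero] at h16
    exact mul_ne_zero (neg_ne_zero.mpr (pow_ne_zero _ P.ha0)) (pow_ne_zero _ P.hb0) h16.symm
  set W : WeierstrassCurve (AlgebraicClosure ℚ) := P.freyCurve.baseChange (AlgebraicClosure ℚ)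
    with hWdef
  have hW : W = P.freyCurveInt.map (Int.castRingHom (AlgebraicClosure ℚ)) :=
    frey_baseChange_eq P _
  have : P.freyCurve.IsElliptic := frey_isElliptic P
  have : W.IsElliptic := inferInstanceAs (P.freyCurve.map _).IsElliptic
  have ha1 : W.a₁ = 1 := by rw [hW]; simp [FreyPackage.freyCurveInt]
  have ha3 : W.a₃ = 0 := by rw [hW]; simp [FreyPackage.freyCurveInt]
  have ha6 : W.a₆ = 0 := by rw [hW]; simp [FreyPackage.freyCurveInt]
  have ha2 : W.a₂ = (P.freyCurveInt.a₂ : AlgebraicClosure ℚ) := by rw [hW]; rfl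
  have ha4 : W.a₄ = (P.freyCurveInt.a₄ : AlgebraicClosure ℚ) := by rw [hW]; rfl
  have hp := P.pp
  have hp5 := P.hp5
  have hb4 : ((2 : ℕ) : ℤ) ∣ P.freyCurveInt.b₄ := by
    simp [WeierstrassCurve.b₄, FreyPackage.AgentFrey.freyCurveInt_a₃]
  have hb6 : ((2 : ℕ) : ℤ) ∣ P.freyCurveInt.b₆ := by
    simp [WeierstrassCurve.b₆, FreyPackage.AgentFrey.freyCurveInt_a₃,
      FreyPackage.AgentFrey.freyCurveInt_a₆]
  have hb8 : ((2 : ℕ) : ℤ) ∣ P.freyCurveInt.b₈ := by
    simp only [WeierstrassCurve.b₈, FreyPackage.AgentFrey.freyCurveInt_a₃,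
      FreyPackage.AgentFrey.freyCurveInt_a₆]
    refine dvd_sub ?_ ?_
    · simp
    · exact dvd_pow hev two_ne_zero
  obtain ⟨R, hR, hR0, hR1⟩ := exists_torsion_near_node P.freyCurveInt W hW A Nat.prime_two hA
    (p := P.p) hb4 hb6 hb8 hp (by omega) (by omega)
  have hI : IntCoeff A.valuation W :=
    { a₁ := by rw [ha1, map_one]
      a₂ := by rw [ha2]; exact v_int_le_one _
      a₃ := by rw [ha3, Valuation.map_zero]; exact zero_le
      a₄ := by rw [ha4]; exact v_int_le_one _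
      a₆ := by rw [ha6, Valuation.map_zero]; exact zero_le }
  have hu : A.valuation (W.a₁ ^ 2 + 4 * W.a₂) = 1 := by
    rw [ha1, ha2]
    have e : (1 : AlgebraicClosure ℚ) ^ 2 + 4 * (P.freyCurveInt.a₂ : AlgebraicClosure ℚ) =
      ((1 + 4 * P.freyCurveInt.a₂ : ℤ) : AlgebraicClosure ℚ) := by push_cast; ring
    rw [e]
    apply valuation_int_eq_one A hA
    exact ⟨1, -(2 * P.freyCurveInt.a₂), by push_cast; ring⟩
  obtain ⟨k, hk0, hk⟩ := exists_xc_pow_eq (v := A.valuation) hI ⟨ha3, ha6⟩ hu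
    (by rw [ha4]; exact valuation_int_lt_one A hA hev)
    (by rw [ha4]; exact Int.cast_ne_zero.mpr hev0) hp (by omega)
    (valuation_nat_eq_one A hA ((Nat.coprime_primes hp Nat.prime_two).mpr (by omega))) hR hR0 hR1
  have htor : P.p • (k • R) = 0 := by rw [smul_comm, hR, smul_zero]
  rw [ha4] at hk
  generalize k • R = Q at hk hk0 htor
  rcases Q with _ | ⟨x, y, h⟩
  · exact absurd rfl hk0
  · exact ⟨x, y, h, htor, hk⟩

/-- **The mod `p` representation of the Frey curve is ramified at `2`.** -/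
theorem frey_not_unramifiedAt_two (P : FreyPackage) : ¬ P.GaloisRepUnramifiedAt 2 := by
  classical
  intro hunr
  obtain ⟨A, hA⟩ := Fermat.Agent.FrobExists.exists_liesOverPrime (L := AlgebraicClosure ℚ)
    Nat.prime_two
  obtain ⟨x, y, h, htor, hx⟩ := frey_exists_torsion P A hA
  have h16 := FreyPackage.AgentFrey.sixteen_mul_a₄ P
  have hp := P.pp
  have hp5 := P.hp5
  have h2lt : A.valuation (2 : AlgebraicClosure ℚ) < 1 := by
    have := A.mem_nonunits_iff.mp hA
    simpa using this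
  have h2pos : 0 < A.valuation (2 : AlgebraicClosure ℚ) := by
    rw [Valuation.pos_iff]; exact two_ne_zero
  -- `v a₄` is a power of `v 2`
  obtain ⟨t, b', hb', hb⟩ : ∃ (t : ℕ) (b' : ℤ), ¬ (2 : ℤ) ∣ b' ∧ P.b = 2 ^ t * b' := by
    obtain ⟨b', h1, h2⟩ := (FiniteMultiplicity.of_not_isUnit (a := (2 : ℤ)) (b := P.b)
      (by norm_num [Int.isUnit_iff]) P.hb0).exists_eq_pow_mul_and_not_dvd
    exact ⟨_, b', h2, h1⟩
  have hodd : ∀ m : ℤ, ¬ (2 : ℤ) ∣ m → A.valuation (m : AlgebraicClosure ℚ) = 1 := by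
    intro m hm
    apply valuation_int_eq_one A hA
    exact_mod_cast ((Prime.coprime_iff_not_dvd Int.prime_two).mpr hm).symm
  have ha : ¬ (2 : ℤ) ∣ P.a := by
    intro h
    obtain ⟨k, hk⟩ := FreyPackage.AgentFrey.a_pow_mod_four P
    have := dvd_pow h hp.ne_zero
    rw [hk] at this
    omega
  have hva₄ : A.valuation (P.freyCurveInt.a₄ : AlgebraicClosure ℚ) *
      A.valuation (2 : AlgebraicClosure ℚ) ^ 4 =
      A.valuation (2 : AlgebraicClosure ℚ) ^ (t * P.p) := by
    have e : (P.freyCurveInt.a₄ : AlgebraicClosure ℚ) * 2 ^ 4 =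
        -((P.a : AlgebraicClosure ℚ) ^ P.p * (b' : AlgebraicClosure ℚ) ^ P.p * 2 ^ (t * P.p)) := by
      have h17 : ((16 * P.freyCurveInt.a₄ : ℤ) : AlgebraicClosure ℚ) =
        ((-(P.a ^ P.p) * (P.b ^ P.p) : ℤ) : AlgebraicClosure ℚ) := by rw [h16]
      rw [hb] at h17
      push_cast at h17
      rw [mul_pow, ← pow_mul] at h17
      linear_combination h17
    rw [← map_pow, ← map_mul, e, Valuation.map_neg, map_mul, map_mul, map_pow, map_pow,
      hodd _ ha, hodd _ hb', one_pow, one_mul, one_mul, map_pow]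
  -- inertia fixes `x`
  have hx0 : x ≠ 0 := by
    rintro rfl
    rw [Valuation.map_zero, zero_pow hp.ne_zero] at hx
    have h0 : A.valuation (P.freyCurveInt.a₄ : AlgebraicClosure ℚ) = 0 :=
      pow_eq_zero_iff two_ne_zero |>.mp hx.symm
    rw [h0, zero_mul] at hva₄
    exact (pow_pos h2pos _).ne hva₄
  have hfix : ∀ σ ∈ A.inertiaSubgroupIn ℚ, σ x = x := by
    intro σ hσ
    have h1 := hunr A hA σ hσ ⟨Point.some x y h, by
      rw [Submodule.mem_torsionBy_iff]
      exact_mod_cast htor⟩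
    have h2 := congrArg Subtype.val h1
    change σ • (Point.some x y h) = Point.some x y h at h2
    rw [Point.algEquiv_smul_def, Point.map_some, Point.some.injEq] at h2
    exact h2.1
  obtain ⟨k, hk⟩ := Fermat.Agent.DR.InertiaValue.exists_zpow_of_inertia_fixed A Nat.prime_two hA
    hx0 hfix
  rw [map_mul, map_zpow₀, Nat.cast_ofNat] at hk
  obtain ⟨V, hV⟩ : ∃ V, V = A.valuation (2 : AlgebraicClosure ℚ) := ⟨_, rfl⟩
  rw [← hV] at hk hva₄ h2lt h2pos
  have e1 : A.valuation x = V ^ (-k) := by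
    rw [zpow_neg]
    exact eq_inv_of_mul_eq_one_left hk
  have e2 : A.valuation (P.freyCurveInt.a₄ : AlgebraicClosure ℚ) = V ^ ((t * P.p : ℤ) - 4) := by
    rw [zpow_sub₀ h2pos.ne', eq_div_iff (zpow_ne_zero _ h2pos.ne')]
    exact_mod_cast hva₄
  rw [e1, e2, ← zpow_natCast, ← zpow_natCast, ← zpow_mul, ← zpow_mul] at hx
  have e3 := zpow_right_injective₀ h2pos h2lt.ne hx
  have e4 : (P.p : ℤ) ∣ 8 := by
    refine ⟨k + 2 * t, ?_⟩
    push_cast at e3
    linear_combination e3
  have e5 : P.p ∣ 2 ^ 3 := by exact_mod_cast e4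
  have := (Nat.prime_dvd_prime_iff_eq hp Nat.prime_two).mp (hp.dvd_of_dvd_pow e5)
  omega

end Fermat.Agent.DR.FreyRamifiedTwo
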