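import Fermat.Agent.EllRed.FrobeniusMain
import Fermat.Agent.FrobCompare
import Fermat.Agent.BrauerNesbittGalois
import Fermat.Agent.DR.FreyRamifiedTwo
import Fermat.Agent.Frey.ModelChange
import Fermat.Prelude.Def_FLTPrelim_ModularRep
import Fermat.Prelude.Def_GaloisRep_ResidualEquiv

/-!
# Residual modularity of level `M` forces `E[p]` to be unramified outside `M p`

Granting S29 (the residual representation attached to an eigenform), the residual representation
`E[p]` (if irreducible) is unramified at every prime `q ∤ M p` for every `M` such that `E` is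
residually modular of level `M`. For the Frey curve, this and the ramification at `2` show that all
such levels are even.
-/

set_option autoImplicit false
set_option linter.style.haveILetI false

open WeierstrassCurve WeierstrassCurve.Affine WeierstrassCurve.Affine.Point Polynomial
open scoped WeierstrassCurve.Affine TensorProduct

namespace Fermat.Agent.DR.ResidualCompare

local notation "Γℚ" => (AlgebraicClosure ℚ ≃ₐ[ℚ] AlgebraicClosure ℚ)

/-- The statement of S29. -/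
def S29Prop : Prop :=
  ∀ {N : ℕ} {g : CuspForm (CongruenceSubgroup.Gamma0 N) 2} (_ : g.IsNormalizedEigenform)
    {p : ℕ} (_ : p.Prime) {k : Type} [Field k] [CharP k p]
    (φ : integralClosure ℤ ℂ →+* k),
    ∃ ρ : ResidualGaloisRep k, ρ.IsAttachedTo g φ ∧
      ∀ ℓ : ℕ, ℓ.Prime → ¬ ℓ ∣ N * p → ρ.IsUnramifiedAt ℓ

variable {p : ℕ} [hp : Fact p.Prime]

/-- `E[p]` is absolutely irreducible if irreducible (`p` odd). -/
theorem isAbsolutelyIrreducible_of_modRepIsIrreducible (hp2 : p ≠ 2) (W : WeierstrassCurve ℤ)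
    (hΔ : W.Δ ≠ 0)
    (hcard : Nat.card (Submodule.torsionBy ℤ
      ((W.map (Int.castRingHom ℚ))⁄(AlgebraicClosure ℚ)).Point p) = p ^ 2)
    (hker : GaloisFactorsThroughFiniteLevel
      (galoisRepModuleEnd (K := AlgebraicClosure ℚ) ℚ (W.map (Int.castRingHom ℚ)) p))
    (hirr : W.ModRepIsIrreducible p) :
    ((W.map (Int.castRingHom ℚ)).residualGaloisRepOf p hcard hker).IsAbsolutelyIrreducible := by
  refine BN2.isAbsolutelyIrreducible_of_isIrreducible_of_isOdd ?_ _ ?_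
    (EllRed.residualGaloisRepOf_isOdd EllRed.frobCharpolyInputAll hcard hker hΔ)
  · have h : ((2 : ℕ) : ZMod p) ≠ 0 := by
      rw [Ne, ZMod.natCast_eq_zero_iff]
      intro h
      exact hp2 ((Nat.prime_dvd_prime_iff_eq hp.out Nat.prime_two).mp h)
    exact_mod_cast h
  · intro N hN
    exact hirr.2 N fun σ x hx => hN σ x hx

theorem charpoly_baseChangeAlong {k k' : Type} [Field k] [Field k'] (ψ : k →+* k')
    (ρ : ResidualGaloisRep k) (σ : Γℚ) :
    LinearMap.charpoly ((ρ.baseChangeAlong ψ).ρ σ) = (LinearMap.charpoly (ρ.ρ σ)).map ψ := by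
  let _ : Algebra k k' := ψ.toAlgebra
  exact LinearMap.charpoly_baseChange (ρ.ρ σ) k'

theorem isUnramifiedAt_of_baseChangeAlong {k k' : Type} [Field k] [Field k'] (ψ : k →+* k')
    (ρ : ResidualGaloisRep k) {q : ℕ} (h : (ρ.baseChangeAlong ψ).IsUnramifiedAt q) :
    ρ.IsUnramifiedAt q := by
  let _ : Algebra k k' := ψ.toAlgebra
  intro A hA σ hσ
  have h1 : (ρ.ρ σ).baseChange k' = 1 := h A hA σ hσ
  refine LinearMap.ext fun x => ?_
  have h2 := LinearMap.congr_fun h1 (1 ⊗ₜ[k] x)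
  rw [LinearMap.baseChange_tmul, Module.End.one_apply] at h2
  have h3 : Function.Injective (fun x : ρ.V => (1 : k') ⊗ₜ[k] x) :=
    Module.FaithfullyFlat.tensorProduct_mk_injective (A := k) (B := k') ρ.V
  exact h3 h2

/-- A residual representation attached to an eigenform congruent to `E` is isomorphic to
`E[p] ⊗ k`. -/
theorem isEquiv_of_congruence (hp2 : p ≠ 2) (W : WeierstrassCurve ℤ) (hΔ : W.Δ ≠ 0)
    (hcard : Nat.card (Submodule.torsionBy ℤ
      ((W.map (Int.castRingHom ℚ))⁄(AlgebraicClosure ℚ)).Point p) = p ^ 2)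
    (hker : GaloisFactorsThroughFiniteLevel
      (galoisRepModuleEnd (K := AlgebraicClosure ℚ) ℚ (W.map (Int.castRingHom ℚ)) p))
    (hirr : W.ModRepIsIrreducible p) {k : Type} [Field k] (ψ : ZMod p →+* k)
    {M : ℕ} (hM : M ≠ 0) (f : CuspForm (CongruenceSubgroup.Gamma0 M) 2)
    (φ : integralClosure ℤ ℂ →+* k) (ρ : ResidualGaloisRep k) (hρ : ρ.IsAttachedTo f φ)
    (m : ℕ) (hm : m ≠ 0)
    (hcong : ∀ ℓ : ℕ, ℓ.Prime → W.IsGoodPrimeFor ℓ → ¬ ℓ ∣ M → ℓ ≠ p → ¬ ℓ ∣ m →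
      ∃ a : integralClosure ℤ ℂ, (a : ℂ) = ModularFormClass.qCoeff f ℓ ∧
        φ a = ((W.apOfModel ℓ : ℤ) : k)) :
    ρ.IsEquiv (((W.map (Int.castRingHom ℚ)).residualGaloisRepOf p hcard hker).baseChangeAlong ψ) ∧
      ρ.IsAbsolutelyIrreducible := by
  have hchar : CharP k p := charP_of_injective_ringHom (f := ψ) ψ.injective p
  have habs := isAbsolutelyIrreducible_of_modRepIsIrreducible hp2 W hΔ hcard hker hirr
  have hcp : ∀ σ : Γℚ, (LinearMap.charpoly (ρ.ρ σ)).map (RingHom.id k) = (LinearMap.charpoly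
      (((W.map (Int.castRingHom ℚ)).residualGaloisRepOf p hcard hker).ρ σ)).map ψ := by
    refine FrobCompare.residual_charpoly_map_eq EllRed.frobDensity (RingHom.id k) ψ ρ _
      (W.Δ.natAbs.primeFactors ∪ M.primeFactors ∪ {p} ∪ m.primeFactors) ?_
    intro ℓ hℓ hℓS A hA σ hσ
    simp only [Finset.mem_union, Finset.mem_singleton, Nat.mem_primeFactors, not_or, hℓ, true_and,
      not_and, Ne, not_not] at hℓS
    obtain ⟨⟨⟨h1, h2⟩, h3⟩, h4⟩ := hℓS
    have hgood : W.IsGoodPrimeFor ℓ := fun h => hΔ (Int.natAbs_eq_zero.mp (h1 (Int.natCast_dvd.mp h)))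
    have hℓM : ¬ ℓ ∣ M := fun h => hM (h2 h)
    have hℓm : ¬ ℓ ∣ m := fun h => hm (h4 h)
    have hℓ0 : (ℓ : k) ≠ 0 := by
      rw [Ne, CharP.cast_eq_zero_iff k p ℓ]
      intro h
      exact h3 ((Nat.prime_dvd_prime_iff_eq hp.out hℓ).mp h).symm
    obtain ⟨a, ha, hcpa⟩ := hρ ℓ hℓ hℓM hℓ0 A hA σ hσ
    obtain ⟨a', ha', hφ⟩ := hcong ℓ hℓ hgood hℓM h3 hℓm
    have haa : a = a' := Subtype.ext (ha.trans ha'.symm)
    rw [Polynomial.map_id, hcpa, haa, hφ,
      EllRed.residualGaloisRepOf_charpoly_frobenius EllRed.frobCharpolyInputAll hcard hker hℓ h3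
        hgood A hA hσ]
    simp
  have h2 : ((W.map (Int.castRingHom ℚ)).residualGaloisRepOf p hcard hker
      |>.baseChangeAlong ψ).IsAbsolutelyIrreducible :=
    BN2.isAbsolutelyIrreducible_of_charpoly_eq (RingHom.id k) ψ _ _ (fun σ => by
      rw [charpoly_baseChangeAlong, Polynomial.map_id]) habs
  refine ⟨BN2.isEquiv_of_charpoly_eq _ _ (fun σ => ?_) h2, ?_⟩
  · rw [charpoly_baseChangeAlong, ← hcp σ, Polynomial.map_id]
  · exact BN2.isAbsolutelyIrreducible_of_charpoly_eq (RingHom.id k) ψ _ _ hcp habs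

theorem isUnramifiedAt_of_isEquiv {k : Type} [Field k] {ρ ρ' : ResidualGaloisRep k}
    (h : ρ.IsEquiv ρ') {q : ℕ} (hρ : ρ.IsUnramifiedAt q) : ρ'.IsUnramifiedAt q := by
  obtain ⟨e⟩ := h
  intro A hA σ hσ
  refine LinearMap.ext fun x => ?_
  obtain ⟨y, rfl⟩ := e.toLinearEquiv.surjective x
  rw [← e.map_apply, hρ A hA σ hσ]
  rfl

/-- **Residual modularity of level `M` implies that `E[p]` is unramified at `q ∤ M p`.** -/
theorem isUnramifiedAt_of_isResiduallyModularOfLevel (h29 : S29Prop) (hp2 : p ≠ 2)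
    (W : WeierstrassCurve ℤ) (hΔ : W.Δ ≠ 0)
    (hcard : Nat.card (Submodule.torsionBy ℤ
      ((W.map (Int.castRingHom ℚ))⁄(AlgebraicClosure ℚ)).Point p) = p ^ 2)
    (hker : GaloisFactorsThroughFiniteLevel
      (galoisRepModuleEnd (K := AlgebraicClosure ℚ) ℚ (W.map (Int.castRingHom ℚ)) p))
    (hirr : W.ModRepIsIrreducible p) {M q : ℕ} (hq : q.Prime) (hqp : q ≠ p) (hqM : ¬ q ∣ M)
    (hres : W.IsResiduallyModularOfLevel p M) :
    ((W.map (Int.castRingHom ℚ)).residualGaloisRepOf p hcard hker).IsUnramifiedAt q := by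
  have hM : M ≠ 0 := by rintro rfl; exact hqM (dvd_zero q)
  obtain ⟨f, 𝔪, hf, h𝔪, hpm, hcong⟩ := hres
  letI : Field (integralClosure ℤ ℂ ⧸ 𝔪) := Ideal.Quotient.field 𝔪
  have hp0 : ((p : ℕ) : integralClosure ℤ ℂ ⧸ 𝔪) = 0 := by
    have := (Ideal.Quotient.eq_zero_iff_mem (I := 𝔪)).mpr hpm
    simpa using this
  have hchar : CharP (integralClosure ℤ ℂ ⧸ 𝔪) p := by
    have h1 : ringChar (integralClosure ℤ ℂ ⧸ 𝔪) ∣ p := ringChar.dvd hp0
    rcases (Nat.dvd_prime hp.out).mp h1 with h2 | h2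
    · exact absurd h2 (CharP.ringChar_ne_one)
    · exact ringChar.of_eq h2
  let ψ : ZMod p →+* (integralClosure ℤ ℂ ⧸ 𝔪) := ZMod.castHom (dvd_refl p) _
  let φ : integralClosure ℤ ℂ →+* (integralClosure ℤ ℂ ⧸ 𝔪) := Ideal.Quotient.mk 𝔪
  obtain ⟨ρ, hatt, hunr⟩ := h29 hf hp.out φ
  have hE := (isEquiv_of_congruence hp2 W hΔ hcard hker hirr ψ hM f φ ρ hatt 1 one_ne_zero
    (fun ℓ hℓ hgood hℓM hℓp _ => by
      obtain ⟨a, ha, ha'⟩ := hcong ℓ hℓ hgood hℓM hℓp
      refine ⟨a, ha, ?_⟩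
      have := (Ideal.Quotient.eq_zero_iff_mem (I := 𝔪)).mpr ha'
      rw [map_sub, map_intCast, sub_eq_zero] at this
      exact this)).1
  refine isUnramifiedAt_of_baseChangeAlong ψ _ (isUnramifiedAt_of_isEquiv hE (hunr q hq ?_))
  intro h
  rcases hq.dvd_mul.mp h with h | h
  · exact hqM h
  · exact hqp ((Nat.prime_dvd_prime_iff_eq hq hp.out).mp h)

/-- **Frey curve**: `ModularRepOfLevel M` implies that `E[p]` is unramified at `q ∤ M p`. -/
theorem frey_unramifiedAt_of_modularRepOfLevel (h29 : S29Prop) (P : FreyPackage)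
    (hirr : GaloisRepIsIrreducible (K := AlgebraicClosure ℚ) ℚ P.freyCurve P.p) {M q : ℕ}
    (hq : q.Prime) (hqp : q ≠ P.p) (hqM : ¬ q ∣ M) (hM : P.ModularRepOfLevel M) :
    P.GaloisRepUnramifiedAt q := by
  have : Fact P.p.Prime := ⟨P.pp⟩
  have hp5 := P.hp5
  obtain ⟨f, W, 𝔪, hf, hW, h𝔪, hpm, hcong⟩ := hM
  have hΔ := FreyPackage.AgentFrey.integralModel_Δ_ne_zero P hW
  have hell := EllTorsion.isElliptic_map_of_Δ_ne_zero hΔ
  have hcard := EllTorsion.card_torsionBy_rat (W.map (Int.castRingHom ℚ)) P.pp.ne_zero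
  have hker := EllTorsion.galoisRepModuleEnd_factorsThroughFiniteLevel
    (W.map (Int.castRingHom ℚ)) P.pp.ne_zero
  have hirrW : W.ModRepIsIrreducible P.p :=
    (VarChange.modRepIsIrreducible_iff_of_isIntegralModelOf hW _).mpr hirr
  have h := isUnramifiedAt_of_isResiduallyModularOfLevel h29 (by omega) W hΔ hcard hker hirrW hq
    hqp hqM ⟨f, 𝔪, hf, h𝔪, hpm, hcong⟩
  refine (VarChange.galoisRepUnramifiedAt_iff_of_isIntegralModelOf hW _ _).mp ?_
  intro A hA σ hσ x
  exact LinearMap.congr_fun (h A hA σ hσ) x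

/-- **Frey curve**: all levels `M` with `ModularRepOfLevel M` are even. -/
theorem frey_two_dvd_of_modularRepOfLevel (h29 : S29Prop) (P : FreyPackage)
    (hirr : GaloisRepIsIrreducible (K := AlgebraicClosure ℚ) ℚ P.freyCurve P.p) {M : ℕ}
    (hM : P.ModularRepOfLevel M) : 2 ∣ M := by
  by_contra h2
  have hp5 := P.hp5
  exact FreyRamifiedTwo.frey_not_unramifiedAt_two P
    (frey_unramifiedAt_of_modularRepOfLevel h29 P hirr Nat.prime_two (by omega) h2 hM)

end Fermat.Agent.DR.ResidualCompare
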