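import Fermat.Agent.DR.PairOrtho

set_option autoImplicit false

/-!
# Two independent reductions of the same function field

`pair R1 R2` is the joint reduction.  Main results (`e` a separating element, `K` closed under
square roots):

* `exists_zero_right` / `exists_joint`: approximation;
* `card_add_card_le`: `Σ fᵢ ≤ n`;
* `mem_of_red`: if the known parts `E1, E2` of the residue fields already exhaust the degree, the
  residue fields are `E1, E2`;
* `hasOrtho_pair`: orthonormal bases for the joint reduction.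
-/

noncomputable section

open AlgebraicCurve Polynomial IntermediateField
open Fermat.Agent.JRED Fermat.Agent.DR.PairOrtho

namespace Fermat.Agent.DR.PairDegree

variable {K F k F1 F2 : Type*} [Field K] [Field F] [Algebra K F] [Field k]
  [Field F1] [Algebra k F1] [Field F2] [Algebra k F2]
variable {A : ValuationSubring K} {π : A →+* k}

/-- The joint reduction. -/
def pair (R1 : RedDatum K F k F1 A π) (R2 : RedDatum K F k F2 A π) :
    RingRed K F k (F1 × F2) A π where
  Red w u := R1.Red w u.1 ∧ R2.Red w u.2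
  add h h' := ⟨R1.add h.1 h'.1, R2.add h.2 h'.2⟩
  mul h h' := ⟨R1.mul h.1 h'.1, R2.mul h.2 h'.2⟩
  const a := ⟨R1.const a, R2.const a⟩
  unique h h' := Prod.ext (R1.unique h.1 h'.1) (R2.unique h.2 h'.2)
  normalize w hw := by
    obtain ⟨c, hc, u, hu, h⟩ := R1.normalize w hw
    obtain ⟨c', hc', u', hu', h'⟩ := R2.normalize w hw
    rcases A.mem_or_inv_mem (c / c') with h1 | h1
    · refine ⟨c, hc, (u, algebraMap k F2 (π ⟨c / c', h1⟩) * u'), fun h0 => hu (congrArg Prod.fst h0),
        h, ?_⟩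
      have h2 := RedDatum.smul_mem h1 h'
      rw [← mul_assoc, ← map_mul, div_mul_cancel₀ _ hc'] at h2
      exact h2
    · refine ⟨c', hc', (algebraMap k F1 (π ⟨(c / c')⁻¹, h1⟩) * u, u'),
        fun h0 => hu' (congrArg Prod.snd h0), ?_, h'⟩
      have h2 := RedDatum.smul_mem h1 h
      have h3 : (c / c')⁻¹ * c = c' := by rw [inv_div, div_mul_cancel₀ _ hc]
      rw [← mul_assoc, ← map_mul, h3] at h2
      exact h2

theorem pair_red {R1 : RedDatum K F k F1 A π} {R2 : RedDatum K F k F2 A π} {w : F}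
    {u : F1 × F2} : (pair R1 R2).Red w u ↔ R1.Red w u.1 ∧ R2.Red w u.2 := Iff.rfl

section Approx

variable {R1 : RedDatum K F k F1 A π} {R2 : RedDatum K F k F2 A π}

/-- A separating element. -/
def Separated (R1 : RedDatum K F k F1 A π) (R2 : RedDatum K F k F2 A π) : Prop :=
  ∃ e : F, R1.Red e 1 ∧ R2.Red e 0

theorem Separated.symm (h : Separated R1 R2) : Separated R2 R1 := by
  obtain ⟨e, h1, h2⟩ := h
  refine ⟨1 - e, ?_, ?_⟩
  · simpa using RedDatum.sub R2.one h2
  · simpa using RedDatum.sub R1.one h1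

/-- A criterion for separation. -/
theorem separated_of {w w' : F} (hπ : Function.Surjective π) {u' : F1} {v : F2}
    (h1 : R1.Red w 0) (h2 : R2.Red w v)
    (h1' : R1.Red w' u') (h2' : R2.Red w' 0) (hv : v ≠ 0) (hu' : u' ≠ 0) :
    Separated R1 R2 := by
  refine ⟨w' / (w + w'), ?_, ?_⟩
  · have h := RedDatum.div hπ h1' (R1.add h1 h1') (by rwa [zero_add])
    rwa [zero_add, div_self hu'] at h
  · have h := RedDatum.div hπ h2' (R2.add h2 h2') (by rwa [add_zero])
    rwa [zero_div] at h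

variable (hπ : Function.Surjective π) (hsq : ∀ c : K, ∃ s : K, s * s = c)

include hπ hsq in
/-- Approximation: a given reduction for `R1`, zero for `R2`. -/
theorem exists_zero_right (hsep : Separated R1 R2) {w : F} {u : F1} (h : R1.Red w u) :
    ∃ w' : F, R1.Red w' u ∧ R2.Red w' 0 := by
  obtain ⟨e, he1, he2⟩ := hsep
  by_cases hw0 : w = 0
  · refine ⟨w, h, ?_⟩
    rw [hw0]; exact R2.zero
  rcases RedDatum.red_or_inv (R := R2) hπ w with ⟨v, hv⟩ | hinv
  · refine ⟨w * e, ?_, ?_⟩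
    · simpa using R1.mul h he1
    · simpa using R2.mul hv he2
  · set e2 := 1 - e with he2def
    have h21 : R1.Red e2 0 := by simpa using RedDatum.sub R1.one he1
    have h22 : R2.Red e2 1 := by simpa using RedDatum.sub R2.one he2
    have he20 : e2 ≠ 0 := RedDatum.ne_zero_of_red h22 one_ne_zero
    obtain ⟨c, hc, u', hu', hcu⟩ := R1.normalize e2 he20
    have hcA : c ∉ A := by
      intro hcA
      have h3 := RedDatum.smul_mem hcA h21
      rw [mul_zero] at h3
      exact hu' (R1.unique hcu h3)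
    obtain ⟨s, hs⟩ := hsq c
    have hsA : s ∉ A := fun hsA => hcA (hs ▸ mul_mem hsA hsA)
    have hs0 : s ≠ 0 := fun h0 => hsA (h0 ▸ A.zero_mem)
    obtain ⟨hsi, hsi0⟩ := res_inv_eq_zero hπ hsA
    set t := algebraMap K F s * e2 with ht
    have ht0 : t ≠ 0 := mul_ne_zero ((_root_.map_ne_zero _).mpr hs0) he20
    have ht1 : R1.Red t 0 := by
      have h3 := RedDatum.smul_mem hsi hcu
      rw [hsi0, map_zero, zero_mul, ← mul_assoc, ← map_mul, ← hs, ← mul_assoc,
        inv_mul_cancel₀ hs0, one_mul] at h3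
      exact h3
    have ht2 : R2.Red t⁻¹ 0 := by
      have h3 := RedDatum.smul_mem hsi (RedDatum.inv hπ h22 one_ne_zero)
      rw [hsi0, map_zero, zero_mul] at h3
      rw [ht, mul_inv, ← map_inv₀]
      exact h3
    have hden1 : R1.Red (1 + w * t) 1 := by simpa using R1.add R1.one (R1.mul h ht1)
    have hden1' : (1 + w * t) ≠ 0 := RedDatum.ne_zero_of_red hden1 one_ne_zero
    refine ⟨w / (1 + w * t), ?_, ?_⟩
    · have h3 := RedDatum.div hπ h hden1 one_ne_zero
      rwa [div_one] at h3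
    · have hden2 : R2.Red (1 + w⁻¹ * t⁻¹) 1 := by
        simpa using R2.add R2.one (R2.mul hinv ht2)
      have hden2' : (1 + w⁻¹ * t⁻¹) ≠ 0 := RedDatum.ne_zero_of_red hden2 one_ne_zero
      have h3 := RedDatum.div hπ ht2 hden2 one_ne_zero
      rw [zero_div] at h3
      have h4 : w / (1 + w * t) = t⁻¹ / (1 + w⁻¹ * t⁻¹) := by
        rw [div_eq_div_iff hden1' hden2']
        field_simp
        ring
      rw [h4]
      exact h3

include hπ hsq in
theorem exists_zero_left (hsep : Separated R1 R2) {w : F} {u : F2} (h : R2.Red w u) :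
    ∃ w' : F, R1.Red w' 0 ∧ R2.Red w' u := by
  obtain ⟨w', h1, h2⟩ := exists_zero_right hπ hsq hsep.symm h
  exact ⟨w', h2, h1⟩

include hπ hsq in
theorem exists_joint (hsep : Separated R1 R2) {w1 w2 : F} {u1 : F1} {u2 : F2}
    (h1 : R1.Red w1 u1) (h2 : R2.Red w2 u2) : ∃ w : F, R1.Red w u1 ∧ R2.Red w u2 := by
  obtain ⟨a, ha1, ha2⟩ := exists_zero_right hπ hsq hsep h1
  obtain ⟨b, hb1, hb2⟩ := exists_zero_left hπ hsq hsep h2
  exact ⟨a + b, by simpa using R1.add ha1 hb1, by simpa using R2.add ha2 hb2⟩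

end Approx

section Families

variable {R1 : RedDatum K F k F1 A π} {R2 : RedDatum K F k F2 A π}

/-- The `k[x]`-linear independence of a family, expressed over `k`. -/
def IndepPow {k E : Type*} [Field k] [Field E] [Algebra k E] (x : E) {ι : Type*} (e : ι → E) :
    Prop := LinearIndependent k (fun p : ℕ × ι => x ^ p.1 * e p.2)

theorem indepPow_of {k E : Type*} [Field k] [Field E] [Algebra k E] {x : E}
    (htr : Transcendental k x) {ι : Type*} {e : ι → E} (he : LinearIndependent k⟮x⟯ e) :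
    IndepPow (k := k) x e := by
  have h1 : Transcendental k (AdjoinSimple.gen k x) := by
    intro h
    apply htr
    have h0 := h.algebraMap (A := E)
    simpa using h0
  have h2 := linearIndependent_smul (linearIndependent_pow_of_transcendental h1) he
  unfold IndepPow
  convert h2 using 1
  ext1 p
  show x ^ p.1 * e p.2 = (AdjoinSimple.gen k x ^ p.1) • e p.2
  rw [Algebra.smul_def, map_pow, AdjoinSimple.algebraMap_gen]

theorem IndepPow.map {k E E' : Type*} [Field k] [Field E] [Algebra k E] [Field E'] [Algebra k E']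
    {x : E} {ι : Type*} {e : ι → E} (h : IndepPow (k := k) x e) (f : E →ₐ[k] E') :
    IndepPow (k := k) (f x) (fun i => f (e i)) := by
  have h1 := LinearIndependent.map' h f.toLinearMap
    (LinearMap.ker_eq_bot.mpr f.toRingHom.injective)
  have h2 : (fun p : ℕ × ι => f x ^ p.1 * f (e p.2)) =
      (⇑f.toLinearMap ∘ fun p : ℕ × ι => x ^ p.1 * e p.2) := by
    ext1 p
    show f x ^ p.1 * f (e p.2) = f (x ^ p.1 * e p.2)
    rw [map_mul, map_pow]
  unfold IndepPow
  rw [h2]
  exact h1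

/-- Joint orthonormal family from two families. -/
theorem isOrtho_sum {x : F} {x1 : F1} {x2 : F2} (hx1 : R1.Red x x1) (hx2 : R2.Red x x2)
    {ι1 ι2 : Type*} {e1 : ι1 → F} {e2 : ι2 → F} {b1 : ι1 → F1} {b2 : ι2 → F2}
    (h11 : ∀ i, R1.Red (e1 i) (b1 i)) (h12 : ∀ i, R2.Red (e1 i) 0)
    (h21 : ∀ i, R1.Red (e2 i) 0) (h22 : ∀ i, R2.Red (e2 i) (b2 i))
    (hb1 : IndepPow (k := k) x1 b1) (hb2 : IndepPow (k := k) x2 b2) :
    (pair R1 R2).IsOrtho (fun p : ℕ × (ι1 ⊕ ι2) => x ^ p.1 * Sum.elim e1 e2 p.2)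
      (fun p : ℕ × (ι1 ⊕ ι2) => ((x1, x2) : F1 × F2) ^ p.1 *
        Sum.elim (fun i => ((b1 i, 0) : F1 × F2)) (fun i => (0, b2 i)) p.2) := by
  refine ⟨?_, ?_⟩
  · rintro ⟨n, i | i⟩
    · exact ⟨by simpa using R1.mul (RedDatum.pow hx1 n) (h11 i),
        by simpa using R2.mul (RedDatum.pow hx2 n) (h12 i)⟩
    · exact ⟨by simpa using R1.mul (RedDatum.pow hx1 n) (h21 i),
        by simpa using R2.mul (RedDatum.pow hx2 n) (h22 i)⟩
  · have h1 := linearIndependent_inl_union_inr' hb1 hb2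
    have h2 := h1.comp (Equiv.prodSumDistrib ℕ ι1 ι2) (Equiv.injective _)
    have h3 : (fun p : ℕ × (ι1 ⊕ ι2) => ((x1, x2) : F1 × F2) ^ p.1 *
        Sum.elim (fun i => ((b1 i, 0) : F1 × F2)) (fun i => (0, b2 i)) p.2) =
        (Sum.elim (⇑(LinearMap.inl k F1 F2) ∘ fun p : ℕ × ι1 => x1 ^ p.1 * b1 p.2)
        (⇑(LinearMap.inr k F1 F2) ∘ fun p : ℕ × ι2 => x2 ^ p.1 * b2 p.2) ∘
          ⇑(Equiv.prodSumDistrib ℕ ι1 ι2)) := by
      ext1 p
      obtain ⟨n, i | i⟩ := p
      · simp [Equiv.prodSumDistrib]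
      · simp [Equiv.prodSumDistrib]
    rw [h3]
    exact h2

variable (hπ : Function.Surjective π) (hsq : ∀ c : K, ∃ s : K, s * s = c)

include hπ hsq in
/-- Lifts of two independent families, `K(x)`-linearly independent. -/
theorem exists_lifts (hsep : Separated R1 R2) {x : F} {x1 : F1} {x2 : F2}
    (hx1 : R1.Red x x1) (hx2 : R2.Red x x2)
    {ι1 ι2 : Type*} {b1 : ι1 → F1} {b2 : ι2 → F2}
    (h1 : ∀ i, ∃ w, R1.Red w (b1 i)) (h2 : ∀ i, ∃ w, R2.Red w (b2 i))
    (hb1 : IndepPow (k := k) x1 b1) (hb2 : IndepPow (k := k) x2 b2) :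
    ∃ (e : ι1 ⊕ ι2 → F), LinearIndependent K⟮x⟯ e ∧
      (pair R1 R2).IsOrtho (fun p : ℕ × (ι1 ⊕ ι2) => x ^ p.1 * e p.2)
      (fun p : ℕ × (ι1 ⊕ ι2) => ((x1, x2) : F1 × F2) ^ p.1 *
        Sum.elim (fun i => ((b1 i, 0) : F1 × F2)) (fun i => (0, b2 i)) p.2) := by
  choose w1 hw1 using h1
  choose w2 hw2 using h2
  choose e1 he11 he12 using fun i => exists_zero_right hπ hsq hsep (hw1 i)
  choose e2 he21 he22 using fun i => exists_zero_left hπ hsq hsep (hw2 i)
  have hO := isOrtho_sum hx1 hx2 he11 he12 he21 he22 hb1 hb2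
  exact ⟨Sum.elim e1 e2, linearIndependent_adjoin (hO.linearIndependent hπ), hO⟩

include hπ hsq in
theorem card_add_card_le (hsep : Separated R1 R2) {x : F} {x1 : F1} {x2 : F2}
    (hx1 : R1.Red x x1) (hx2 : R2.Red x x2) [FiniteDimensional K⟮x⟯ F]
    {ι1 ι2 : Type*} [Fintype ι1] [Fintype ι2] {b1 : ι1 → F1} {b2 : ι2 → F2}
    (h1 : ∀ i, ∃ w, R1.Red w (b1 i)) (h2 : ∀ i, ∃ w, R2.Red w (b2 i))
    (hb1 : IndepPow (k := k) x1 b1) (hb2 : IndepPow (k := k) x2 b2) :
    Fintype.card ι1 + Fintype.card ι2 ≤ Module.finrank K⟮x⟯ F := by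
  obtain ⟨e, he, -⟩ := exists_lifts hπ hsq hsep hx1 hx2 h1 h2 hb1 hb2
  have h := he.fintype_card_le_finrank
  rwa [Fintype.card_sum] at h

theorem indepPow_empty {k E : Type*} [Field k] [Field E] [Algebra k E] (x : E)
    (e : Fin 0 → E) : IndepPow (k := k) x e := by
  unfold IndepPow
  exact linearIndependent_empty_type

include hπ hsq in
/-- Known parts of the residue field are finite over `k(x1)`. -/
theorem finiteDimensional_left (hsep : Separated R1 R2) {x : F} {x1 : F1} {x2 : F2}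
    (hx1 : R1.Red x x1) (hx2 : R2.Red x x2) [FiniteDimensional K⟮x⟯ F]
    (ht1 : Transcendental k x1) {E1 : IntermediateField k F1} (hx1E : x1 ∈ E1)
    (hE1 : ∀ u ∈ E1, ∃ w, R1.Red w u) :
    FiniteDimensional k⟮(⟨x1, hx1E⟩ : E1)⟯ E1 := by
  have ht1' : Transcendental k (⟨x1, hx1E⟩ : E1) := by
    intro h
    apply ht1
    have h0 := h.algebraMap (A := F1)
    simpa using h0
  have key : ∀ (n : ℕ) (ebar : Fin n → E1),
      LinearIndependent k⟮(⟨x1, hx1E⟩ : E1)⟯ ebar → n ≤ Module.finrank K⟮x⟯ F := by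
    intro n ebar hli
    have h1 := (indepPow_of ht1' hli).map E1.val
    have h2 := card_add_card_le (ι2 := Fin 0) (b2 := fun i => i.elim0) hπ hsq hsep hx1 hx2
      (fun i => hE1 _ (ebar i).2) (fun i => i.elim0) h1 (indepPow_empty x2 _)
    simpa using h2
  by_contra hinf
  have hinf' : Module.rank k⟮(⟨x1, hx1E⟩ : E1)⟯ E1 ≥ Cardinal.aleph0 := by
    rw [ge_iff_le, ← not_lt]
    intro h
    exact hinf (Module.rank_lt_aleph0_iff.mp h)
  obtain ⟨s, hs, hli⟩ := exists_finset_linearIndependent_of_le_rank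
    (R := k⟮(⟨x1, hx1E⟩ : E1)⟯) (M := E1) (n := Module.finrank K⟮x⟯ F + 1)
    ((Cardinal.natCast_lt_aleph0.le).trans hinf')
  have h2 := hli.comp (s.equivFin.symm) (s.equivFin.symm.injective)
  have h3 := key _ _ h2
  omega

include hπ hsq in
/-- If the known parts `E1, E2` of the residue fields exhaust the degree, then the residue field
of `R1` is contained in `E1`. -/
theorem mem_of_red_left (hsep : Separated R1 R2) {x : F} {x1 : F1} {x2 : F2}
    (hx1 : R1.Red x x1) (hx2 : R2.Red x x2) [FiniteDimensional K⟮x⟯ F]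
    (ht1 : Transcendental k x1) (ht2 : Transcendental k x2)
    {E1 : IntermediateField k F1} (hx1E : x1 ∈ E1)
    {E2 : IntermediateField k F2} (hx2E : x2 ∈ E2)
    (hE1 : ∀ u ∈ E1, ∃ w, R1.Red w u) (hE2 : ∀ u ∈ E2, ∃ w, R2.Red w u)
    (hdeg : Module.finrank K⟮x⟯ F ≤ Module.finrank k⟮(⟨x1, hx1E⟩ : E1)⟯ E1 +
      Module.finrank k⟮(⟨x2, hx2E⟩ : E2)⟯ E2) {w : F} {u : F1} (hw : R1.Red w u) : u ∈ E1 := by
  by_contra hu
  have hf1 := finiteDimensional_left hπ hsq hsep hx1 hx2 ht1 hx1E hE1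
  have hf2 := finiteDimensional_left hπ hsq hsep.symm hx2 hx1 ht2 hx2E hE2
  have ht1' : Transcendental k (⟨x1, hx1E⟩ : E1) := by
    intro h
    apply ht1
    have h0 := h.algebraMap (A := F1)
    simpa using h0
  have ht2' : Transcendental k (⟨x2, hx2E⟩ : E2) := by
    intro h
    apply ht2
    have h0 := h.algebraMap (A := F2)
    simpa using h0
  let b1 := Module.finBasis k⟮(⟨x1, hx1E⟩ : E1)⟯ E1
  let b2 := Module.finBasis k⟮(⟨x2, hx2E⟩ : E2)⟯ E2
  have hb1 : IndepPow (k := k) x1 (fun i => (b1 i : F1)) :=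
    (indepPow_of ht1' b1.linearIndependent).map E1.val
  have hb2 : IndepPow (k := k) x2 (fun i => (b2 i : F2)) :=
    (indepPow_of ht2' b2.linearIndependent).map E2.val
  have hli1 : LinearIndependent k⟮x1⟯ (fun i => (b1 i : F1)) := linearIndependent_adjoin hb1
  have hle : k⟮x1⟯ ≤ E1 := by
    rw [IntermediateField.adjoin_simple_le_iff]
    exact hx1E
  have hspan : ∀ z ∈ Submodule.span k⟮x1⟯ (Set.range (fun i => (b1 i : F1))), z ∈ E1 := by
    intro z hz
    induction hz using Submodule.span_induction with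
    | mem y hy =>
      obtain ⟨i, rfl⟩ := hy
      exact (b1 i).2
    | zero => exact E1.zero_mem
    | add y y' _ _ h h' => exact E1.add_mem h h'
    | smul a y _ h => exact E1.mul_mem (hle a.2) h
  have hli : LinearIndependent k⟮x1⟯ (Fin.cons u (fun i => (b1 i : F1)) :
      Fin (Module.finrank k⟮(⟨x1, hx1E⟩ : E1)⟯ E1 + 1) → F1) := by
    rw [linearIndependent_finCons]
    exact ⟨hli1, fun hcon => hu (hspan u hcon)⟩
  have hI := indepPow_of ht1 hli
  have hcard := card_add_card_le hπ hsq hsep hx1 hx2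
    (b1 := (Fin.cons u (fun i => (b1 i : F1)) :
      Fin (Module.finrank k⟮(⟨x1, hx1E⟩ : E1)⟯ E1 + 1) → F1))
    (b2 := fun i => (b2 i : F2)) (fun i => by
      refine Fin.cases ?_ (fun j => ?_) i
      · exact ⟨w, by simpa using hw⟩
      · obtain ⟨w', hw'⟩ := hE1 _ (b1 j).2
        exact ⟨w', by simpa using hw'⟩) (fun i => hE2 _ (b2 i).2) hI hb2
  rw [Fintype.card_fin, Fintype.card_fin] at hcard
  omega

end Families

section Restrict

/-- Restrict the target of a reduction to an intermediate field containing all reductions. -/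
def restrictRed (R : RedDatum K F k F1 A π) (E : IntermediateField k F1)
    (h : ∀ {w : F} {u : F1}, R.Red w u → u ∈ E) : RedDatum K F k E A π where
  Red w u := R.Red w (u : F1)
  add h h' := R.add h h'
  mul h h' := R.mul h h'
  const a := R.const a
  unique h h' := Subtype.ext (R.unique h h')
  normalize w hw := by
    obtain ⟨c, hc, u, hu, hr⟩ := R.normalize w hw
    exact ⟨c, hc, ⟨u, h hr⟩, fun h0 => hu (congrArg Subtype.val h0), hr⟩

theorem restrictRed_red {R : RedDatum K F k F1 A π} {E : IntermediateField k F1}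
    {h : ∀ {w : F} {u : F1}, R.Red w u → u ∈ E} {w : F} {u : E} :
    (restrictRed R E h).Red w u ↔ R.Red w (u : F1) := Iff.rfl

end Restrict

section Ortho

variable {R1 : RedDatum K F k F1 A π} {R2 : RedDatum K F k F2 A π}

/-- Normalisation of polynomials. -/
theorem exists_scale_poly (A : ValuationSubring K) {P : K[X]} (hP : P ≠ 0) :
    ∃ c : K, c ≠ 0 ∧ (∀ n, c * P.coeff n ∈ A) ∧ ∃ n, c * P.coeff n = 1 := by
  obtain ⟨n₀, hn₀, hmax⟩ := P.support.exists_max_image (fun n => A.valuation (P.coeff n))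
    (Polynomial.support_nonempty.mpr hP)
  have h0 : P.coeff n₀ ≠ 0 := Polynomial.mem_support_iff.mp hn₀
  refine ⟨(P.coeff n₀)⁻¹, inv_ne_zero h0, fun n => ?_, n₀, inv_mul_cancel₀ h0⟩
  by_cases hn : P.coeff n = 0
  · rw [hn, mul_zero]; exact A.zero_mem
  rw [← A.valuation_le_one_iff, map_mul, map_inv₀]
  have hpos : A.valuation (P.coeff n₀) ≠ 0 := (Valuation.ne_zero_iff _).mpr h0
  calc (A.valuation (P.coeff n₀))⁻¹ * A.valuation (P.coeff n)
      ≤ (A.valuation (P.coeff n₀))⁻¹ * A.valuation (P.coeff n₀) := by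
        gcongr; exact hmax n (Polynomial.mem_support_iff.mpr hn)
    _ = 1 := inv_mul_cancel₀ hpos

theorem coeff_eq_zero_of_sum {k Fk : Type*} [Field k] [Field Fk] [Algebra k Fk]
    {xbar : Fk} (htr : Transcendental k xbar) (N : ℕ) (a : ℕ → k)
    (h0 : ∑ n ∈ Finset.range (N + 1), a n • xbar ^ n = 0) (n : ℕ) (hn : n ≤ N) : a n = 0 := by
  have h1 := linearIndependent_pow_of_transcendental htr
  rw [linearIndependent_iff'] at h1
  refine h1 (Finset.range (N + 1)) _ h0 n ?_
  rw [Finset.mem_range]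
  omega

/-- The reduction of a scaled polynomial in `x`. -/
theorem exists_red_aeval {Fk : Type*} [Field Fk] [Algebra k Fk] {R : RedDatum K F k Fk A π}
    {x : F} {xbar : Fk} (hx : R.Red x xbar) (htr : Transcendental k xbar) {P : K[X]}
    {c : K} (hc : ∀ n, c * P.coeff n ∈ A) (hc1 : ∃ n, c * P.coeff n = 1) :
    ∃ u : Fk, u ≠ 0 ∧ R.Red (algebraMap K F c * aeval x P) u := by
  obtain ⟨a, ha⟩ : ∃ a : ℕ → A, ∀ n, (a n : K) = c * P.coeff n :=
    ⟨fun n => ⟨c * P.coeff n, hc n⟩, fun n => rfl⟩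
  have h1 : algebraMap K F c * aeval x P =
      ∑ n ∈ Finset.range (P.natDegree + 1), algebraMap K F (a n) * x ^ n := by
    rw [Polynomial.aeval_eq_sum_range, Finset.mul_sum]
    refine Finset.sum_congr rfl fun n _ => ?_
    rw [Algebra.smul_def, ha, map_mul, mul_assoc]
  have h2 : R.Red (algebraMap K F c * aeval x P) (∑ n ∈ Finset.range (P.natDegree + 1),
      π (a n) • xbar ^ n) := by
    rw [h1]
    refine RedDatum.sum fun n _ => ?_
    rw [Algebra.smul_def]
    exact R.mul (R.const (a n)) (RedDatum.pow hx n)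
  refine ⟨_, fun h0 => ?_, h2⟩
  obtain ⟨n, hn⟩ := hc1
  have hn0 : P.coeff n ≠ 0 := fun h => by
    rw [h, mul_zero] at hn
    exact zero_ne_one hn
  have h4 := coeff_eq_zero_of_sum htr P.natDegree (fun n => π (a n)) h0 n
    (Polynomial.le_natDegree_of_ne_zero hn0)
  have h5 : a n = 1 := Subtype.ext ((ha n).trans hn)
  simp only [h5, map_one] at h4
  exact one_ne_zero h4

/-- Common denominators: if `e` spans `F` over `K(x)`, every finite dimensional `K`-subspace is
moved into the `K`-span of the `x ^ n * e i` by a nonzero element of `K[x]`. -/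
theorem exists_denominator {x : F} {ι : Type*} {e : ι → F}
    (hspan : ⊤ ≤ Submodule.span K⟮x⟯ (Set.range e))
    (W : Submodule K F) [FiniteDimensional K W] :
    ∃ q : F, q ≠ 0 ∧ q ∈ Algebra.adjoin K {x} ∧
      W.map (LinearMap.mulLeft K q) ≤
        Submodule.span K (Set.range (fun p : ℕ × ι => x ^ p.1 * e p.2)) := by
  classical
  -- the span is stable under `K[x]`
  set U := Submodule.span K (Set.range (fun p : ℕ × ι => x ^ p.1 * e p.2)) with hU
  have hxU : ∀ z ∈ U, x * z ∈ U := by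
    intro z hz
    have : U ≤ U.comap (LinearMap.mulLeft K x) := by
      rw [hU, Submodule.span_le]
      rintro _ ⟨p, rfl⟩
      have h0 : x * (x ^ p.1 * e p.2) ∈
          Submodule.span K (Set.range (fun p : ℕ × ι => x ^ p.1 * e p.2)) := by
        refine Submodule.subset_span ⟨(p.1 + 1, p.2), ?_⟩
        simp only
        ring
      exact h0
    exact this hz
  have hqU : ∀ q ∈ Algebra.adjoin K {x}, ∀ z ∈ U, q * z ∈ U := by
    intro q hq z hz
    rw [Algebra.adjoin_singleton_eq_range_aeval] at hq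
    obtain ⟨P, rfl⟩ := hq
    induction P using Polynomial.induction_on' with
    | add P Q hP hQ =>
      have : (aeval x (P + Q) : F) * z = aeval x P * z + aeval x Q * z := by
        rw [map_add, add_mul]
      show (aeval x (P + Q) : F) * z ∈ U
      rw [this]
      exact U.add_mem hP hQ
    | monomial m a =>
      show (aeval x (monomial m a) : F) * z ∈ U
      have h1 : ∀ m : ℕ, x ^ m * z ∈ U := by
        intro m
        induction m with
        | zero => simpa using hz
        | succ m ih => rw [pow_succ', mul_assoc]; exact hxU _ ih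
      rw [aeval_monomial, mul_assoc, ← Algebra.smul_def]
      exact U.smul_mem _ (h1 m)
  -- a denominator for every element
  have key : ∀ w : F, ∃ q : F, q ≠ 0 ∧ q ∈ Algebra.adjoin K {x} ∧ q * w ∈ U := by
    have heU : ∀ i, e i ∈ U := fun i => Submodule.subset_span ⟨(0, i), by simp⟩
    intro w
    have hw : w ∈ Submodule.span K⟮x⟯ (Set.range e) :=
      hspan (Submodule.mem_top : w ∈ (⊤ : Submodule K⟮x⟯ F))
    induction hw using Submodule.span_induction with
    | mem z hz =>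
      obtain ⟨i, rfl⟩ := hz
      exact ⟨1, one_ne_zero, one_mem _, by rw [one_mul]; exact heU i⟩
    | zero => exact ⟨1, one_ne_zero, one_mem _, by simp⟩
    | add z z' _ _ hz hz' =>
      obtain ⟨q, hq, hq1, h1⟩ := hz
      obtain ⟨q', hq', hq1', h1'⟩ := hz'
      refine ⟨q * q', mul_ne_zero hq hq', mul_mem hq1 hq1', ?_⟩
      have : q * q' * (z + z') = q' * (q * z) + q * (q' * z') := by ring
      rw [this]
      exact U.add_mem (hqU _ hq1' _ h1) (hqU _ hq1 _ h1')
    | smul a z _ hz =>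
      obtain ⟨q, hq, hq1, h1⟩ := hz
      obtain ⟨r', s', hrs⟩ := (IntermediateField.mem_adjoin_simple_iff K (a : F)).mp a.2
      set r : F := aeval x r' with hr'
      set s : F := aeval x s' with hs'
      have hr : r ∈ Algebra.adjoin K {x} := by
        rw [Algebra.adjoin_singleton_eq_range_aeval]; exact ⟨r', rfl⟩
      have hs : s ∈ Algebra.adjoin K {x} := by
        rw [Algebra.adjoin_singleton_eq_range_aeval]; exact ⟨s', rfl⟩
      by_cases hs0 : s = 0
      · refine ⟨1, one_ne_zero, one_mem _, ?_⟩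
        have : (a : F) = 0 := by rw [hrs, hs0, div_zero]
        have h2 : a • z = 0 := by
          rw [Algebra.smul_def]
          show (a : F) * z = 0
          rw [this, zero_mul]
        rw [h2, mul_zero]
        exact U.zero_mem
      · refine ⟨s * q, mul_ne_zero hs0 hq, mul_mem hs hq1, ?_⟩
        have h2 : s * q * (a • z) = r * (q * z) := by
          rw [Algebra.smul_def]
          show s * q * ((a : F) * z) = r * (q * z)
          rw [hrs]
          field_simp
        rw [h2]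
        exact hqU _ hr _ h1
  -- common denominator for W
  have key2 : ∃ q : F, q ≠ 0 ∧ q ∈ Algebra.adjoin K {x} ∧ ∀ w ∈ W, q * w ∈ U := by
    refine Submodule.fg_induction
      (motive := fun W _ => ∃ q : F, q ≠ 0 ∧ q ∈ Algebra.adjoin K {x} ∧ ∀ w ∈ W, q * w ∈ U)
      ?_ ?_ W (Module.Finite.iff_fg.mp inferInstance)
    · intro w
      obtain ⟨q, hq, hq1, h1⟩ := key w
      refine ⟨q, hq, hq1, fun z hz => ?_⟩
      obtain ⟨c, rfl⟩ := Submodule.mem_span_singleton.mp hz
      rw [mul_smul_comm]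
      exact U.smul_mem _ h1
    · rintro W₁ W₂ - - ⟨q, hq, hq1, h1⟩ ⟨q', hq', hq1', h1'⟩
      refine ⟨q * q', mul_ne_zero hq hq', mul_mem hq1 hq1', fun z hz => ?_⟩
      obtain ⟨y, hy, y', hy', rfl⟩ := Submodule.mem_sup.mp hz
      have : q * q' * (y + y') = q' * (q * y) + q * (q' * y') := by ring
      rw [this]
      exact U.add_mem (hqU _ hq1' _ (h1 _ hy)) (hqU _ hq1 _ (h1' _ hy'))
  obtain ⟨q, hq, hqx, hqW'⟩ := key2
  refine ⟨q, hq, hqx, ?_⟩
  rintro _ ⟨w, hw, rfl⟩
  exact hqW' w hw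

/-- Orthonormal bases from an orthonormal family spanning over `K(x)`. -/
theorem hasOrtho_of_family (hπ : Function.Surjective π) {x : F} {x1 : F1} {x2 : F2}
    (hx1 : R1.Red x x1) (hx2 : R2.Red x x2)
    (ht1 : Transcendental k x1) (ht2 : Transcendental k x2) {ι : Type*} {e : ι → F}
    {bbar : ℕ × ι → F1 × F2}
    (horth : (pair R1 R2).IsOrtho (fun p : ℕ × ι => x ^ p.1 * e p.2) bbar)
    (hspan : ⊤ ≤ Submodule.span K⟮x⟯ (Set.range e))
    (W : Submodule K F) [FiniteDimensional K W] : (pair R1 R2).HasOrtho W := by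
  obtain ⟨q, hq, hqx, hqW⟩ := exists_denominator hspan W
  have h3 : (pair R1 R2).HasOrtho (W.map (LinearMap.mulLeft K q)) :=
    RingRed.hasOrtho_of_le_span hπ horth _ _ rfl hqW
  rw [Algebra.adjoin_singleton_eq_range_aeval] at hqx
  obtain ⟨P, hP⟩ := hqx
  have hP' : aeval x P = q := hP
  have hP0 : P ≠ 0 := by
    rintro rfl
    apply hq
    rw [← hP', map_zero]
  obtain ⟨c, hc, hcA, hc1⟩ := exists_scale_poly A hP0
  obtain ⟨u1, hu1, hr1⟩ := exists_red_aeval hx1 ht1 hcA hc1
  obtain ⟨u2, hu2, hr2⟩ := exists_red_aeval hx2 ht2 hcA hc1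
  rw [hP'] at hr1 hr2
  refine RingRed.HasOrtho.of_mul hq (inv_ne_zero hc) (u := (u1⁻¹, u2⁻¹)) ?_ ⟨?_, ?_⟩ h3 rfl
  · rw [Prod.isUnit_iff]
    exact ⟨(inv_ne_zero hu1).isUnit, (inv_ne_zero hu2).isUnit⟩
  · have h4 := RedDatum.inv hπ hr1 hu1
    rw [mul_inv, ← map_inv₀] at h4
    exact h4
  · have h4 := RedDatum.inv hπ hr2 hu2
    rw [mul_inv, ← map_inv₀] at h4
    exact h4

variable (hπ : Function.Surjective π) (hsq : ∀ c : K, ∃ s : K, s * s = c)

include hπ hsq in
/-- **Orthonormal bases for a pair.**  If `[F : K(x)] ≤ [F1 : k(x1)] + [F2 : k(x2)]`, all finite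
dimensional subspaces have orthonormal bases for the joint reduction. -/
theorem hasOrtho_pair (hsep : Separated R1 R2)
    (hs1 : ∀ u : F1, ∃ w, R1.Red w u) (hs2 : ∀ u : F2, ∃ w, R2.Red w u)
    {x : F} {x1 : F1} {x2 : F2} (hx1 : R1.Red x x1) (hx2 : R2.Red x x2)
    (ht1 : Transcendental k x1) (ht2 : Transcendental k x2) [FiniteDimensional K⟮x⟯ F]
    (hdeg : Module.finrank K⟮x⟯ F ≤ Module.finrank k⟮x1⟯ F1 + Module.finrank k⟮x2⟯ F2)
    (W : Submodule K F) [FiniteDimensional K W] : (pair R1 R2).HasOrtho W := by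
  classical
  obtain ⟨hf1, -⟩ := RedDatum.rank_adjoin_le hπ hs1 hx1 ht1
  obtain ⟨hf2, -⟩ := RedDatum.rank_adjoin_le hπ hs2 hx2 ht2
  let b1 := Module.finBasis k⟮x1⟯ F1
  let b2 := Module.finBasis k⟮x2⟯ F2
  obtain ⟨e, hli, horth⟩ := exists_lifts hπ hsq hsep hx1 hx2 (fun i => hs1 (b1 i))
    (fun i => hs2 (b2 i)) (indepPow_of ht1 b1.linearIndependent)
    (indepPow_of ht2 b2.linearIndependent)
  have hcard : Fintype.card (Fin (Module.finrank k⟮x1⟯ F1) ⊕ Fin (Module.finrank k⟮x2⟯ F2)) =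
      Module.finrank K⟮x⟯ F := by
    apply le_antisymm hli.fintype_card_le_finrank
    rw [Fintype.card_sum, Fintype.card_fin, Fintype.card_fin]
    exact hdeg
  have hspan : ⊤ ≤ Submodule.span K⟮x⟯ (Set.range e) :=
    (hli.span_eq_top_of_card_eq_finrank' hcard).ge
  exact hasOrtho_of_family hπ hx1 hx2 ht1 ht2 horth hspan W

end Ortho

end Fermat.Agent.DR.PairDegree
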