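import Mathlib
import Fermat.Prelude.Def_FLTPrelim_Ramification
import Fermat.Agent.DR.PairDegree
import Fermat.Agent.DR.Nodal.Datum

set_option autoImplicit false

/-!
# Pairs of reductions: degree inequality, shift, and the fields of `NodalDatum`

`finrank_add_finrank_le`, `hasOrthoPair_of_finrank`, `exists_red₂`, `exists_shift`.
-/

noncomputable section

open AlgebraicCurve Polynomial IntermediateField
open Fermat.Agent.JRED Fermat.Agent.DR.PairOrtho Fermat.Agent.DR.PairDegree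

namespace Fermat.Agent.DR.PairShift

variable {K F k F1 F2 : Type*} [Field K] [Field F] [Algebra K F] [Field k]
  [Field F1] [Algebra k F1] [Field F2] [Algebra k F2]
variable {A : ValuationSubring K} {π : A →+* k}
variable {R1 : RedDatum K F k F1 A π} {R2 : RedDatum K F k F2 A π}

theorem pair_red_iff {w : F} {u : F1 × F2} : (pair R1 R2).Red w u ↔ Red₂ R1 R2 w u := Iff.rfl

theorem hasOrthoPair_iff {W : Submodule K F} :
    (pair R1 R2).HasOrtho W ↔ HasOrthoPair R1 R2 W := by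
  constructor
  · rintro ⟨n, b, u, h, hs⟩
    exact ⟨n, b, u, h.red, h.li, hs⟩
  · rintro ⟨n, b, u, h, h', hs⟩
    exact ⟨n, b, u, ⟨h, h'⟩, hs⟩

variable (hπ : Function.Surjective π) (hsq : ∀ c : K, ∃ s : K, s * s = c)

include hπ hsq in
/-- **Pair degree inequality.** -/
theorem finrank_add_finrank_le (hsep : Separated R1 R2)
    (hs1 : ∀ u : F1, ∃ w, R1.Red w u) (hs2 : ∀ u : F2, ∃ w, R2.Red w u)
    {x : F} {x1 : F1} {x2 : F2} (hx1 : R1.Red x x1) (hx2 : R2.Red x x2)
    (ht1 : Transcendental k x1) (ht2 : Transcendental k x2) [FiniteDimensional K⟮x⟯ F] :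
    Module.finrank k⟮x1⟯ F1 + Module.finrank k⟮x2⟯ F2 ≤ Module.finrank K⟮x⟯ F := by
  obtain ⟨hf1, -⟩ := RedDatum.rank_adjoin_le hπ hs1 hx1 ht1
  obtain ⟨hf2, -⟩ := RedDatum.rank_adjoin_le hπ hs2 hx2 ht2
  let b1 := Module.finBasis k⟮x1⟯ F1
  let b2 := Module.finBasis k⟮x2⟯ F2
  have h := card_add_card_le hπ hsq hsep hx1 hx2 (fun i => hs1 (b1 i))
    (fun i => hs2 (b2 i)) (indepPow_of ht1 b1.linearIndependent)
    (indepPow_of ht2 b2.linearIndependent)
  rwa [Fintype.card_fin, Fintype.card_fin] at h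

include hπ hsq in
/-- Field `ortho` of `NodalDatum`. -/
theorem hasOrthoPair_of_finrank (hsep : Separated R1 R2)
    (hs1 : ∀ u : F1, ∃ w, R1.Red w u) (hs2 : ∀ u : F2, ∃ w, R2.Red w u)
    {x : F} {x1 : F1} {x2 : F2} (hx1 : R1.Red x x1) (hx2 : R2.Red x x2)
    (ht1 : Transcendental k x1) (ht2 : Transcendental k x2) [FiniteDimensional K⟮x⟯ F]
    (hdeg : Module.finrank K⟮x⟯ F ≤ Module.finrank k⟮x1⟯ F1 + Module.finrank k⟮x2⟯ F2)
    (W : Submodule K F) (hW : Module.Finite K W) : HasOrthoPair R1 R2 W :=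
  hasOrthoPair_iff.mp (hasOrtho_pair hπ hsq hsep hs1 hs2 hx1 hx2 ht1 ht2 hdeg W)

include hπ hsq in
/-- Field `approx` of `NodalDatum`. -/
theorem exists_red₂ (hsep : Separated R1 R2)
    (hs1 : ∀ u : F1, ∃ w, R1.Red w u) (hs2 : ∀ u : F2, ∃ w, R2.Red w u) (u : F1 × F2) :
    ∃ w : F, Red₂ R1 R2 w u := by
  obtain ⟨w1, h1⟩ := hs1 u.1
  obtain ⟨w2, h2⟩ := hs2 u.2
  obtain ⟨w, h, h'⟩ := exists_joint hπ hsq hsep h1 h2
  exact ⟨w, h, h'⟩

/-- The valuation ring has rank one. -/
def RankOne (A : ValuationSubring K) : Prop :=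
  ∀ t : K, A.valuation t < 1 → ∀ d : K, ∃ n : ℕ, A.valuation (d * t ^ n) < 1

theorem lt_one_iff (hπ : Function.Surjective π) {c : K} :
    A.valuation c < 1 ↔ ∃ h : c ∈ A, π ⟨c, h⟩ = 0 := by
  constructor
  · intro h
    have hc : c ∈ A := (A.valuation_le_one_iff c).mp h.le
    refine ⟨hc, res_eq_zero_of_not_isUnit hπ fun hu => ?_⟩
    have h2 := (A.valuation_eq_one_iff ⟨c, hc⟩).mp hu
    exact absurd h2 (ne_of_lt h)
  · rintro ⟨hc, h0⟩
    rw [← A.valuation_lt_one_iff ⟨c, hc⟩]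
    by_contra hcon
    rw [IsLocalRing.mem_maximalIdeal, mem_nonunits_iff, not_not] at hcon
    have h3 := hcon.map π
    rw [h0] at h3
    exact not_isUnit_zero h3

include hπ in
/-- An element with residues `(1, 0)` becomes arbitrarily small at the second valuation. -/
theorem exists_small (hr : RankOne A) {z : F} (hz1 : R1.Red z 1) (hz2 : R2.Red z 0) (d : K) :
    ∃ w : F, R1.Red w 1 ∧ R2.Red (algebraMap K F d * w) 0 := by
  have hz0 : z ≠ 0 := RedDatum.ne_zero_of_red hz1 one_ne_zero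
  obtain ⟨c, hc, u, hu, hred⟩ := R2.normalize z hz0
  have hcA : c ∉ A := by
    intro hcA
    have h3 := RedDatum.smul_mem hcA hz2
    rw [mul_zero] at h3
    exact hu (R2.unique hred h3)
  obtain ⟨hci, hci0⟩ := res_inv_eq_zero hπ hcA
  have hlt : A.valuation c⁻¹ < 1 := (lt_one_iff hπ).mpr ⟨hci, hci0⟩
  obtain ⟨n, hn⟩ := hr c⁻¹ hlt d
  obtain ⟨hm, hm0⟩ := (lt_one_iff (π := π) hπ).mp hn
  refine ⟨z ^ n, by simpa using RedDatum.pow hz1 n, ?_⟩
  have h4 := RedDatum.smul_mem hm (RedDatum.pow hred n)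
  rw [hm0, map_zero, zero_mul] at h4
  have h5 : algebraMap K F (d * c⁻¹ ^ n) * (algebraMap K F c * z) ^ n =
      algebraMap K F d * z ^ n := by
    have hc' : algebraMap K F c ≠ 0 := (_root_.map_ne_zero _).mpr hc
    rw [map_mul, map_pow, map_inv₀, mul_pow, inv_pow]
    field_simp
  rwa [h5] at h4

include hπ hsq in
/-- Field `shift` of `NodalDatum`: arbitrary relative normalisation. -/
theorem exists_shift (hr : RankOne A) (hsep : Separated R1 R2) (hs1 : ∀ u : F1, ∃ w, R1.Red w u)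
    (hs2 : ∀ u : F2, ∃ w, R2.Red w u) (d : K) (hd : d ≠ 0) :
    ∃ w : F, R1.Red w 1 ∧ R2.Red (algebraMap K F d * w) 1 := by
  obtain ⟨z, hz1, hz2⟩ := hsep
  -- main case: `d⁻¹` in the maximal ideal
  have main : ∀ d : K, d ≠ 0 → A.valuation d⁻¹ < 1 →
      ∃ w : F, R1.Red w 1 ∧ R2.Red (algebraMap K F d * w) 1 := by
    intro d hd hlt
    obtain ⟨hdi, hdi0⟩ := (lt_one_iff (π := π) hπ).mp hlt
    obtain ⟨w, hw1, hw2⟩ := exists_small hπ hr hz1 hz2 d
    have he1 : R1.Red (1 - z) 0 := by simpa using RedDatum.sub R1.one hz1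
    have he2 : R2.Red (1 - z) 1 := by simpa using RedDatum.sub R2.one hz2
    refine ⟨w + algebraMap K F d⁻¹ * (1 - z), ?_, ?_⟩
    · have h1 := R1.add hw1 (RedDatum.smul_mem hdi he1)
      simpa using h1
    · have h1 := R2.add hw2 he2
      rw [zero_add] at h1
      have hd' : algebraMap K F d ≠ 0 := (_root_.map_ne_zero _).mpr hd
      have h2 : algebraMap K F d * (w + algebraMap K F d⁻¹ * (1 - z)) =
          algebraMap K F d * w + (1 - z) := by
        rw [mul_add, ← mul_assoc, ← map_mul, mul_inv_cancel₀ hd, map_one, one_mul]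
      rwa [h2]
  rcases lt_trichotomy (A.valuation d) 1 with h | h | h
  · -- `d` in the maximal ideal: use the inverse
    obtain ⟨w, hw1, hw2⟩ := main d⁻¹ (inv_ne_zero hd) (by rwa [inv_inv])
    refine ⟨w⁻¹, by simpa using RedDatum.inv hπ hw1 one_ne_zero, ?_⟩
    have h1 := RedDatum.inv hπ hw2 one_ne_zero
    rw [mul_inv, map_inv₀, inv_inv, inv_one] at h1
    exact h1
  · -- `d` a unit
    have hdA : d ∈ A := (A.valuation_le_one_iff d).mp h.le
    have hdu : π ⟨d, hdA⟩ ≠ 0 := by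
      intro h0
      exact absurd h (ne_of_lt ((lt_one_iff (π := π) hπ).mpr ⟨hdA, h0⟩))
    obtain ⟨w, hw1, hw2⟩ := exists_red₂ hπ hsq ⟨z, hz1, hz2⟩ hs1 hs2
      ((1 : F1), algebraMap k F2 (π ⟨d, hdA⟩)⁻¹)
    refine ⟨w, hw1, ?_⟩
    have h1 := RedDatum.smul_mem hdA hw2
    rw [← map_mul, mul_inv_cancel₀ hdu, map_one] at h1
    exact h1
  · refine main d hd ?_
    rw [map_inv₀]
    exact inv_lt_one_of_one_lt₀ h

section Algebraic

/-- In a vanishing sum, two nonzero terms have the same valuation. -/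
theorem exists_valuation_eq_of_sum_eq_zero {K Γ : Type*} [Field K]
    [LinearOrderedCommGroupWithZero Γ] (v : Valuation K Γ) {ι : Type*} [DecidableEq ι]
    (s : Finset ι) (f : ι → K) (hs : s.Nonempty) (hf : ∀ i ∈ s, f i ≠ 0)
    (h0 : ∑ i ∈ s, f i = 0) : ∃ i ∈ s, ∃ j ∈ s, i ≠ j ∧ v (f i) = v (f j) := by
  by_contra hcon
  push Not at hcon
  obtain ⟨i, hi, hmax⟩ := s.exists_max_image (fun i => v (f i)) hs
  have h1 : v (∑ j ∈ s.erase i, f j) < v (f i) := by
    refine Valuation.map_sum_lt v ((Valuation.ne_zero_iff v).mpr (hf i hi)) fun j hj => ?_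
    have hj' := Finset.mem_erase.mp hj
    exact lt_of_le_of_ne (hmax j hj'.2) (hcon j hj'.2 i hi hj'.1)
  have h2 : ∑ j ∈ s.erase i, f j = - f i := by
    rw [← Finset.add_sum_erase s f hi] at h0
    exact (neg_eq_of_add_eq_zero_right h0).symm
  rw [h2, Valuation.map_neg] at h1
  exact lt_irrefl _ h1

variable {L : Type*} [Field L] [CharZero L]

theorem valuation_intCast_of_not_dvd (A : ValuationSubring L) {q : ℕ}
    (hq : q.Prime) (hA : A.valuation (q : L) < 1) {m : ℤ} (hm : ¬ (q : ℤ) ∣ m) :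
    A.valuation (m : L) = 1 := by
  have hint : ∀ n : ℤ, A.valuation (n : L) ≤ 1 := fun n =>
    (A.valuation_le_one_iff _).mpr (intCast_mem A n)
  refine le_antisymm (hint m) ?_
  by_contra hcon
  push Not at hcon
  have hcop : IsCoprime (q : ℤ) m :=
    ((Nat.prime_iff_prime_int.mp hq).irreducible.coprime_iff_not_dvd).mpr hm
  obtain ⟨a, b, hab⟩ := hcop
  have h1 : (a : L) * (q : L) + (b : L) * (m : L) = 1 := by exact_mod_cast hab
  have h2 : A.valuation ((a : L) * (q : L) + (b : L) * (m : L)) < 1 := by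
    refine Valuation.map_add_lt _ ?_ ?_
    · rw [map_mul]
      exact (mul_le_of_le_one_left' (hint a)).trans_lt hA
    · rw [map_mul]
      exact (mul_le_of_le_one_left' (hint b)).trans_lt hcon
  rw [h1, map_one] at h2
  exact lt_irrefl _ h2

theorem valuation_intCast (A : ValuationSubring L) {q : ℕ}
    (hq : q.Prime) (hA : A.valuation (q : L) < 1) {n : ℤ} (hn : n ≠ 0) :
    ∃ r : ℤ, A.valuation (n : L) = A.valuation (q : L) ^ r := by
  obtain ⟨m, hnm, hm⟩ :=
    (Int.finiteMultiplicity_iff.mpr ⟨by simpa using hq.ne_one, hn⟩ :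
        FiniteMultiplicity (q : ℤ) n).exists_eq_pow_mul_and_not_dvd
  refine ⟨(multiplicity (q : ℤ) n : ℕ), ?_⟩
  have h1 : (n : L) = (q : L) ^ (multiplicity (q : ℤ) n) * (m : L) := by
    conv_lhs => rw [hnm]
    push_cast
    ring
  rw [h1, map_mul, map_pow, valuation_intCast_of_not_dvd A hq hA hm, mul_one, zpow_natCast]

/-- Some positive power of an algebraic number has the valuation of a power of `q`. -/
theorem exists_pow_valuation (A : ValuationSubring L) {q : ℕ}
    (hq : q.Prime) (hA : A.valuation (q : L) < 1) {x : L} (hx0 : x ≠ 0)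
    (hx : IsAlgebraic ℤ x) :
    ∃ m : ℕ, 0 < m ∧ ∃ r : ℤ, A.valuation x ^ m = A.valuation (q : L) ^ r := by
  classical
  have hq0 : A.valuation (q : L) ≠ 0 :=
    (Valuation.ne_zero_iff _).mpr (by exact_mod_cast hq.ne_zero)
  have hx0' : A.valuation x ≠ 0 := (Valuation.ne_zero_iff _).mpr hx0
  obtain ⟨P, hP0, hP⟩ := hx
  have h0 : ∑ n ∈ P.support, (P.coeff n : L) * x ^ n = 0 := by
    rw [Polynomial.aeval_def, Polynomial.eval₂_eq_sum, Polynomial.sum_def] at hP
    simpa using hP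
  obtain ⟨i, hi, j, hj, hij, hv⟩ := exists_valuation_eq_of_sum_eq_zero A.valuation P.support
    (fun n => (P.coeff n : L) * x ^ n) (Polynomial.support_nonempty.mpr hP0)
    (fun n hn => mul_ne_zero (by exact_mod_cast Polynomial.mem_support_iff.mp hn)
      (pow_ne_zero _ hx0)) h0
  -- wlog `i < j`
  have main : ∀ i j : ℕ, i ∈ P.support → j ∈ P.support → i < j →
      A.valuation ((P.coeff i : L) * x ^ i) = A.valuation ((P.coeff j : L) * x ^ j) →
      ∃ m : ℕ, 0 < m ∧ ∃ r : ℤ, A.valuation x ^ m = A.valuation (q : L) ^ r := by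
    intro i j hi hj hij hv
    obtain ⟨ri, hri⟩ := valuation_intCast A hq hA (Polynomial.mem_support_iff.mp hi)
    obtain ⟨rj, hrj⟩ := valuation_intCast A hq hA (Polynomial.mem_support_iff.mp hj)
    refine ⟨j - i, Nat.sub_pos_of_lt hij, ri - rj, ?_⟩
    rw [map_mul, map_mul, map_pow, map_pow, hri, hrj] at hv
    rw [zpow_sub₀ hq0, eq_div_iff (zpow_ne_zero _ hq0)]
    have h1 : A.valuation x ^ j = A.valuation x ^ (j - i) * A.valuation x ^ i := by
      rw [← pow_add, Nat.sub_add_cancel hij.le]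
    rw [h1] at hv
    have h2 : A.valuation x ^ i ≠ 0 := pow_ne_zero _ hx0'
    apply mul_right_cancel₀ h2
    rw [hv, mul_comm (A.valuation x ^ (j - i)), mul_assoc]
  rcases lt_or_gt_of_ne hij with h | h
  · exact main i j hi hj h hv
  · exact main j i hj hi h hv.symm

/-- Valuation rings of algebraic extensions of `ℚ` lying over a prime have rank one. -/
theorem rankOne_of_prime (A : ValuationSubring L) {q : ℕ}
    (hq : q.Prime) (hA : A.valuation (q : L) < 1) (halg : ∀ x : L, IsAlgebraic ℤ x) :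
    RankOne A := by
  have hq0 : A.valuation (q : L) ≠ 0 :=
    (Valuation.ne_zero_iff _).mpr (by exact_mod_cast hq.ne_zero)
  intro t ht d
  by_cases ht0 : t = 0
  · exact ⟨1, by simp [ht0]⟩
  by_cases hd0 : d = 0
  · exact ⟨1, by simp [hd0]⟩
  obtain ⟨m, hm, r, hr⟩ := exists_pow_valuation A hq hA ht0 (halg t)
  obtain ⟨m', hm', s, hs⟩ := exists_pow_valuation A hq hA hd0 (halg d)
  have ht1 : A.valuation t ^ m < 1 := pow_lt_one' ht hm.ne'
  -- `r > 0`
  have hr0 : 0 < r := by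
    by_contra hcon
    push Not at hcon
    rw [hr] at ht1
    obtain ⟨n, hn⟩ := Int.eq_ofNat_of_zero_le (neg_nonneg.mpr hcon)
    have hrn : r = -(n : ℤ) := by omega
    rw [hrn, zpow_neg, zpow_natCast] at ht1
    have h1 : (A.valuation (q : L)) ^ n ≤ 1 := pow_le_one' hA.le n
    have h2 : 1 ≤ ((A.valuation (q : L)) ^ n)⁻¹ := (one_le_inv₀
      (lt_of_le_of_ne zero_le (pow_ne_zero n hq0).symm)).mpr h1
    exact absurd ht1 (not_lt.mpr h2)
  have htq : A.valuation t ^ m ≤ A.valuation (q : L) := by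
    rw [hr]
    obtain ⟨n, hn⟩ := Int.eq_ofNat_of_zero_le hr0.le
    have hn1 : 1 ≤ n := by omega
    rw [hn, zpow_natCast]
    calc A.valuation (q : L) ^ n ≤ A.valuation (q : L) ^ 1 := pow_le_pow_right_of_le_one' hA.le hn1
      _ = A.valuation (q : L) := pow_one _
  -- bound for `d`
  have hd1 : A.valuation d * A.valuation (q : L) ^ s.natAbs ≤ 1 := by
    rcases le_or_gt (A.valuation d) 1 with h | h
    · exact mul_le_one' h (pow_le_one' hA.le _)
    · have h1 : A.valuation d ≤ A.valuation d ^ m' := le_self_pow₀ h.le hm'.ne'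
      rw [hs] at h1
      have h2 : A.valuation (q : L) ^ s ≤ (A.valuation (q : L) ^ s.natAbs)⁻¹ := by
        rcases le_or_gt 0 s with hs0 | hs0
        · obtain ⟨n, hn⟩ := Int.eq_ofNat_of_zero_le hs0
          rw [hn, zpow_natCast, Int.natAbs_natCast]
          exact (pow_le_one' hA.le n).trans ((one_le_inv₀
            (lt_of_le_of_ne zero_le (pow_ne_zero n hq0).symm)).mpr (pow_le_one' hA.le n))
        · have h3 : s = -(s.natAbs : ℤ) := by omega
          conv_lhs => rw [h3, zpow_neg, zpow_natCast]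
      have h4 := h1.trans h2
      calc A.valuation d * A.valuation (q : L) ^ s.natAbs
          ≤ (A.valuation (q : L) ^ s.natAbs)⁻¹ * A.valuation (q : L) ^ s.natAbs := by gcongr
        _ = 1 := inv_mul_cancel₀ (pow_ne_zero _ hq0)
  refine ⟨m * (s.natAbs + 1), ?_⟩
  rw [map_mul, map_pow, pow_mul]
  calc A.valuation d * (A.valuation t ^ m) ^ (s.natAbs + 1)
      ≤ A.valuation d * A.valuation (q : L) ^ (s.natAbs + 1) := by gcongr
    _ = (A.valuation d * A.valuation (q : L) ^ s.natAbs) * A.valuation (q : L) := by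
      rw [pow_succ, mul_assoc]
    _ ≤ 1 * A.valuation (q : L) := by gcongr
    _ = A.valuation (q : L) := one_mul _
    _ < 1 := hA

theorem rankOne_of_liesOverPrime (A : ValuationSubring (AlgebraicClosure ℚ)) {q : ℕ}
    (hq : q.Prime) (hA : A.LiesOverPrime q) : RankOne A := by
  refine rankOne_of_prime A hq ?_ fun x => ?_
  · exact hA
  · have h2 : IsAlgebraic ℚ x := (AlgebraicClosure.isAlgebraic ℚ).isAlgebraic x
    exact (IsFractionRing.isAlgebraic_iff ℤ ℚ (AlgebraicClosure ℚ)).mpr h2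

end Algebraic

theorem exists_sq_of_isAlgClosed {L : Type*} [Field L] [IsAlgClosed L] (c : L) :
    ∃ s : L, s * s = c := by
  obtain ⟨s, hs⟩ := IsAlgClosed.exists_pow_nat_eq c (n := 2) (by norm_num)
  exact ⟨s, by rw [← hs, sq]⟩

end Fermat.Agent.DR.PairShift
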