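import Mathlib
import Fermat.Agent.CMP.Density
import Fermat.Agent.DR.AnnFitting

/-!
# The quadratic relation on `T ⊗[R] M` for all Galois elements

`M` is a finitely generated `R`-module with a smooth commuting `G_ℚ`-action, `ρ : GaloisRepAdic T`
has, for `ℓ ∉ S`, `charpoly ρ(Frob_ℓ) = X² - a_ℓ X + ℓ` with `a_ℓ ∈ R` and
`Frob² - a_ℓ Frob + ℓ = 0` on `M`. Then `g² - tr ρ(g) g + det ρ(g) = 0` on `T ⊗[R] M` for all `g`.
-/

set_option autoImplicit false

open Polynomial IsLocalRing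
open scoped TensorProduct

namespace Fermat.Agent.DR.Relation

open Fermat.Agent.FrobCompare

local notation "Qbar" => AlgebraicClosure ℚ
local notation "Γℚ" => (AlgebraicClosure ℚ ≃ₐ[ℚ] AlgebraicClosure ℚ)

section Pow

variable {T X : Type*} [CommRing T] [AddCommGroup X] [Module T X]

/-- `f + d f⁻¹ = a` implies `f^k + d^k f^{-k} = powTrace a d k`. -/
theorem pow_add_pow {f f' : Module.End T X} (hff' : f * f' = 1) (hf'f : f' * f = 1) {a d : T}
    (h : f + d • f' = a • (1 : Module.End T X)) (k : ℕ) :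
    f ^ k + d ^ k • f' ^ k = powTrace a d k • (1 : Module.End T X) := by
  induction k using Nat.twoStepInduction with
  | zero => simp only [pow_zero, one_smul, powTrace]; rw [← two_smul T (1 : Module.End T X)]
  | one => simpa only [pow_one, powTrace] using h
  | more n ih1 ih2 =>
    have e1 : f * f' ^ (n + 1) = f' ^ n := by rw [pow_succ', ← mul_assoc, hff', one_mul]
    have e2 : f' * f ^ (n + 1) = f ^ n := by rw [pow_succ', ← mul_assoc, hf'f, one_mul]
    have h3 : (f + d • f') * (f ^ (n + 1) + d ^ (n + 1) • f' ^ (n + 1)) =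
        (a * powTrace a d (n + 1)) • (1 : Module.End T X) := by
      rw [h, ih2, smul_mul_smul_comm, one_mul]
    have h4 : (f + d • f') * (f ^ (n + 1) + d ^ (n + 1) • f' ^ (n + 1)) =
        f ^ (n + 2) + d ^ (n + 2) • f' ^ (n + 2) + d • (f ^ n + d ^ n • f' ^ n) := by
      rw [add_mul, mul_add, mul_add, mul_smul_comm, smul_mul_assoc, smul_mul_assoc, mul_smul_comm,
        e1, e2, ← pow_succ', ← pow_succ', smul_smul, smul_add, smul_smul, ← pow_succ', ← pow_succ']
      abel
    rw [ih1, h3] at h4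
    rw [powTrace, sub_smul, h4, smul_smul]
    abel

theorem quadratic_pow {f f' : Module.End T X} (hff' : f * f' = 1) (hf'f : f' * f = 1) {a d : T}
    (h : f * f - a • f + d • (1 : Module.End T X) = 0) (k : ℕ) :
    f ^ k * f ^ k - powTrace a d k • f ^ k + d ^ k • (1 : Module.End T X) = 0 := by
  have h1 : f + d • f' = a • (1 : Module.End T X) := by
    have h2 : (f * f - a • f + d • (1 : Module.End T X)) * f' = 0 := by rw [h, zero_mul]
    rw [add_mul, sub_mul, mul_assoc, hff', mul_one, smul_mul_assoc, hff', smul_mul_assoc,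
      one_mul] at h2
    rw [← sub_eq_zero]
    rw [← h2]
    abel
  have h3 := pow_add_pow hff' hf'f h1 k
  have h4 : f ^ k * f' ^ k = 1 := by
    have hc : Commute f f' := by rw [Commute, SemiconjBy, hff', hf'f]
    rw [← hc.mul_pow, hff', one_pow]
  have h5 : f ^ k * (f ^ k + d ^ k • f' ^ k) = powTrace a d k • f ^ k := by
    rw [h3, mul_smul_comm, mul_one]
  rw [mul_add, mul_smul_comm, h4] at h5
  rw [← h5]
  abel

end Pow

section Ext

variable {R T M : Type*} [CommRing R] [CommRing T] [Algebra R T] [AddCommGroup M] [Module R M]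

theorem end_ext {F F' : Module.End T (T ⊗[R] M)}
    (h : ∀ x : M, F ((1 : T) ⊗ₜ[R] x) = F' ((1 : T) ⊗ₜ[R] x)) : F = F' := by
  refine LinearMap.ext fun z => ?_
  induction z using TensorProduct.induction_on with
  | zero => rw [map_zero, map_zero]
  | tmul t x =>
    have : t ⊗ₜ[R] x = t • ((1 : T) ⊗ₜ[R] x) := by
      rw [TensorProduct.smul_tmul', smul_eq_mul, mul_one]
    rw [this, map_smul, map_smul, h]
  | add x y hx hy => rw [map_add, map_add, hx, hy]

end Ext

section Action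

variable {R T M : Type*} [CommRing R] [CommRing T] [Algebra R T] [AddCommGroup M] [Module R M]
  {G : Type*} [Group G] [DistribMulAction G M] [SMulCommClass G R M]

variable (R T M) in
/-- The induced action on `T ⊗[R] M`. -/
noncomputable def act (g : G) : Module.End T (T ⊗[R] M) :=
  LinearMap.baseChange T (DistribSMul.toLinearMap R M g)

@[simp] theorem act_tmul (g : G) (t : T) (x : M) : act R T M g (t ⊗ₜ[R] x) = t ⊗ₜ[R] (g • x) := rfl

theorem act_mul (g h : G) : act R T M (g * h) = act R T M g * act R T M h := by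
  ext x
  simp [mul_smul]

theorem act_one : act R T M (1 : G) = 1 := by
  ext x
  simp

theorem act_pow (g : G) (k : ℕ) : act R T M (g ^ k) = act R T M g ^ k := by
  induction k with
  | zero => rw [pow_zero, pow_zero, act_one]
  | succ k ih => rw [pow_succ, pow_succ, act_mul, ih]

theorem act_mul_inv (g : G) : act R T M g * act R T M g⁻¹ = 1 := by
  rw [← act_mul, mul_inv_cancel, act_one]

theorem act_inv_mul (g : G) : act R T M g⁻¹ * act R T M g = 1 := by
  rw [← act_mul, inv_mul_cancel, act_one]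

/-- A relation `g² - a g + d = 0` on `M` gives the relation on `T ⊗[R] M`. -/
theorem act_quadratic (g : G) (a d : R) (h : ∀ x : M, g • g • x - a • g • x + d • x = 0) :
    act R T M g * act R T M g - algebraMap R T a • act R T M g +
      algebraMap R T d • (1 : Module.End T (T ⊗[R] M)) = 0 := by
  refine end_ext fun x => ?_
  simp only [LinearMap.add_apply, LinearMap.sub_apply, LinearMap.smul_apply, Module.End.mul_apply,
    Module.End.one_apply, act_tmul, LinearMap.zero_apply]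
  rw [algebraMap_smul, algebraMap_smul, ← TensorProduct.tmul_smul, ← TensorProduct.tmul_smul,
    ← TensorProduct.tmul_sub, ← TensorProduct.tmul_add, h x, TensorProduct.tmul_zero]

end Action

section Main

variable {R M : Type*} {T : Type} [CommRing R] [CommRing T] [IsLocalRing T] [IsNoetherianRing T]
  [Algebra R T] [AddCommGroup M] [Module R M] [Module.Finite R M]
  [DistribMulAction Γℚ M] [SMulCommClass Γℚ R M]

/-- Smoothness of the Galois action. -/
def SmoothAct (M : Type*) [AddCommGroup M] [DistribMulAction Γℚ M] : Prop :=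
  ∀ x : M, ∃ L : IntermediateField ℚ Qbar, FiniteDimensional ℚ L ∧
    ∀ g : Γℚ, (∀ y ∈ L, g y = y) → g • x = x

theorem smul_eq_of_agree {L : IntermediateField ℚ Qbar} {x : M}
    (hL : ∀ g : Γℚ, (∀ y ∈ L, g y = y) → g • x = x) {g g' : Γℚ} (h : ∀ y ∈ L, g y = g' y) :
    g • x = g' • x := by
  have h1 : (g'⁻¹ * g) • x = x := hL _ fun y hy => by
    rw [AlgEquiv.mul_apply, h y hy]
    change g'.symm (g' y) = y
    exact g'.symm_apply_apply y
  rw [mul_smul, inv_smul_eq_iff] at h1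
  exact h1

/-- **The quadratic relation** `g² - tr ρ(g) g + det ρ(g) = 0` on `T ⊗[R] M`. -/
theorem quadratic_relation (ρ : GaloisRepAdic T) (hsm : SmoothAct M) (S : Finset ℕ)
    (hF : ∀ ℓ : ℕ, ℓ.Prime → ℓ ∉ S → ∀ A : ValuationSubring (AlgebraicClosure ℚ),
      A.LiesOverPrime ℓ → ∀ σ : Γℚ, A.IsFrobeniusAt σ ℓ → ∃ a : R,
        (∀ x : M, σ • σ • x - a • σ • x + (ℓ : R) • x = 0) ∧
        LinearMap.charpoly (ρ.ρ σ) = X ^ 2 - C (algebraMap R T a) * X + C ((ℓ : T)))
    (g : Γℚ) :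
    act R T M g * act R T M g - LinearMap.trace T ρ.V (ρ.ρ g) • act R T M g +
      LinearMap.det (ρ.ρ g) • (1 : Module.End T (T ⊗[R] M)) = 0 := by
  refine end_ext fun x => ?_
  simp only [LinearMap.add_apply, LinearMap.sub_apply, LinearMap.smul_apply, Module.End.mul_apply,
    Module.End.one_apply, act_tmul, LinearMap.zero_apply]
  -- enough modulo `𝔪 ^ n` for all `n`
  have hkrull : ∀ z : T ⊗[R] M,
      (∀ n : ℕ, z ∈ (maximalIdeal T ^ n) • (⊤ : Submodule T (T ⊗[R] M))) → z = 0 := by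
    intro z hz
    have h1 := Ideal.iInf_pow_smul_eq_bot_of_isLocalRing (M := T ⊗[R] M) (maximalIdeal T)
      (Ideal.IsPrime.ne_top inferInstance)
    have h2 : z ∈ (⨅ n : ℕ, (maximalIdeal T ^ n) • (⊤ : Submodule T (T ⊗[R] M))) := by
      rw [Submodule.mem_iInf]; exact hz
    rw [h1] at h2
    exact h2
  apply hkrull
  intro n
  obtain ⟨L₁, hL₁, h₁⟩ := hsm x
  obtain ⟨L₂, hL₂, h₂⟩ := hsm (g • x)
  let π := Ideal.Quotient.mk (maximalIdeal T ^ n)
  obtain ⟨L₃, hL₃, h₃⟩ := exists_charpolyConstantOn_of_isAdicContinuous ρ.ρ ρ.isAdicContinuous n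
    π (by rw [Ideal.mk_ker])
  obtain ⟨ℓ, hℓ, hℓS, A, hA, σ, hσ, k, hk⟩ := CMP.Density.frobDensity (L₁ ⊔ L₂ ⊔ L₃) g S
  have hk₁ : ∀ y ∈ L₁, g y = (σ ^ k) y := fun y hy =>
    hk y ((le_sup_left.trans le_sup_left : L₁ ≤ L₁ ⊔ L₂ ⊔ L₃) hy)
  have hk₂ : ∀ y ∈ L₂, g y = (σ ^ k) y := fun y hy =>
    hk y ((le_sup_right.trans le_sup_left : L₂ ≤ L₁ ⊔ L₂ ⊔ L₃) hy)
  have hk₃ : ∀ y ∈ L₃, g y = (σ ^ k) y := fun y hy =>
    hk y ((le_sup_right : L₃ ≤ L₁ ⊔ L₂ ⊔ L₃) hy)
  have e₁ : g • x = σ ^ k • x := smul_eq_of_agree h₁ hk₁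
  have e₂ : g • g • x = σ ^ k • σ ^ k • x := by
    rw [smul_eq_of_agree h₂ hk₂, e₁]
  obtain ⟨a, ha, hch⟩ := hF ℓ hℓ hℓS A hA σ hσ
  have htr : LinearMap.trace T ρ.V (ρ.ρ σ) = algebraMap R T a := by
    have := BN2.charpoly_eq_of_finrank_two ρ.finrank_eq (ρ.ρ σ)
    rw [hch] at this
    have h := congrArg (fun q => q.coeff 1) this
    simp only [coeff_add, coeff_sub, coeff_X_pow, coeff_C_mul, coeff_X_one, coeff_C] at h
    norm_num at h
    exact h.symm
  have hdet : LinearMap.det (ρ.ρ σ) = (ℓ : T) := by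
    have := BN2.charpoly_eq_of_finrank_two ρ.finrank_eq (ρ.ρ σ)
    rw [hch] at this
    have h := congrArg (fun q => q.coeff 0) this
    simp only [coeff_add, coeff_sub, coeff_X_pow, coeff_C_mul, coeff_X_zero, coeff_C] at h
    norm_num at h
    exact h.symm
  -- the relation for `σ ^ k`
  have hrel := quadratic_pow (act_mul_inv (R := R) (T := T) (M := M) σ) (act_inv_mul σ)
    (a := algebraMap R T a) (d := algebraMap R T (ℓ : R))
    (act_quadratic (T := T) σ a (ℓ : R) ha) k
  rw [← act_pow] at hrel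
  have htrk : LinearMap.trace T ρ.V (ρ.ρ (σ ^ k)) = powTrace (algebraMap R T a) (ℓ : T) k := by
    rw [map_pow, trace_pow_eq ρ.finrank_eq, htr, hdet]
  have hdetk : LinearMap.det (ρ.ρ (σ ^ k)) = (ℓ : T) ^ k := by
    rw [map_pow, map_pow, hdet]
  rw [map_natCast, ← htrk, ← hdetk] at hrel
  have hrel' := LinearMap.congr_fun hrel ((1 : T) ⊗ₜ[R] x)
  simp only [LinearMap.add_apply, LinearMap.sub_apply, LinearMap.smul_apply, Module.End.mul_apply,
    Module.End.one_apply, act_tmul, LinearMap.zero_apply] at hrel'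
  rw [← e₂, ← e₁] at hrel'
  -- compare traces and determinants modulo `𝔪 ^ n`
  have hcmp := h₃ g (σ ^ k) hk₃
  have ht := BN2.trace_eq_of_charpoly_map_eq ρ.finrank_eq ρ.finrank_eq π π _ _ hcmp
  have hd := BN2.det_eq_of_charpoly_map_eq ρ.finrank_eq ρ.finrank_eq π π _ _ hcmp
  rw [← sub_eq_zero, ← map_sub, Ideal.Quotient.eq_zero_iff_mem] at ht hd
  have hfin : (1 : T) ⊗ₜ[R] (g • g • x) - LinearMap.trace T ρ.V (ρ.ρ g) • (1 : T) ⊗ₜ[R] (g • x) +
      LinearMap.det (ρ.ρ g) • (1 : T) ⊗ₜ[R] x =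
      -((LinearMap.trace T ρ.V (ρ.ρ g) - LinearMap.trace T ρ.V (ρ.ρ (σ ^ k))) •
        ((1 : T) ⊗ₜ[R] (g • x))) +
      (LinearMap.det (ρ.ρ g) - LinearMap.det (ρ.ρ (σ ^ k))) • ((1 : T) ⊗ₜ[R] x) := by
    rw [← sub_eq_zero, ← hrel']
    module
  rw [hfin]
  exact Submodule.add_mem _ (Submodule.neg_mem _ (Submodule.smul_mem_smul ht Submodule.mem_top))
    (Submodule.smul_mem_smul hd Submodule.mem_top)

end Main

end Fermat.Agent.DR.Relation
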