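import Mathlib
import Fermat.Agent.DR.AnnFitting

/-!
# Consequences of SUPPORT

* `map_eq_zero_of_kills`: an element killing `T ⊗[R] Q n` for all `n` maps to zero at every
  supported point `T → O`.
* `exists_generators`: `J[p ^ n]` is generated by a number of elements independent of `n`.
* `mem_span_of_forall_dvd`: if `t H ⊂ m H` then `χ t ∈ (m)`.
-/

set_option autoImplicit false

open Polynomial
open scoped TensorProduct

namespace Fermat.Agent.DR.Support

section Kills

variable {R T O : Type*} [CommRing R] [CommRing T] [CommRing O] [IsDomain O] [Algebra R T]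

theorem map_eq_zero_of_kills (φ : T →+* O) {Q : ℕ → Type*} [∀ n, AddCommGroup (Q n)]
    [∀ n, Module R (Q n)] (r : ℕ)
    (hgen : ∀ n, ∃ e : Fin r → Q n, Submodule.span R (Set.range e) = ⊤)
    (I : ℕ → Ideal O) (hI : ∀ x : O, (∀ k, x ∈ I k) → x = 0)
    (hsupp : ∀ k, ∃ n, ∀ t : R, (∀ x : Q n, t • x = 0) → φ (algebraMap R T t) ∈ I k)
    (c : T) (hc : ∀ n, ∀ x : Q n, c ⊗ₜ[R] x = 0) : φ c = 0 := by
  have h1 : ∀ k, φ c ^ r ∈ I k := by
    intro k
    obtain ⟨n, hn⟩ := hsupp k
    obtain ⟨e, he⟩ := hgen n
    have h2 := AnnFitting.pow_mem_map_annihilator e he c (hc n)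
    have h3 : (Module.annihilator R (Q n)).map (algebraMap R T) ≤ (I k).comap φ := by
      rw [Ideal.map_le_iff_le_comap]
      intro t ht
      exact hn t (Module.mem_annihilator.mp ht)
    have h4 := h3 h2
    rwa [Ideal.mem_comap, map_pow] at h4
  have h5 := hI _ h1
  rcases Nat.eq_zero_or_pos r with rfl | hr
  · rw [pow_zero] at h5
    exact absurd h5 one_ne_zero
  · exact (pow_eq_zero_iff hr.ne').mp h5

end Kills

section Generators

variable {M : Type*} [AddCommGroup M]

/-- A finite abelian group killed by `p ^ n` is generated by `#M[p]` elements. -/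
theorem exists_generators_aux [Finite M] (p n : ℕ) (hM : ∀ x : M, p ^ n • x = 0) (r : ℕ)
    (hr : Nat.card {x : M // p • x = 0} ≤ r) (hr0 : 0 < r) :
    ∃ e : Fin r → M, Submodule.span ℤ (Set.range e) = ⊤ := by
  classical
  let f : M →+ M := nsmulAddMonoidHom p
  have hf : ∀ x, f x = p • x := fun _ => rfl
  have hker : Nat.card f.ker = Nat.card {x : M // p • x = 0} := rfl
  have h1 : Nat.card M = Nat.card (M ⧸ f.ker) * Nat.card f.ker :=
    AddSubgroup.card_eq_card_quotient_mul_card_addSubgroup f.ker
  have h2 : Nat.card M = Nat.card (M ⧸ f.range) * Nat.card f.range :=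
    AddSubgroup.card_eq_card_quotient_mul_card_addSubgroup f.range
  have h3 : Nat.card (M ⧸ f.ker) = Nat.card f.range :=
    Nat.card_congr (QuotientAddGroup.quotientKerEquivRange f).toEquiv
  have hpos : 0 < Nat.card f.range := Nat.card_pos
  have h4 : Nat.card (M ⧸ f.range) = Nat.card f.ker := by
    rw [h3, mul_comm] at h1
    rw [h1] at h2
    exact (Nat.eq_of_mul_eq_mul_right hpos h2).symm
  have h5 : Nat.card (M ⧸ f.range) ≤ r := by rw [h4, hker]; exact hr
  have hfin : Finite (M ⧸ f.range) := inferInstance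
  have : Nonempty (Fin r) := ⟨⟨0, hr0⟩⟩
  obtain ⟨g, hg⟩ : ∃ g : Fin r → M ⧸ f.range, Function.Surjective g := by
    have h6 : Nat.card (M ⧸ f.range) ≤ Nat.card (Fin r) := by rwa [Nat.card_fin]
    have : Nonempty ((M ⧸ f.range) ↪ Fin r) := by
      have := Fintype.ofFinite (M ⧸ f.range)
      rw [Nat.card_eq_fintype_card, Nat.card_eq_fintype_card] at h6
      exact Function.Embedding.nonempty_of_card_le h6
    obtain ⟨i⟩ := this
    exact ⟨Function.invFun i, Function.invFun_surjective i.injective⟩
  have hlift : ∀ i, ∃ x : M, (QuotientAddGroup.mk x : M ⧸ f.range) = g i :=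
    fun i => QuotientAddGroup.mk_surjective (g i)
  choose e he using hlift
  refine ⟨e, ?_⟩
  set N := Submodule.span ℤ (Set.range e) with hN
  have hstep : ∀ x : M, ∃ y ∈ N, ∃ z : M, x = y + p • z := by
    intro x
    obtain ⟨i, hi⟩ := hg (QuotientAddGroup.mk x)
    rw [← he i, QuotientAddGroup.eq] at hi
    obtain ⟨z, hz⟩ := hi
    refine ⟨e i, Submodule.subset_span ⟨i, rfl⟩, z, ?_⟩
    rw [← hf z, hz]
    abel
  have hall : ∀ k : ℕ, ∀ x : M, ∃ y ∈ N, ∃ z : M, x = y + p ^ k • z := by
    intro k
    induction k with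
    | zero => exact fun x => ⟨0, N.zero_mem, x, by simp⟩
    | succ k ih =>
      intro x
      obtain ⟨y, hy, z, rfl⟩ := ih x
      obtain ⟨y', hy', z', rfl⟩ := hstep z
      refine ⟨y + p ^ k • y', N.add_mem hy (nsmul_mem hy' (p ^ k)), z', ?_⟩
      rw [smul_add, ← add_assoc, smul_smul, pow_succ]
  rw [eq_top_iff]
  intro x _
  obtain ⟨y, hy, z, hz⟩ := hall n x
  rw [hM z, add_zero] at hz
  rw [hz]
  exact hy

/-- Finiteness of `J[p ^ n]` from that of `J[p]`. -/
theorem finite_torsion_pow {J : Type*} [AddCommGroup J] (p : ℕ)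
    (hfin : Finite {x : J // p • x = 0}) (n : ℕ) : Finite {x : J // p ^ n • x = 0} := by
  induction n with
  | zero =>
    have : Subsingleton {x : J // p ^ 0 • x = 0} := by
      refine ⟨?_⟩
      rintro ⟨a, ha⟩ ⟨b, hb⟩
      rw [pow_zero, one_smul] at ha hb
      exact Subtype.ext (ha.trans hb.symm)
    infer_instance
  | succ n ih =>
    -- the map `x ↦ p • x` from `J[p^(n+1)]` to `J[p^n]` has finite fibres
    let A : AddSubgroup J := (nsmulAddMonoidHom (p ^ (n + 1)) : J →+ J).ker
    let B : AddSubgroup J := (nsmulAddMonoidHom (p ^ n) : J →+ J).ker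
    have hB : Finite B := ih
    let f : A →+ B := ((nsmulAddMonoidHom p : J →+ J).comp A.subtype).codRestrict B (fun x => by
      have hx : p ^ (n + 1) • (x : J) = 0 := x.2
      change p ^ n • (p • (x : J)) = 0
      rw [smul_smul, ← pow_succ]
      exact hx)
    have hk : Finite f.ker := by
      have : ∀ x : f.ker, p • ((x : A) : J) = 0 := fun x => congrArg Subtype.val x.2
      exact Finite.of_injective (fun x : f.ker => (⟨((x : A) : J), this x⟩ : {x : J // p • x = 0}))
        (fun a b h => Subtype.ext (Subtype.ext (by simpa using h)))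
    have hr : Finite (A ⧸ f.ker) :=
      Finite.of_injective (QuotientAddGroup.kerLift f) (QuotientAddGroup.kerLift_injective f)
    have : Finite A :=
      Finite.of_equiv _ (AddSubgroup.addGroupEquivQuotientProdAddSubgroup (s := f.ker)).symm
    exact this

variable {R J : Type*} [CommRing R] [AddCommGroup J] [Module R J]

/-- `J[p ^ n]` as an `R`-module is generated by a bounded number of elements. -/
theorem exists_generators (p : ℕ) (hfin : Finite {x : J // p • x = 0}) :
    ∃ r : ℕ, ∀ n : ℕ, ∃ e : Fin r → Submodule.torsionBy R J ((p : R) ^ n),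
      Submodule.span R (Set.range e) = ⊤ := by
  refine ⟨Nat.card {x : J // p • x = 0}, fun n => ?_⟩
  have hmem : ∀ (k : ℕ) (x : J), x ∈ Submodule.torsionBy R J ((p : R) ^ k) ↔ p ^ k • x = 0 := by
    intro k x
    rw [Submodule.mem_torsionBy_iff, ← Nat.cast_pow, Nat.cast_smul_eq_nsmul]
  have hpos : 0 < Nat.card {x : J // p • x = 0} := by
    have : Nonempty {x : J // p • x = 0} := ⟨⟨0, smul_zero _⟩⟩
    exact Nat.card_pos
  have hf := finite_torsion_pow p hfin n
  have hfinM : Finite (Submodule.torsionBy R J ((p : R) ^ n)) :=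
    Finite.of_injective (fun x => (⟨x, (hmem n x).mp x.2⟩ : {x : J // p ^ n • x = 0}))
      (fun a b h => Subtype.ext (by simpa using h))
  obtain ⟨e, he⟩ := exists_generators_aux (M := Submodule.torsionBy R J ((p : R) ^ n)) p n
    (fun x => Subtype.ext (by
      have := (hmem n x).mp x.2
      simpa using this))
    (Nat.card {x : J // p • x = 0}) (Nat.card_le_card_of_injective
      (fun x : {x : Submodule.torsionBy R J ((p : R) ^ n) // p • x = 0} =>
        (⟨((x : Submodule.torsionBy R J ((p : R) ^ n)) : J), by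
          have h := x.2
          exact congrArg Subtype.val h⟩ : {x : J // p • x = 0}))
      (fun a b h => Subtype.ext (Subtype.ext (by simpa using h)))) hpos
  refine ⟨e, ?_⟩
  rw [eq_top_iff]
  intro x _
  have hx : x ∈ Submodule.span ℤ (Set.range e) := he ▸ Submodule.mem_top
  exact (Submodule.span_le_restrictScalars ℤ R (Set.range e)) hx

end Generators

section Divisible

variable {R H O : Type*} [CommRing R] [AddCommGroup H] [Module R H] [Module.Finite ℤ H]
  [Module.Free ℤ H] [CommRing O] [IsDomain O] [IsIntegrallyClosed O]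

/-- If `t H ⊂ m H` for a lattice `H` with `R`-action and `χ : R → O` kills everything that kills
`H`, then `m` divides `χ t`. -/
theorem mem_span_of_forall_dvd (χ : R →+* O) (hχ : ∀ t : R, (∀ x : H, t • x = 0) → χ t = 0)
    (m : ℕ) (hm : (m : O) ≠ 0) (t : R) (ht : ∀ x : H, ∃ y : H, t • x = m • y) :
    χ t ∈ Ideal.span {(m : O)} := by
  classical
  let b := Module.Free.chooseBasis ℤ H
  choose y hy using ht
  let s : H →ₗ[ℤ] H := b.constr ℤ (fun i => y (b i))
  have hs : ∀ x : H, t • x = (m : ℤ) • s x := by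
    have h1 : (Algebra.lsmul ℤ ℤ H t : H →ₗ[ℤ] H) = (m : ℤ) • s := by
      refine b.ext fun i => ?_
      rw [LinearMap.smul_apply, Module.Basis.constr_basis, Algebra.lsmul_coe]
      change t • b i = _
      rw [hy]
      simp
    intro x
    exact LinearMap.congr_fun h1 x
  set P := LinearMap.charpoly s with hP
  have hmonic : P.Monic := LinearMap.charpoly_monic s
  have hPs : aeval s P = 0 := LinearMap.aeval_self_charpoly s
  -- the rescaled polynomial kills `t`
  have h2 : aeval (algebraMap ℤ (Module.End ℤ H) m * s) (scaleRoots P (m : ℤ)) = 0 :=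
    scaleRoots_aeval_eq_zero hPs
  have h3 : (Algebra.lsmul ℤ ℤ H t : Module.End ℤ H) = algebraMap ℤ (Module.End ℤ H) m * s := by
    refine LinearMap.ext fun x => ?_
    rw [Module.End.mul_apply, Module.algebraMap_end_apply, Algebra.lsmul_coe]
    exact hs x
  have h4 : ∀ x : H, (aeval t (scaleRoots P (m : ℤ)) : R) • x = 0 := by
    intro x
    have h5 : Algebra.lsmul ℤ ℤ H (aeval t (scaleRoots P (m : ℤ))) = 0 := by
      rw [← Polynomial.aeval_algHom_apply]
      erw [h3]
      exact h2
    exact LinearMap.congr_fun h5 x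
  have h6 : aeval (χ t) (scaleRoots P (m : ℤ)) = 0 := by
    have h7 := hχ _ h4
    have h8 : χ (aeval t (scaleRoots P (m : ℤ))) = aeval (χ t) (scaleRoots P (m : ℤ)) :=
      (Polynomial.aeval_algHom_apply χ.toIntAlgHom t (scaleRoots P (m : ℤ))).symm
    rw [← h8, h7]
  -- pass to the fraction field
  let K := FractionRing O
  have hmK : (m : K) ≠ 0 := by
    rw [← map_natCast (algebraMap O K), Ne, IsFractionRing.to_map_eq_zero_iff (K := K)]
    exact hm
  set z : K := algebraMap O K (χ t) / (m : K) with hz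
  have h9 : aeval z P = 0 := by
    have h10 : aeval (algebraMap O K (χ t)) (scaleRoots P (m : ℤ)) = 0 := by
      rw [Polynomial.aeval_algebraMap_apply, h6, map_zero]
    have h11 : algebraMap O K (χ t) = algebraMap ℤ K m * z := by
      rw [hz, map_natCast, mul_comm, div_mul_cancel₀ _ hmK]
    rw [h11, aeval_def, scaleRoots_eval₂_mul, ← aeval_def] at h10
    rcases mul_eq_zero.mp h10 with h | h
    · exfalso
      rw [map_natCast] at h
      exact pow_ne_zero _ hmK h
    · exact h
  have hint : IsIntegral O z := by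
    have : IsIntegral ℤ z := ⟨P, hmonic, h9⟩
    exact this.tower_top
  obtain ⟨w, hw⟩ := IsIntegrallyClosed.isIntegral_iff.mp hint
  rw [Ideal.mem_span_singleton]
  refine ⟨w, IsFractionRing.injective O K ?_⟩
  rw [map_mul, hw, hz, map_natCast, mul_comm, div_mul_cancel₀ _ hmK]

end Divisible

end Fermat.Agent.DR.Support
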