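import Mathlib
import Fermat.Agent.DR.Relation
import Fermat.Agent.DR.Support

/-!
# Traces on inertia from the structure of `J[p^n]`

Abstract core of S34: `J` is a smooth `G_ℚ`-module with commuting `R`-action satisfying the
Frobenius relation, `ρ : GaloisRepAdic T`. If `τ ∈ G_ℚ` acts unipotently (`(τ-1)² = 0`) on
`J[p^∞]`, or if `τ` acts trivially on sufficiently big quotients of `J[p^n]`, and `det ρ(τ) = 1`, then
`tr ρ(τ) = 2` at every supported point of `T`.
-/

set_option autoImplicit false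

open Polynomial IsLocalRing
open scoped TensorProduct

namespace Fermat.Agent.DR.Core

open Fermat.Agent.DR.Relation

local notation "Qbar" => AlgebraicClosure ℚ
local notation "Γℚ" => (AlgebraicClosure ℚ ≃ₐ[ℚ] AlgebraicClosure ℚ)

section Torsion

variable {R J : Type*} [CommRing R] [AddCommGroup J] [Module R J]

theorem mem_tors_iff (p n : ℕ) (x : J) :
    x ∈ Submodule.torsionBy R J ((p : R) ^ n) ↔ p ^ n • x = 0 := by
  rw [Submodule.mem_torsionBy_iff, ← Nat.cast_pow, Nat.cast_smul_eq_nsmul]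

variable [DistribMulAction Γℚ J] [SMulCommClass Γℚ R J]

/-- The Galois action on `J[p^n]`. -/
@[reducible] noncomputable def torsAction (R : Type*) {J : Type*} [CommRing R] [AddCommGroup J] [Module R J]
    [DistribMulAction Γℚ J] [SMulCommClass Γℚ R J] (a : R) :
    DistribMulAction Γℚ (Submodule.torsionBy R J a) where
  smul g x := ⟨g • (x : J), by
    rw [Submodule.mem_torsionBy_iff, ← smul_comm, (Submodule.mem_torsionBy_iff _ _).mp x.2,
      smul_zero]⟩
  one_smul x := Subtype.ext (one_smul _ _)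
  mul_smul g h x := Subtype.ext (mul_smul g h (x : J))
  smul_zero g := Subtype.ext (smul_zero g)
  smul_add g x y := Subtype.ext (smul_add g (x : J) (y : J))

theorem coe_torsAction_smul (a : R) (g : Γℚ) (x : Submodule.torsionBy R J a) :
    letI := torsAction R (J := J) a
    ((g • x : Submodule.torsionBy R J a) : J) = g • (x : J) := rfl

end Torsion

variable {R J : Type*} {T : Type} [CommRing R] [CommRing T] [IsLocalRing T] [IsNoetherianRing T]
  [Algebra R T] [AddCommGroup J] [Module R J] [DistribMulAction Γℚ J] [SMulCommClass Γℚ R J]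

/-- The Frobenius hypothesis linking `J` and `ρ`. -/
def FrobHyp (p : ℕ) (J : Type*) [AddCommGroup J] [Module R J] [DistribMulAction Γℚ J]
    (ρ : GaloisRepAdic T) (S : Finset ℕ) : Prop :=
  ∀ ℓ : ℕ, ℓ.Prime → ℓ ∉ S → ∀ A : ValuationSubring (AlgebraicClosure ℚ),
    A.LiesOverPrime ℓ → ∀ σ : Γℚ, A.IsFrobeniusAt σ ℓ → ∃ a : R,
      (∀ x : J, (∃ n : ℕ, p ^ n • x = 0) → σ • σ • x - a • σ • x + (ℓ : R) • x = 0) ∧
      LinearMap.charpoly (ρ.ρ σ) = X ^ 2 - C (algebraMap R T a) * X + C ((ℓ : T))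

/-- The quadratic relation on `T ⊗ J[p^n]`, elementwise. -/
theorem relation_torsion (p : ℕ) (ρ : GaloisRepAdic T) (S : Finset ℕ)
    (hsm : SmoothAct J) (hfin : Finite {x : J // p • x = 0}) (hF : FrobHyp (R := R) p J ρ S)
    (n : ℕ) (g : Γℚ) (x : J) (hx : x ∈ Submodule.torsionBy R J ((p : R) ^ n))
    (hgx : g • x ∈ Submodule.torsionBy R J ((p : R) ^ n))
    (hggx : g • g • x ∈ Submodule.torsionBy R J ((p : R) ^ n)) :
    (1 : T) ⊗ₜ[R] (⟨g • g • x, hggx⟩ : Submodule.torsionBy R J ((p : R) ^ n)) -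
      LinearMap.trace T ρ.V (ρ.ρ g) • (1 : T) ⊗ₜ[R]
        (⟨g • x, hgx⟩ : Submodule.torsionBy R J ((p : R) ^ n)) +
      LinearMap.det (ρ.ρ g) • (1 : T) ⊗ₜ[R]
        (⟨x, hx⟩ : Submodule.torsionBy R J ((p : R) ^ n)) = 0 := by
  classical
  let _ := torsAction R (J := J) ((p : R) ^ n)
  have : SMulCommClass Γℚ R (Submodule.torsionBy R J ((p : R) ^ n)) :=
    ⟨fun g r x => Subtype.ext (smul_comm g r (x : J))⟩
  have : Module.Finite R (Submodule.torsionBy R J ((p : R) ^ n)) := by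
    obtain ⟨r, hr⟩ := Support.exists_generators (R := R) p hfin
    obtain ⟨e, he⟩ := hr n
    exact ⟨⟨Finset.univ.image e, by rw [Finset.coe_image, Finset.coe_univ, Set.image_univ]; exact he⟩⟩
  have hsm' : SmoothAct (Submodule.torsionBy R J ((p : R) ^ n)) := by
    intro y
    obtain ⟨L, hL, h⟩ := hsm (y : J)
    exact ⟨L, hL, fun g hg => Subtype.ext (h g hg)⟩
  have h := quadratic_relation (R := R) (M := Submodule.torsionBy R J ((p : R) ^ n)) ρ hsm' S
    (fun ℓ hℓ hℓS A hA σ hσ => by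
      obtain ⟨a, ha, hc⟩ := hF ℓ hℓ hℓS A hA σ hσ
      exact ⟨a, fun y => Subtype.ext (ha y ⟨n, (mem_tors_iff p n (y : J)).mp y.2⟩), hc⟩) g
  have h2 := LinearMap.congr_fun h
    ((1 : T) ⊗ₜ[R] (⟨x, hx⟩ : Submodule.torsionBy R J ((p : R) ^ n)))
  simp only [LinearMap.add_apply, LinearMap.sub_apply, LinearMap.smul_apply,
    Module.End.mul_apply, Module.End.one_apply, act_tmul, LinearMap.zero_apply] at h2
  exact h2

variable {O : Type*} [CommRing O] [IsDomain O]

omit [SMulCommClass Γℚ R J] in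
theorem smul_mem_tors (g : Γℚ) {p n : ℕ} {x : J}
    (hx : x ∈ Submodule.torsionBy R J ((p : R) ^ n)) :
    g • x ∈ Submodule.torsionBy R J ((p : R) ^ n) := by
  rw [mem_tors_iff] at hx ⊢
  rw [← smul_comm g (p ^ n) x, hx, smul_zero]

/-- **Coinvariant form**: if `τ` acts trivially on `J[p^n] / V n` for all `n` and these quotients
support the point `φ` of `T`, then `φ (tr ρ(τ)) = 2` (when `det ρ(τ) = 1`). -/
theorem trace_eq_two_of_coinvariants (p : ℕ) (ρ : GaloisRepAdic T) (S : Finset ℕ)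
    (hsm : SmoothAct J) (hfin : Finite {x : J // p • x = 0}) (hF : FrobHyp (R := R) p J ρ S)
    (τ : Γℚ) (hdet : LinearMap.det (ρ.ρ τ) = 1) (V : ℕ → Submodule R J)
    (hV : ∀ n, ∀ x : J, p ^ n • x = 0 → τ • x - x ∈ V n) (φ : T →+* O)
    (I : ℕ → Ideal O) (hI : ∀ x : O, (∀ k, x ∈ I k) → x = 0)
    (hsupp : ∀ k, ∃ n, ∀ t : R, (∀ x : J, p ^ n • x = 0 → t • x ∈ V n) →
      φ (algebraMap R T t) ∈ I k) :
    φ (LinearMap.trace T ρ.V (ρ.ρ τ)) = 2 := by
  set t := LinearMap.trace T ρ.V (ρ.ρ τ) with ht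
  -- the quotients
  let W : ∀ n, Submodule R (Submodule.torsionBy R J ((p : R) ^ n)) := fun n =>
    (V n).comap (Submodule.torsionBy R J ((p : R) ^ n)).subtype
  have hkey : ∀ n, ∀ x : (Submodule.torsionBy R J ((p : R) ^ n)) ⧸ W n,
      (2 - t) ⊗ₜ[R] x = 0 := by
    intro n y
    obtain ⟨x, rfl⟩ := (W n).mkQ_surjective y
    have hx := x.2
    have hx1 : τ • (x : J) ∈ Submodule.torsionBy R J ((p : R) ^ n) :=
      smul_mem_tors τ hx
    have hx2 : τ • τ • (x : J) ∈ Submodule.torsionBy R J ((p : R) ^ n) :=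
      smul_mem_tors τ hx1
    have hrel := relation_torsion p ρ S hsm hfin hF n τ (x : J) hx hx1 hx2
    rw [hdet, one_smul, ← ht] at hrel
    have hrel2 := congrArg (LinearMap.lTensor T (W n).mkQ) hrel
    rw [map_add, map_sub, map_zero] at hrel2
    have e1 : LinearMap.lTensor T (W n).mkQ (t • (1 : T) ⊗ₜ[R] (⟨τ • (x : J), hx1⟩ :
        Submodule.torsionBy R J ((p : R) ^ n))) = t ⊗ₜ[R] (W n).mkQ x := by
      rw [TensorProduct.smul_tmul', smul_eq_mul, mul_one, LinearMap.lTensor_tmul]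
      congr 1
      rw [← sub_eq_zero, ← map_sub, ← LinearMap.mem_ker, Submodule.ker_mkQ]
      exact hV n x ((mem_tors_iff p n (x : J)).mp hx)
    have e2 : LinearMap.lTensor T (W n).mkQ ((1 : T) ⊗ₜ[R] (⟨τ • τ • (x : J), hx2⟩ :
        Submodule.torsionBy R J ((p : R) ^ n))) = 1 ⊗ₜ[R] (W n).mkQ x := by
      rw [LinearMap.lTensor_tmul]
      congr 1
      rw [← sub_eq_zero, ← map_sub, ← LinearMap.mem_ker, Submodule.ker_mkQ]
      have h1 := hV n (τ • (x : J)) ((mem_tors_iff p n (τ • (x : J))).mp hx1)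
      have h2 := hV n x ((mem_tors_iff p n (x : J)).mp hx)
      have h3 := (V n).add_mem h1 h2
      rw [sub_add_sub_cancel] at h3
      exact h3
    have e3 : LinearMap.lTensor T (W n).mkQ ((1 : T) ⊗ₜ[R] (⟨(x : J), hx⟩ :
        Submodule.torsionBy R J ((p : R) ^ n))) = 1 ⊗ₜ[R] (W n).mkQ x := by
      rw [LinearMap.lTensor_tmul]
    rw [e1, e2, e3] at hrel2
    have e4 : (2 : T) ⊗ₜ[R] (W n).mkQ x = 1 ⊗ₜ[R] (W n).mkQ x + 1 ⊗ₜ[R] (W n).mkQ x := by
      rw [← TensorProduct.add_tmul]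
      norm_num
    rw [TensorProduct.sub_tmul, e4, ← hrel2]
    abel
  obtain ⟨r, hr⟩ := Support.exists_generators (R := R) p hfin
  have h := Support.map_eq_zero_of_kills φ r
    (Q := fun n => (Submodule.torsionBy R J ((p : R) ^ n)) ⧸ W n)
    (fun n => by
      obtain ⟨e, he⟩ := hr n
      refine ⟨fun i => (W n).mkQ (e i), ?_⟩
      have : Set.range (fun i => (W n).mkQ (e i)) = (W n).mkQ '' Set.range e := by
        rw [← Set.range_comp]; rfl
      rw [this, ← Submodule.map_span, he, Submodule.map_top, Submodule.range_mkQ]) I hI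
    (fun k => by
      obtain ⟨n, hn⟩ := hsupp k
      refine ⟨n, fun a ha => hn a fun x hx => ?_⟩
      have h1 := ha ((W n).mkQ ⟨x, (mem_tors_iff p n x).mpr hx⟩)
      rw [← map_smul, ← LinearMap.mem_ker, Submodule.ker_mkQ] at h1
      exact h1) (2 - t) hkey
  rw [map_sub, map_ofNat, sub_eq_zero] at h
  exact h.symm

/-- **Unipotent form**: if `(τ - 1)² = 0` on `J[p^∞]` and `det ρ(τ) = 1`, then
`φ (tr ρ(τ)) = 2` at every supported point `φ` of `T`. -/
theorem trace_eq_two_of_unipotent (p : ℕ) (ρ : GaloisRepAdic T) (S : Finset ℕ)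
    (hsm : SmoothAct J) (hfin : Finite {x : J // p • x = 0}) (hF : FrobHyp (R := R) p J ρ S)
    (τ : Γℚ) (hdet : LinearMap.det (ρ.ρ τ) = 1)
    (hτ : ∀ x : J, (∃ n : ℕ, p ^ n • x = 0) → τ • τ • x - 2 • (τ • x) + x = 0) (φ : T →+* O)
    (I : ℕ → Ideal O) (hI : ∀ x : O, (∀ k, x ∈ I k) → x = 0)
    (hsupp : ∀ k, ∃ n, ∀ t : R, (∀ x : J, p ^ n • x = 0 → t • x = 0) →
      φ (algebraMap R T t) ∈ I k) :
    φ (LinearMap.trace T ρ.V (ρ.ρ τ)) = 2 := by
  set t := LinearMap.trace T ρ.V (ρ.ρ τ) with ht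
  have hkey : ∀ n, ∀ x : Submodule.torsionBy R J ((p : R) ^ n), (2 - t) ⊗ₜ[R] x = 0 := by
    intro n x
    -- apply the relation to `y = τ⁻¹ x`
    have hy := smul_mem_tors τ⁻¹ x.2
    set y : J := τ⁻¹ • (x : J) with hydef
    have hyx : τ • y = x := smul_inv_smul τ (x : J)
    have hy1 : τ • y ∈ Submodule.torsionBy R J ((p : R) ^ n) := smul_mem_tors τ hy
    have hy2 : τ • τ • y ∈ Submodule.torsionBy R J ((p : R) ^ n) := smul_mem_tors τ hy1
    have hrel := relation_torsion p ρ S hsm hfin hF n τ y hy hy1 hy2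
    rw [hdet, one_smul, ← ht] at hrel
    have huni := hτ y ⟨n, (mem_tors_iff p n y).mp hy⟩
    have e1 : (⟨τ • τ • y, hy2⟩ : Submodule.torsionBy R J ((p : R) ^ n)) =
        x + x - ⟨y, hy⟩ := by
      apply Subtype.ext
      change τ • τ • y = (x : J) + x - y
      rw [hyx] at huni ⊢
      rw [two_smul] at huni
      rw [← sub_eq_zero, ← huni]
      abel
    have e2 : (⟨τ • y, hy1⟩ : Submodule.torsionBy R J ((p : R) ^ n)) = x := Subtype.ext hyx
    rw [e1, e2, TensorProduct.tmul_sub, TensorProduct.tmul_add, TensorProduct.smul_tmul',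
      smul_eq_mul, mul_one] at hrel
    have e4 : (2 : T) ⊗ₜ[R] x = 1 ⊗ₜ[R] x + 1 ⊗ₜ[R] x := by
      rw [← TensorProduct.add_tmul]
      norm_num
    rw [TensorProduct.sub_tmul, e4, ← hrel]
    abel
  obtain ⟨r, hr⟩ := Support.exists_generators (R := R) p hfin
  have h := Support.map_eq_zero_of_kills φ r
    (Q := fun n => Submodule.torsionBy R J ((p : R) ^ n)) hr I hI
    (fun k => by
      obtain ⟨n, hn⟩ := hsupp k
      refine ⟨n, fun a ha => hn a fun x hx => ?_⟩
      exact congrArg Subtype.val (ha ⟨x, (mem_tors_iff p n x).mpr hx⟩)) (2 - t) hkey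
  rw [map_sub, map_ofNat, sub_eq_zero] at h
  exact h.symm

end Fermat.Agent.DR.Core
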