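import Mathlib
import Fermat.Prelude.Def_CuspForm_HeckeGaloisRepDatum
import Fermat.Prelude.Def_GaloisRep_LocalConditions
import Fermat.Agent.DR.Core
import Fermat.Agent.GAL.Inputs
import Fermat.Agent.FrobCompareDet
import Fermat.Agent.CMP.Density
import Fermat.Agent.RT.Reduced
import Fermat.Agent.RT.Components
import Fermat.Agent.Petersson.Reduced
import Fermat.Agent.S22

/-!
# S34: everything except the geometric input

`isUnipotentOnInertiaAt_of_input`: the representation of a Hecke–Galois datum has unipotent inertia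
at `q ≠ p` as soon as the inertia groups above `q` act unipotently on the `p`-power torsion of a
module `J` satisfying `GalInput N p J` (in practice `J = JZero N`).
-/

set_option autoImplicit false

open Polynomial IsLocalRing ModularCurve
open scoped TensorProduct

namespace Fermat.Agent.DR.S34Algebra

open Fermat.Agent.DR.Relation Fermat.Agent.DR.Core Fermat.Agent.GAL

local notation "Qbar" => AlgebraicClosure ℚ
local notation "Γℚ" => (AlgebraicClosure ℚ ≃ₐ[ℚ] AlgebraicClosure ℚ)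

/-! ## The anemic abstract Hecke algebra -/

/-- The polynomial ring on the Hecke operators away from `S`. -/
abbrev HeckeS (S : Set ℕ) : Type := MvPolynomial {ℓ : Nat.Primes // (ℓ : ℕ) ∉ S} ℤ

/-- The inclusion of `HeckeS S` in the full abstract Hecke algebra. -/
noncomputable def toHecke (S : Set ℕ) : HeckeS S →+* HeckeAlg :=
  (MvPolynomial.rename (R := ℤ) (Subtype.val : {ℓ : Nat.Primes // (ℓ : ℕ) ∉ S} → Nat.Primes)).toRingHom

theorem toHecke_X (S : Set ℕ) (ℓ : {ℓ : Nat.Primes // (ℓ : ℕ) ∉ S}) :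
    toHecke S (MvPolynomial.X ℓ) = heckeGen ℓ.1 := MvPolynomial.rename_X _ _

section Eval

variable (N : ℕ) [NeZero N] (S : Set ℕ)

/-- The Hecke operators away from `S` in `heckeAlgebra N 2 S`. -/
noncomputable def genS (ℓ : {ℓ : Nat.Primes // (ℓ : ℕ) ∉ S}) : CuspForm.heckeAlgebra N 2 S :=
  open Classical in
  if h : ((ℓ.1 : Nat.Primes) : ℕ) ∣ N then CuspForm.heckeAlgebra.U ℓ.1.2 h ℓ.2
  else CuspForm.heckeAlgebra.T ℓ.1.2 h ℓ.2

/-- Evaluation of `HeckeS S` in the Hecke algebra away from `S`. -/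
noncomputable def evalS : HeckeS S →+* CuspForm.heckeAlgebra N 2 S :=
  (MvPolynomial.aeval (R := ℤ) (genS N S)).toRingHom

theorem evalS_X (ℓ : {ℓ : Nat.Primes // (ℓ : ℕ) ∉ S}) :
    evalS N S (MvPolynomial.X ℓ) = genS N S ℓ := MvPolynomial.aeval_X _ _

variable {N S} in
theorem evalS_X_of_not_dvd {ℓ : ℕ} (hℓ : ℓ.Prime) (hℓN : ¬ ℓ ∣ N) (hℓS : ℓ ∉ S) :
    evalS N S (MvPolynomial.X ⟨⟨ℓ, hℓ⟩, hℓS⟩) = CuspForm.heckeAlgebra.T hℓ hℓN hℓS := by
  rw [evalS_X]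
  exact dif_neg hℓN

theorem coe_genS (ℓ : {ℓ : Nat.Primes // (ℓ : ℕ) ∉ S}) :
    (genS N S ℓ).1 = (CuspForm.heckeFormsGen N 2 ℓ.1).1 := by
  by_cases hd : ((ℓ.1 : Nat.Primes) : ℕ) ∣ N
  · have e1 : genS N S ℓ = CuspForm.heckeAlgebra.U ℓ.1.2 hd ℓ.2 := dif_pos hd
    rw [e1, CuspForm.heckeFormsGen_of_dvd hd]
    rfl
  · have e1 : genS N S ℓ = CuspForm.heckeAlgebra.T ℓ.1.2 hd ℓ.2 := dif_neg hd
    rw [e1, CuspForm.heckeFormsGen_of_not_dvd hd]
    rfl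

theorem evalS_C (a : ℤ) : evalS N S (MvPolynomial.C a) = algebraMap ℤ _ a :=
  MvPolynomial.aeval_C _ a

theorem toHecke_C (a : ℤ) : toHecke S (MvPolynomial.C a) = MvPolynomial.C a :=
  MvPolynomial.rename_C _ a

/-- `evalS` is the restriction of `heckeEvalForms`. -/
theorem coe_evalS (t : HeckeS S) :
    (evalS N S t).1 = (CuspForm.heckeEvalForms N 2 (toHecke S t)).1 := by
  induction t using MvPolynomial.induction_on with
  | C a =>
    rw [evalS_C, toHecke_C, CuspForm.heckeEvalForms_C]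
    have h1 : (algebraMap ℤ (CuspForm.heckeAlgebra N 2 S) a).1 =
      (algebraMap ℤ (Module.End ℂ (CuspForm (CongruenceSubgroup.Gamma0 N) 2)) a) := rfl
    have h2 : (algebraMap ℤ (CuspForm.heckeAlgebra N 2 ∅) a).1 =
      (algebraMap ℤ (Module.End ℂ (CuspForm (CongruenceSubgroup.Gamma0 N) 2)) a) := rfl
    exact h1.trans h2.symm
  | add p q hp hq =>
    rw [map_add (evalS N S), map_add (toHecke S), map_add (CuspForm.heckeEvalForms N 2)]
    exact congrArg₂ (· + ·) hp hq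
  | mul_X p ℓ hp =>
    rw [map_mul (evalS N S), map_mul (toHecke S), map_mul (CuspForm.heckeEvalForms N 2), toHecke_X,
      CuspForm.heckeEvalForms_heckeGen, evalS_X]
    exact congrArg₂ (· * ·) hp (coe_genS N S ℓ)

theorem evalS_eq_zero {t : HeckeS S} (h : CuspForm.heckeEvalForms N 2 (toHecke S t) = 0) :
    evalS N S t = 0 := by
  have h1 := coe_evalS N S t
  rw [h] at h1
  have h2 : (0 : CuspForm.heckeAlgebra N 2 ∅).1 = 0 := rfl
  rw [h2] at h1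
  exact Subtype.ext h1

end Eval

/-! ## Inputs -/

/-- The geometric input at `q`: inertia above `q` acts unipotently (of exponent two) on `J[p^∞]`. -/
def UnipotentInput (p q : ℕ) (J : Type*) [AddCommGroup J] [DistribMulAction Γℚ J] : Prop :=
  ∀ P : ValuationSubring Qbar, P.LiesOverPrime q → ∀ τ ∈ P.inertiaSubgroupIn ℚ,
    ∀ x : J, (∃ n : ℕ, p ^ n • x = 0) → τ • τ • x - 2 • (τ • x) + x = 0

/-- The weaker geometric input at `q`: inertia above `q` acts trivially on `J[p^n] / V n`, and these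
quotients are faithful enough: an operator mapping `J[p^n]` to `V n` has, up to a constant
and a power, to kill `J[p^n]`. -/
def CoinvInput (p q : ℕ) (S : Set ℕ) (J : Type*) [AddCommGroup J] [Module HeckeAlg J]
    [DistribMulAction Γℚ J] : Prop :=
  ∀ P : ValuationSubring Qbar, P.LiesOverPrime q → ∃ (V : ℕ → Submodule HeckeAlg J) (c e : ℕ),
    c ≠ 0 ∧ (∀ n, ∀ τ ∈ P.inertiaSubgroupIn ℚ, ∀ x : J, p ^ n • x = 0 → τ • x - x ∈ V n) ∧
    ∀ n, ∀ t : HeckeS S, (∀ x : J, p ^ n • x = 0 → toHecke S t • x ∈ V n) →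
      ∀ x : J, p ^ n • x = 0 → ((c : HeckeAlg) * toHecke S t ^ e) • x = 0

/-! ## Support -/

section Support

variable {N p : ℕ} [NeZero N] {J : Type} [AddCommGroup J] [Module HeckeAlg J]

/-- SUPPORT at a point `χ` of the anemic Hecke algebra. -/
theorem support_point (hp : p ≠ 0) (hs : SupportInput N p J) {S : Set ℕ} {O : Type*} [CommRing O]
    [IsDomain O] [IsIntegrallyClosed O] [CharZero O] (χ : CuspForm.heckeAlgebra N 2 S →+* O)
    (n : ℕ) (t : HeckeS S) (ht : ∀ x : J, p ^ n • x = 0 → toHecke S t • x = 0) :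
    χ (evalS N S t) ∈ Ideal.span {((p : O)) ^ n} := by
  obtain ⟨H, _, _, _, _, Φ, hker, hinj, hcomp⟩ := hs
  let _ : Module (HeckeS S) H := Module.compHom H (toHecke S)
  have hkill : ∀ m : ℕ, ∀ x : H, p ^ m • Φ m x = 0 := by
    intro m
    induction m with
    | zero =>
      intro x
      rw [pow_zero, one_smul]
      exact (hinj 0 x).mpr ⟨x, by simp⟩
    | succ m ih =>
      intro x
      rw [pow_succ, mul_smul, hcomp, ih]
  have h1 := Support.mem_span_of_forall_dvd (R := HeckeS S) (H := H) (χ.comp (evalS N S))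
    (fun a ha => by
      rw [RingHom.comp_apply, evalS_eq_zero N S (hker (toHecke S a) ha), map_zero])
    (p ^ n) (by exact_mod_cast pow_ne_zero n (Nat.cast_ne_zero.mpr hp)) t
    (fun x => by
      have h2 : Φ n (toHecke S t • x) = 0 := by
        rw [map_smul]
        exact ht _ (hkill n x)
      exact (hinj n _).mp h2)
  rwa [Nat.cast_pow] at h1

end Support

/-! ## The determinant on inertia -/

theorem det_eq_one_of_mem_inertia {A : Type} [CommRing A] [IsLocalRing A] [IsNoetherianRing A]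
    (ρ : GaloisRepAdic A) {p q : ℕ} (hp : p.Prime) (hq : q.Prime) (hqp : q ≠ p)
    (hdet : ρ.DetIsCyclotomic p) (P : ValuationSubring Qbar) (hP : P.LiesOverPrime q) (τ : Γℚ)
    (hτ : τ ∈ P.inertiaSubgroupIn ℚ) : LinearMap.det (ρ.ρ τ) = 1 := by
  rw [← sub_eq_zero]
  refine FrobCompare.eq_zero_of_forall_mem_pow fun n => ?_
  have : NeZero (p ^ n) := ⟨pow_ne_zero n hp.ne_zero⟩
  have hqn : ¬ q ∣ p ^ n := fun h => hqp ((Nat.prime_dvd_prime_iff_eq hq hp).mp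
    (hq.dvd_of_dvd_pow h))
  have h1 : ∀ μ : Qbar, μ ^ p ^ n = 1 → τ μ = μ ^ 1 := by
    intro μ hμ
    have h2 := Cyclotomic.cyc_spec (p ^ n) τ hμ
    rw [Cyclotomic.cyc_inertia hq hqn P hP hτ] at h2
    have h3 := Cyclotomic.pow_val_natCast (p ^ n) hμ 1
    rw [Nat.cast_one] at h3
    rw [h2, Units.val_one, h3]
  have h4 := hdet.2 n τ 1 h1
  rw [Nat.cast_one] at h4
  refine (Ideal.span_le.mpr ?_ : Ideal.span {((p ^ n : ℕ) : A)} ≤ maximalIdeal A ^ n) h4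
  rw [Set.singleton_subset_iff, SetLike.mem_coe, Nat.cast_pow]
  exact Ideal.pow_mem_pow hdet.1 n

/-! ## S34 -/

section Main

variable {𝒪 : Type} [CommRing 𝒪] [IsDomain 𝒪] [IsDiscreteValuationRing 𝒪]
  [IsAdicComplete (maximalIdeal 𝒪) 𝒪] [Finite (ResidueField 𝒪)] [CharZero 𝒪]
  {p : ℕ} {N : ℕ} [NeZero N] {S : Finset ℕ}
  {θ : CuspForm.heckeAlgebra N 2 (↑S : Set ℕ) →+* ResidueField 𝒪}
  {T : Type} [CommRing T] [IsLocalRing T] [IsNoetherianRing T]
  [IsAdicComplete (maximalIdeal T) T] [Algebra 𝒪 T] [IsLocalHom (algebraMap 𝒪 T)]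
  [Module.Finite 𝒪 T] [Module.Free 𝒪 T]

omit [Finite (ResidueField 𝒪)] [CharZero 𝒪] in
/-- The determinant of the representation of a Hecke–Galois datum is cyclotomic. -/
theorem detIsCyclotomic (hp : p.Prime) (hp𝒪 : (p : 𝒪) ∈ maximalIdeal 𝒪)
    (hNS : ∀ q : ℕ, q.Prime → q ∣ N → q ∈ S)
    (H : CuspForm.HeckeGaloisRepDatum N (↑S : Set ℕ) 𝒪 θ T) : H.ρ.DetIsCyclotomic p := by
  have hpT : (p : T) ∈ maximalIdeal T := by
    rw [← map_natCast (algebraMap 𝒪 T)]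
    exact map_nonunit _ _ hp𝒪
  refine FrobCompare.detIsCyclotomic_of_frob CMP.Density.frobDensity H.ρ hp.ne_zero hpT S ?_
  intro ℓ hℓ hℓS P hP σ hσ
  have hℓN : ¬ ℓ ∣ N := fun h => hℓS (hNS ℓ hℓ h)
  have hch := H.charpoly_frob ℓ hℓ hℓN (by exact_mod_cast hℓS) P hP σ hσ
  have h1 := BN2.charpoly_eq_of_finrank_two H.ρ.finrank_eq (H.ρ.ρ σ)
  rw [hch] at h1
  have h := congrArg (fun q => q.coeff 0) h1
  simp only [coeff_add, coeff_sub, coeff_X_pow, coeff_C_mul, coeff_X_zero, coeff_C] at h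
  norm_num at h
  exact h.symm

omit [Finite (ResidueField 𝒪)] [CharZero 𝒪] in
/-- The Frobenius hypothesis for the datum. -/
theorem frobHyp (hpS : p ∈ S) (hNS : ∀ q : ℕ, q.Prime → q ∣ N → q ∈ S) (hp : p.Prime)
    (H : CuspForm.HeckeGaloisRepDatum N (↑S : Set ℕ) 𝒪 θ T)
    (J : Type) [AddCommGroup J] [Module HeckeAlg J] [DistribMulAction Γℚ J]
    [SMulCommClass Γℚ HeckeAlg J] (hfr : FrobeniusQuadratic (K := ℚ) (L := Qbar) N p J) :
    letI : Module (HeckeS (↑S : Set ℕ)) J := Module.compHom J (toHecke (↑S : Set ℕ))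
    letI : Algebra (HeckeS (↑S : Set ℕ)) T := (H.π.comp (evalS N (↑S : Set ℕ))).toAlgebra
    FrobHyp (R := HeckeS (↑S : Set ℕ)) p J H.ρ S := by
  let _ : Module (HeckeS (↑S : Set ℕ)) J := Module.compHom J (toHecke (↑S : Set ℕ))
  let _ : Algebra (HeckeS (↑S : Set ℕ)) T := (H.π.comp (evalS N (↑S : Set ℕ))).toAlgebra
  intro ℓ hℓ hℓS A hA σ hσ
  have hℓN : ¬ ℓ ∣ N := fun h => hℓS (hNS ℓ hℓ h)
  have hℓS' : ℓ ∉ (↑S : Set ℕ) := by exact_mod_cast hℓS
  have hℓp : ¬ ℓ ∣ N * p := by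
    intro h
    rcases (Nat.Prime.dvd_mul hℓ).mp h with h | h
    · exact hℓN h
    · exact hℓS ((Nat.prime_dvd_prime_iff_eq hℓ hp).mp h ▸ hpS)
  refine ⟨MvPolynomial.X ⟨⟨ℓ, hℓ⟩, hℓS'⟩, fun x hx => ?_, ?_⟩
  · have h := hfr ℓ hℓ hℓp A hA σ hσ x hx
    have e1 : (MvPolynomial.X ⟨⟨ℓ, hℓ⟩, hℓS'⟩ : HeckeS (↑S : Set ℕ)) • (σ • x) =
        heckeGen ⟨ℓ, hℓ⟩ • (σ • x) := by
      change toHecke (↑S : Set ℕ) (MvPolynomial.X ⟨⟨ℓ, hℓ⟩, hℓS'⟩) • (σ • x) = _
      rw [toHecke_X]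
    rw [e1, Nat.cast_smul_eq_nsmul]
    exact h
  · have h := H.charpoly_frob ℓ hℓ hℓN hℓS' A hA σ hσ
    rw [h]
    have e2 : algebraMap (HeckeS (↑S : Set ℕ)) T (MvPolynomial.X ⟨⟨ℓ, hℓ⟩, hℓS'⟩) =
        H.π (CuspForm.heckeAlgebra.T hℓ hℓN hℓS') := by
      change H.π (evalS N (↑S : Set ℕ) (MvPolynomial.X ⟨⟨ℓ, hℓ⟩, hℓS'⟩)) = _
      rw [evalS_X_of_not_dvd hℓ hℓN hℓS']
    rw [e2]

omit [Finite (ResidueField 𝒪)] in
/-- The coefficient ring of a Hecke–Galois datum is reduced. -/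
theorem isReduced_of_datum (hNS : ∀ q : ℕ, q.Prime → q ∣ N → q ∈ S)
    (H : CuspForm.HeckeGaloisRepDatum N (↑S : Set ℕ) 𝒪 θ T) : IsReduced T := by
  have h1 : IsReduced (CuspForm.heckeAlgebra N 2 (↑S : Set ℕ)) :=
    Petersson.isReduced_heckeAlgebra (fun q hq hqN => by exact_mod_cast hNS q hq hqN)
  have h2 : Module.Finite ℤ (CuspForm.heckeAlgebra N 2 (↑S : Set ℕ)) :=
    Fermat.Agent.S22.result N 2 _
  exact RT.Reduced.isReduced_of_adjoin_range_eq_top (CuspForm.heckeAlgebra N 2 (↑S : Set ℕ)) 𝒪 T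
    H.π H.adjoin_range_π

/-- **Trace identity at components implies unipotency.** -/
theorem isUnipotent_of_trace (hp : p.Prime) (hp𝒪 : (p : 𝒪) ∈ maximalIdeal 𝒪)
    (hNS : ∀ q : ℕ, q.Prime → q ∣ N → q ∈ S)
    (H : CuspForm.HeckeGaloisRepDatum N (↑S : Set ℕ) 𝒪 θ T)
    (q : ℕ) (hq : q.Prime) (hqp : q ≠ p)
    (htr : ∀ P : ValuationSubring Qbar, P.LiesOverPrime q → ∀ τ ∈ P.inertiaSubgroupIn ℚ,
      LinearMap.det (H.ρ.ρ τ) = 1 →
      ∀ (𝒪' : Type) [CommRing 𝒪'] [IsDomain 𝒪'] [IsDiscreteValuationRing 𝒪']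
      [IsAdicComplete (maximalIdeal 𝒪') 𝒪'] [Finite (ResidueField 𝒪')]
      [CharZero 𝒪'] [Algebra 𝒪 𝒪'] [Module.Finite 𝒪 𝒪'] [Module.Free 𝒪 𝒪']
      [IsLocalHom (algebraMap 𝒪 𝒪')], ∀ φ : T →ₐ[𝒪] 𝒪',
        φ (LinearMap.trace T H.ρ.V (H.ρ.ρ τ)) = 2) :
    H.ρ.IsUnipotentOnInertiaAt q := by
  intro P hP τ hτ
  have hdet := det_eq_one_of_mem_inertia H.ρ hp hq hqp (detIsCyclotomic hp hp𝒪 hNS H) P hP τ hτ
  have hred := isReduced_of_datum hNS H
  have h2 : LinearMap.trace T H.ρ.V (H.ρ.ρ τ) - 2 = 0 := by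
    refine RT.Components.eq_zero_of_forall_components (𝒪 := 𝒪) T _ ?_
    intro 𝒪' _ _ _ _ _ _ _ _ _ _ _ φ
    rw [map_sub, htr P hP τ hτ hdet 𝒪' φ, map_ofNat, sub_self]
  rw [sub_eq_zero] at h2
  rw [BN2.charpoly_eq_of_finrank_two H.ρ.finrank_eq, h2, hdet, map_ofNat, map_one]
  ring

omit [IsAdicComplete (maximalIdeal 𝒪) 𝒪] [Finite (ResidueField 𝒪)] [CharZero 𝒪] in
/-- The powers of `p` in a component. -/
theorem forall_mem_span_pow {𝒪' : Type} [CommRing 𝒪'] [IsDomain 𝒪'] [IsDiscreteValuationRing 𝒪']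
    [Algebra 𝒪 𝒪'] [IsLocalHom (algebraMap 𝒪 𝒪')] (hp𝒪 : (p : 𝒪) ∈ maximalIdeal 𝒪) (x : 𝒪')
    (hx : ∀ k : ℕ, x ∈ Ideal.span {((p : 𝒪')) ^ k}) : x = 0 := by
  have hp' : (p : 𝒪') ∈ maximalIdeal 𝒪' := by
    rw [← map_natCast (algebraMap 𝒪 𝒪')]
    exact map_nonunit _ _ hp𝒪
  refine FrobCompare.eq_zero_of_forall_mem_pow fun n => ?_
  refine (Ideal.span_le.mpr ?_ : Ideal.span {(p : 𝒪') ^ n} ≤ maximalIdeal 𝒪' ^ n) (hx n)
  rw [Set.singleton_subset_iff, SetLike.mem_coe]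
  exact Ideal.pow_mem_pow hp' n

/-- In a DVR, `c y^e ∈ (p^n)` with `n` large implies `y ∈ 𝔪^k`. -/
theorem exists_mem_pow_of_mul_pow_mem {O : Type*} [CommRing O] [IsDomain O]
    [IsDiscreteValuationRing O] {c p : O} (hc : c ≠ 0) (hp : p ∈ maximalIdeal O) (e k : ℕ) :
    ∃ n : ℕ, ∀ y : O, c * y ^ e ∈ Ideal.span {p ^ n} → y ∈ maximalIdeal O ^ k := by
  obtain ⟨ϖ, hϖ⟩ := IsDiscreteValuationRing.exists_irreducible O
  obtain ⟨a, u, hu⟩ := IsDiscreteValuationRing.eq_unit_mul_pow_irreducible hc hϖ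
  refine ⟨a + e * k + 1, fun y hy => ?_⟩
  have hm : ∀ j, maximalIdeal O ^ j = Ideal.span {ϖ ^ j} := fun j => by
    rw [hϖ.maximalIdeal_eq, Ideal.span_singleton_pow]
  by_contra hyk
  have hy0 : y ≠ 0 := by
    rintro rfl
    exact hyk (Ideal.zero_mem _)
  obtain ⟨b, w, hw⟩ := IsDiscreteValuationRing.eq_unit_mul_pow_irreducible hy0 hϖ
  have hbk : b < k := by
    by_contra hle
    apply hyk
    rw [hm, Ideal.mem_span_singleton, hw]
    exact dvd_mul_of_dvd_right (pow_dvd_pow ϖ (not_lt.mp hle)) _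
  have h1 : p ^ (a + e * k + 1) ∈ maximalIdeal O ^ (a + e * k + 1) := Ideal.pow_mem_pow hp _
  have h2 : c * y ^ e ∈ maximalIdeal O ^ (a + e * k + 1) :=
    (Ideal.span_singleton_le_iff_mem _).mpr h1 hy
  rw [hm, Ideal.mem_span_singleton, hu, hw] at h2
  have h3 : ϖ ^ (a + e * k + 1) ∣ ϖ ^ (a + e * b) := by
    have h4 : (u : O) * ϖ ^ a * ((w : O) * ϖ ^ b) ^ e = ((u * w ^ e : Oˣ) : O) * ϖ ^ (a + e * b) := by
      push_cast
      rw [mul_pow, pow_add, ← pow_mul, mul_comm e b]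
      ring
    rw [h4] at h2
    exact (Units.dvd_mul_left).mp h2
  have h5 := (pow_dvd_pow_iff hϖ.ne_zero hϖ.not_isUnit).mp h3
  have h6 : e * b ≤ e * k := Nat.mul_le_mul_left e hbk.le
  omega

/-- **S34 modulo geometry**: unipotent form. -/
theorem isUnipotentOnInertiaAt_of_input (hp : p.Prime) (hp𝒪 : (p : 𝒪) ∈ maximalIdeal 𝒪)
    (hpS : p ∈ S) (hNS : ∀ q : ℕ, q.Prime → q ∣ N → q ∈ S)
    (H : CuspForm.HeckeGaloisRepDatum N (↑S : Set ℕ) 𝒪 θ T)
    (q : ℕ) (hq : q.Prime) (hqp : q ≠ p)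
    (J : Type) [AddCommGroup J] [Module HeckeAlg J] [DistribMulAction Γℚ J]
    [SMulCommClass Γℚ HeckeAlg J] (hJ : GalInput N p J) (hU : UnipotentInput p q J) :
    H.ρ.IsUnipotentOnInertiaAt q := by
  refine isUnipotent_of_trace hp hp𝒪 hNS H q hq hqp ?_
  intro P hP τ hτ hdet 𝒪' _ _ _ _ _ _ _ _ _ _ φ
  let _ : Module (HeckeS (↑S : Set ℕ)) J := Module.compHom J (toHecke (↑S : Set ℕ))
  let _ : Algebra (HeckeS (↑S : Set ℕ)) T := (H.π.comp (evalS N (↑S : Set ℕ))).toAlgebra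
  have : SMulCommClass Γℚ (HeckeS (↑S : Set ℕ)) J :=
    ⟨fun g t x => smul_comm g (toHecke (↑S : Set ℕ) t) x⟩
  refine trace_eq_two_of_unipotent (R := HeckeS (↑S : Set ℕ)) p H.ρ S hJ.smooth hJ.finite_torsion
    (frobHyp hpS hNS hp H J hJ.frobenius) τ hdet (hU P hP τ hτ) (φ : T →+* 𝒪')
    (fun k => Ideal.span {((p : 𝒪')) ^ k}) (fun x hx => forall_mem_span_pow hp𝒪 x hx)
    (fun k => ⟨k, fun t ht => ?_⟩)
  exact support_point hp.ne_zero hJ.support ((φ : T →+* 𝒪').comp H.π) k t ht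

/-- **S34 modulo geometry**: coinvariant form. -/
theorem isUnipotentOnInertiaAt_of_coinv (hp : p.Prime) (hp𝒪 : (p : 𝒪) ∈ maximalIdeal 𝒪)
    (hpS : p ∈ S) (hNS : ∀ q : ℕ, q.Prime → q ∣ N → q ∈ S)
    (H : CuspForm.HeckeGaloisRepDatum N (↑S : Set ℕ) 𝒪 θ T)
    (q : ℕ) (hq : q.Prime) (hqp : q ≠ p)
    (J : Type) [AddCommGroup J] [Module HeckeAlg J] [DistribMulAction Γℚ J]
    [SMulCommClass Γℚ HeckeAlg J] (hJ : GalInput N p J) (hU : CoinvInput p q (↑S : Set ℕ) J) :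
    H.ρ.IsUnipotentOnInertiaAt q := by
  refine isUnipotent_of_trace hp hp𝒪 hNS H q hq hqp ?_
  intro P hP τ hτ hdet 𝒪' _ _ _ _ _ _ _ _ _ _ φ
  let _ : Module (HeckeS (↑S : Set ℕ)) J := Module.compHom J (toHecke (↑S : Set ℕ))
  let _ : Algebra (HeckeS (↑S : Set ℕ)) T := (H.π.comp (evalS N (↑S : Set ℕ))).toAlgebra
  have : SMulCommClass Γℚ (HeckeS (↑S : Set ℕ)) J :=
    ⟨fun g t x => smul_comm g (toHecke (↑S : Set ℕ) t) x⟩
  obtain ⟨V, c, e, hc, hV, hV'⟩ := hU P hP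
  have hc' : (c : 𝒪') ≠ 0 := Nat.cast_ne_zero.mpr hc
  have hp' : (p : 𝒪') ∈ maximalIdeal 𝒪' := by
    rw [← map_natCast (algebraMap 𝒪 𝒪')]
    exact map_nonunit _ _ hp𝒪
  refine trace_eq_two_of_coinvariants (R := HeckeS (↑S : Set ℕ)) p H.ρ S hJ.smooth
    hJ.finite_torsion (frobHyp hpS hNS hp H J hJ.frobenius) τ hdet
    (fun n => { carrier := V n
                add_mem' := fun {a b} ha hb => (V n).add_mem ha hb
                zero_mem' := (V n).zero_mem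
                smul_mem' := fun t x hx => (V n).smul_mem (toHecke (↑S : Set ℕ) t) hx })
    (fun n x hx => hV n τ hτ x hx) (φ : T →+* 𝒪') (fun k => maximalIdeal 𝒪' ^ k)
    (fun x hx => FrobCompare.eq_zero_of_forall_mem_pow hx) (fun k => ?_)
  obtain ⟨n, hn⟩ := exists_mem_pow_of_mul_pow_mem hc' hp' e k
  refine ⟨n, fun t ht => hn _ ?_⟩
  have h1 := hV' n t ht
  have h2 := support_point hp.ne_zero hJ.support ((φ : T →+* 𝒪').comp H.π) n
    ((c : HeckeS (↑S : Set ℕ)) * t ^ e) (fun x hx => by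
      rw [map_mul, map_natCast, map_pow]
      exact h1 x hx)
  rw [map_mul, map_mul, map_natCast, map_natCast, map_pow, map_pow] at h2
  exact h2

end Main

end Fermat.Agent.DR.S34Algebra
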