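import Fermat.Agent.DR.SpecCorr
import Fermat.Agent.JRED.ESAbstract

set_option autoImplicit false

/-!
# Correspondences and the place map of a good reduction

`CorrRed.mapDomain_correspondence`: `r_* (T D) = T̄ (r_* D)` for `D` of degree zero.
-/

noncomputable section

open AlgebraicCurve Fermat.Agent.RR Fermat.Agent.JRED
open Fermat.Agent.Jan.HeckeNorm (normAlong normAlong_ne_zero correspondence_eq_ord)

namespace Fermat.Agent.DR

section

variable {K k : Type*} [Field K] [Field k] {A : ValuationSubring K} {π : A →+* k}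
  {F Z G Y : Type*} [Field F] [Field Z] [Field G] [Field Y]
  [Algebra K F] [Algebra K Z] [Algebra k G] [Algebra k Y]
  {R : RedDatum K F k G A π} {S : RedDatum K Z k Y A π}
  {φ ψ : F →ₐ[K] Z} {φ₁ ψ₁ : G →ₐ[k] Y} [HasPrincipalDivisors K Z] [HasPrincipalDivisors k Y]

theorem correspondence_single_nonneg' (φ ψ : F →ₐ[K] Z) (hφ : φ.toRingHom.IsIntegral)
    (hψ : ψ.toRingHom.IsIntegral) (P : Place K F) :
    0 ≤ Divisor.correspondence φ ψ hφ hψ (Finsupp.single P 1) := by
  rw [Divisor.correspondence_apply, Divisor.pullbackAlong_single, map_sum]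
  refine Finset.sum_nonneg fun W _ => ?_
  rw [Divisor.pushforwardAlong_single]
  exact Finsupp.single_nonneg.mpr (by positivity)

variable [IsAlgClosed K] [IsAlgClosed k] [FunctionField K F] [FunctionField k G]

/-- **Correspondences commute with the place map of a good reduction** on divisors of degree
zero. -/
theorem CorrRed.mapDomain_correspondence (H : CorrRed R R S φ ψ φ₁ ψ₁)
    (hπ : Function.Surjective π) {r : Place K F → Place k G} (hr : PlaceRed R r)
    (hφ : φ.toRingHom.IsIntegral) (hψ : ψ.toRingHom.IsIntegral) (hN : NormFormulaAlong K ψ H.fin)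
    (hφ₁ : φ₁.toRingHom.IsIntegral) (hψ₁ : ψ₁.toRingHom.IsIntegral)
    (hFI₁ : FundamentalIdentityAlong k φ₁ hφ₁) (hN₁ : NormFormulaAlong k ψ₁ H.fin₁)
    {D : Divisor K F} (hD : Divisor.degree D = 0) :
    Finsupp.mapDomain r (Divisor.correspondence φ ψ hφ hψ D) =
      Divisor.correspondence φ₁ ψ₁ hφ₁ hψ₁ (Finsupp.mapDomain r D) := by
  ext Q
  let d : Divisor K F →+ ℤ := (Finsupp.applyAddHom Q).comp
    ((Finsupp.mapDomain.addMonoidHom r).comp (Divisor.correspondence φ ψ hφ hψ) -
      (Divisor.correspondence φ₁ ψ₁ hφ₁ hψ₁).comp (Finsupp.mapDomain.addMonoidHom r))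
  have hd : ∀ D, d D = Finsupp.mapDomain r (Divisor.correspondence φ ψ hφ hψ D) Q -
      Divisor.correspondence φ₁ ψ₁ hφ₁ hψ₁ (Finsupp.mapDomain r D) Q := fun D => rfl
  rw [← sub_eq_zero, ← hd]
  refine ESAbstract.agreement d (M := (finrankAlong k φ₁ : ℤ)) ?_ ?_ hD
  · intro P
    rw [hd, ESAbstract.mapDomain_single_one]
    have h1 : 0 ≤ Finsupp.mapDomain r (Divisor.correspondence φ ψ hφ hψ (Finsupp.single P 1)) Q := by
      rw [Finsupp.mapDomain, Finsupp.sum, Finsupp.finsetSum_apply]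
      refine Finset.sum_nonneg fun P' _ => ?_
      have h3 : 0 ≤ Divisor.correspondence φ ψ hφ hψ (Finsupp.single P 1) P' :=
        correspondence_single_nonneg' φ ψ hφ hψ P P'
      classical
      rw [Finsupp.single_apply]
      split_ifs
      · exact h3
      · exact le_rfl
    have h2 : Divisor.correspondence φ₁ ψ₁ hφ₁ hψ₁ (Finsupp.single (r P) 1) Q ≤
        finrankAlong k φ₁ := by
      have h3 := Divisor.degree_correspondence φ₁ ψ₁ hφ₁ hψ₁ hFI₁
        (Finsupp.single (r P) (1 : ℤ))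
      rw [degree_single_one, mul_one, degree_eq_sum, Finsupp.sum] at h3
      rw [← h3]
      have h4 := correspondence_single_nonneg' φ₁ ψ₁ hφ₁ hψ₁ (r P)
      by_cases hQ : Q ∈ (Divisor.correspondence φ₁ ψ₁ hφ₁ hψ₁ (Finsupp.single (r P) 1)).support
      · exact Finset.single_le_sum (f := fun i =>
          Divisor.correspondence φ₁ ψ₁ hφ₁ hψ₁ (Finsupp.single (r P) 1) i) (fun j _ => h4 j) hQ
      · rw [Finsupp.notMem_support_iff.mp hQ]
        exact Finset.sum_nonneg fun j _ => h4 j
    linarith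
  · intro f hf
    obtain ⟨c, hc, u, hu, h⟩ := R.normalize f hf
    have hcf : algebraMap K F c * f ≠ 0 := mul_ne_zero (by simpa using hc) hf
    have h1 : ∀ P : Place K F, divOf (K := K) f P = P.ord (algebraMap K F c * f) := fun P => by
      rw [divOf_apply, P.ord_mul (by simpa using hc) hf, Fermat.FF.ord_algebraMap, zero_add]
    have h2 := hr _ _ h hu (divOf f) h1
    have h3 : normAlong ψ₁ (φ₁ u) ≠ 0 := normAlong_ne_zero ψ₁ H.fin₁ ((map_ne_zero φ₁).mpr hu)
    have h4 := hr _ _ (H.red hπ h) h3 (Divisor.correspondence φ ψ hφ hψ (divOf f))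
      (correspondence_eq_ord φ ψ hφ hψ H.fin hN hcf h1)
    have h5 := correspondence_eq_ord φ₁ ψ₁ hφ₁ hψ₁ H.fin₁ hN₁ hu h2
    rw [hd, h4, h5, sub_self]

end

end Fermat.Agent.DR
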