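import Fermat.Agent.Density.Final
import Fermat.Agent.Lib.Cyclotomic
import Fermat.Agent.BrauerNesbittGalois
import Fermat.Agent.DefCond.InertiaCyc
import Fermat.Agent.LOC.Component
import Fermat.Agent.LR.FrobInput
import Fermat.Agent.Mazur.Tame
import Fermat.Agent.Mazur.Global

/-!
# Auxiliary primes `r ≡ 11 mod 12` with `a_r² ≢ (r + 1)² mod p` (AUX-R)

Let `W` be semistable, `p` an odd prime, `W[p]` irreducible. There are infinitely many primes
`r ≡ 11 mod 12` with `a_r(W)² ≢ (r + 1)² mod p`.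

The proof is elementary: inertia at `2` and `3` (acting through elements of order `p` or trivially)
removes the congruence condition; if `tr² = (1 + det)²` for all the remaining elements, no element
can act as a nontrivial unipotent (its kernel would be a stable line); so the elements of
determinant one are `±1` (`p ≥ 5`), resp. of order dividing `4` (`p = 3`), and one concludes with
a stable line (`p ≥ 5`), resp. with the theorem of Minkowski (`p = 3`).
-/

set_option autoImplicit false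

open Polynomial

namespace Fermat.Agent.DR.AuxPrime

open Fermat.Agent.Cyclotomic

local notation "Qbar" => AlgebraicClosure ℚ
local notation "Γℚ" => (AlgebraicClosure ℚ ≃ₐ[ℚ] AlgebraicClosure ℚ)

section LinearAlgebra

variable {k V : Type*} [Field k] [AddCommGroup V] [Module k V]

/-- Cayley--Hamilton in dimension two. -/
theorem ch (h2 : Module.finrank k V = 2) (f : Module.End k V) :
    f * f = LinearMap.trace k V f • f - LinearMap.det f • (1 : Module.End k V) := by
  have : FiniteDimensional k V := Module.finite_of_finrank_eq_succ h2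
  rw [← sq]
  exact FrobCompare.cayleyHamilton_two h2 f

theorem trace_one (h2 : Module.finrank k V = 2) :
    LinearMap.trace k V (1 : Module.End k V) = 2 := by
  have : FiniteDimensional k V := Module.finite_of_finrank_eq_succ h2
  rw [LinearMap.trace_one, h2]; norm_num

/-- The trace of `CH`. -/
theorem trace_sq (h2 : Module.finrank k V = 2) (f : Module.End k V) :
    LinearMap.trace k V (f * f) = LinearMap.trace k V f ^ 2 - 2 * LinearMap.det f := by
  rw [ch h2 f, map_sub, map_smul, map_smul, trace_one h2, smul_eq_mul, smul_eq_mul]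
  ring

/-- polarised Cayley--Hamilton. -/
theorem polar (h2 : Module.finrank k V = 2) (hk : (2 : k) ≠ 0) (f g : Module.End k V) :
    f * g + g * f = LinearMap.trace k V f • g + LinearMap.trace k V g • f -
      (LinearMap.trace k V f * LinearMap.trace k V g - LinearMap.trace k V (f * g)) •
        (1 : Module.End k V) := by
  have e1 := ch h2 f
  have e2 := ch h2 g
  have e3 := ch h2 (f + g)
  have t1 := trace_sq h2 f
  have t2 := trace_sq h2 g
  have t3 := trace_sq h2 (f + g)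
  have hc : LinearMap.trace k V (g * f) = LinearMap.trace k V (f * g) :=
    LinearMap.trace_mul_comm _ _ _
  have e4 : (f + g) * (f + g) = f * f + g * g + (f * g + g * f) := by noncomm_ring
  have hd : LinearMap.det (f + g) = LinearMap.det f + LinearMap.det g +
      (LinearMap.trace k V f * LinearMap.trace k V g - LinearMap.trace k V (f * g)) := by
    apply mul_left_cancel₀ hk
    rw [e4, map_add, map_add, map_add, t1, t2, hc, map_add] at t3
    linear_combination t3
  rw [e4, e1, e2, hd, map_add] at e3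
  have e5 : f * g + g * f =
      (LinearMap.trace k V f + LinearMap.trace k V g) • (f + g) -
      (LinearMap.det f + LinearMap.det g +
        (LinearMap.trace k V f * LinearMap.trace k V g - LinearMap.trace k V (f * g))) •
          (1 : Module.End k V) -
      (LinearMap.trace k V f • f - LinearMap.det f • (1 : Module.End k V)) -
      (LinearMap.trace k V g • g - LinearMap.det g • (1 : Module.End k V)) := by
    rw [← e3]; abel
  rw [e5]
  module

theorem trace_of_sq_zero (h2 : Module.finrank k V = 2) {N : Module.End k V} (hN : N * N = 0) :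
    LinearMap.trace k V N = 0 ∧ LinearMap.det N = 0 := by
  have : FiniteDimensional k V := Module.finite_of_finrank_eq_succ h2
  have hnt : Nontrivial V := Module.nontrivial_of_finrank_eq_succ h2
  have h1 : LinearMap.det N = 0 := by
    have : LinearMap.det (N * N) = 0 := by
      rw [hN]
      exact LinearMap.det_zero''
    rw [map_mul] at this
    exact mul_self_eq_zero.mp this
  refine ⟨?_, h1⟩
  have h3 := trace_sq h2 N
  rw [hN, map_zero, h1, mul_zero, sub_zero] at h3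
  exact pow_eq_zero_iff (two_ne_zero) |>.mp h3.symm

/-- trace and determinant of a unipotent element. -/
theorem trace_det_of_unip (h2 : Module.finrank k V = 2) (hk : (2 : k) ≠ 0) {u : Module.End k V}
    (hu : (u - 1) * (u - 1) = 0) : LinearMap.trace k V u = 2 ∧ LinearMap.det u = 1 := by
  obtain ⟨h3, h4⟩ := trace_of_sq_zero h2 hu
  have ht : LinearMap.trace k V u = 2 := by
    rw [map_sub, trace_one h2] at h3
    linear_combination h3
  refine ⟨ht, ?_⟩
  have h5 := trace_sq h2 u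
  have h6 : u * u = (2 : k) • u - 1 := by
    have : u * u = (u - 1) * (u - 1) + u + u - 1 := by noncomm_ring
    rw [this, hu, two_smul]; abel
  rw [h6, map_sub, map_smul, trace_one h2, ht, smul_eq_mul] at h5
  apply mul_left_cancel₀ hk
  linear_combination h5

/-- If `tr (g N) = 0` with `N² = 0`, then `g` maps the kernel of `N` to itself. -/
theorem ker_stable (h2 : Module.finrank k V = 2) (hk : (2 : k) ≠ 0) {N g : Module.End k V}
    (hN : N * N = 0) (ht : LinearMap.trace k V (g * N) = 0) {v : V} (hv : N v = 0) :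
    N (g v) = 0 := by
  have h1 := polar h2 hk g N
  rw [(trace_of_sq_zero h2 hN).1, ht, zero_smul, mul_zero, sub_zero, zero_smul, sub_zero,
    add_zero] at h1
  have h3 := LinearMap.congr_fun h1 v
  rw [LinearMap.add_apply, Module.End.mul_apply, Module.End.mul_apply, hv, map_zero, zero_add,
    LinearMap.smul_apply, hv, smul_zero] at h3
  exact h3

/-- If the squares of the traces of `g`, `g u`, `g u²` agree, `u = 1 + N` unipotent, then
`tr (g N) = 0`. -/
theorem trace_mul_eq_zero (hk : (2 : k) ≠ 0) {u g : Module.End k V}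
    (hu : (u - 1) * (u - 1) = 0) {c : k} (h0 : LinearMap.trace k V g ^ 2 = c)
    (h1 : LinearMap.trace k V (g * u) ^ 2 = c)
    (h3 : LinearMap.trace k V (g * (u * u)) ^ 2 = c) :
    LinearMap.trace k V (g * (u - 1)) = 0 := by
  have e1 : g * u = g + g * (u - 1) := by noncomm_ring
  have e2 : g * (u * u) = g + (g * (u - 1) + g * (u - 1)) + g * ((u - 1) * (u - 1)) := by
    noncomm_ring
  rw [e1, map_add] at h1
  rw [e2, hu, mul_zero, add_zero, map_add, map_add] at h3
  have h4 : LinearMap.trace k V (g * (u - 1)) ^ 2 = 0 := by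
    apply mul_left_cancel₀ hk
    linear_combination h3 - 2 * h1 + h0
  exact pow_eq_zero_iff two_ne_zero |>.mp h4

end LinearAlgebra

section Galois

/-- The hypotheses on the representation. -/
structure Hyp (p : ℕ) [Fact p.Prime] {V : Type} [AddCommGroup V] [Module (ZMod p) V]
    (ρ : Γℚ →* Module.End (ZMod p) V) : Prop where
  two : p ≠ 2
  fin : Module.finrank (ZMod p) V = 2
  irr : ∀ N : Submodule (ZMod p) V, (∀ σ, ∀ x ∈ N, ρ σ x ∈ N) → N = ⊥ ∨ N = ⊤
  level : ∃ L : IntermediateField ℚ Qbar, FiniteDimensional ℚ L ∧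
    ∀ σ : Γℚ, (∀ x ∈ L, σ x = x) → ρ σ = 1
  det : ∀ σ, LinearMap.det (ρ σ) = (cyc p σ : ZMod p)
  unip : ∀ q : ℕ, q.Prime → q ≠ p → ∀ A : ValuationSubring Qbar, A.LiesOverPrime q →
    ∀ τ ∈ A.inertiaSubgroupIn ℚ, (ρ τ - 1) * (ρ τ - 1) = 0

variable {p : ℕ} [hpf : Fact p.Prime] {V : Type} [AddCommGroup V] [Module (ZMod p) V]
  {ρ : Γℚ →* Module.End (ZMod p) V}

theorem Hyp.two_ne_zero (h : Hyp p ρ) : (2 : ZMod p) ≠ 0 := by
  intro h0
  have h1 : ((2 : ℕ) : ZMod p) = 0 := by exact_mod_cast h0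
  rw [ZMod.natCast_eq_zero_iff] at h1
  exact h.two ((Nat.prime_dvd_prime_iff_eq hpf.out Nat.prime_two).mp h1)

theorem Hyp.nontrivial (h : Hyp p ρ) : Nontrivial V := Module.nontrivial_of_finrank_eq_succ h.fin

theorem Hyp.cyc_of_unip (h : Hyp p ρ) {s : Γℚ} (hs : (ρ s - 1) * (ρ s - 1) = 0) :
    cyc p s = 1 := by
  apply Units.ext
  rw [← h.det, (trace_det_of_unip h.fin h.two_ne_zero hs).2, Units.val_one]

/-- The set of elements to be considered. -/
structure TSet (ρ : Γℚ →* Module.End (ZMod p) V) (T : Set Γℚ) : Prop where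
  mul : ∀ g ∈ T, ∀ s, cyc p s = 1 → g * s ∈ T
  gen : ∀ N : Submodule (ZMod p) V, (∀ g ∈ T, ∀ x ∈ N, ρ g x ∈ N) → ∀ g, ∀ x ∈ N, ρ g x ∈ N
  tr : ∀ g ∈ T, LinearMap.trace (ZMod p) V (ρ g) ^ 2 = (1 + (cyc p g : ZMod p)) ^ 2

theorem Hyp.eq_one_of_unip (h : Hyp p ρ) {T : Set Γℚ} (hT : TSet ρ T) {s : Γℚ}
    (hs : (ρ s - 1) * (ρ s - 1) = 0) : ρ s = 1 := by
  have hcs := h.cyc_of_unip hs
  have h1 : ∀ g ∈ T, LinearMap.trace (ZMod p) V (ρ g * (ρ s - 1)) = 0 := by
    intro g hg
    refine trace_mul_eq_zero h.two_ne_zero hs (hT.tr g hg) ?_ ?_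
    · rw [← map_mul, hT.tr _ (hT.mul g hg s hcs), map_mul, hcs, mul_one]
    · rw [← map_mul, ← map_mul, hT.tr _ (hT.mul g hg (s * s) (by rw [map_mul, hcs, one_mul])),
        map_mul, map_mul, hcs, mul_one, mul_one]
  have h3 := h.irr (LinearMap.ker (ρ s - 1)) (hT.gen _ fun g hg x hx => by
    rw [LinearMap.mem_ker] at hx ⊢
    exact ker_stable h.fin h.two_ne_zero hs (h1 g hg) hx)
  rw [← sub_eq_zero]
  rcases h3 with h3 | h3
  · refine LinearMap.ext fun x => ?_
    have h4 : (ρ s - 1) x ∈ LinearMap.ker (ρ s - 1) := by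
      rw [LinearMap.mem_ker, ← Module.End.mul_apply, hs, LinearMap.zero_apply]
    rw [h3, Submodule.mem_bot] at h4
    exact h4
  · exact LinearMap.ker_eq_top.mp h3

theorem Hyp.eq_one_of_trace (h : Hyp p ρ) {T : Set Γℚ} (hT : TSet ρ T) {s : Γℚ}
    (hc : cyc p s = 1) (ht : LinearMap.trace (ZMod p) V (ρ s) = 2) : ρ s = 1 := by
  refine h.eq_one_of_unip hT ?_
  have h1 := ch h.fin (ρ s)
  rw [ht, h.det, hc, Units.val_one, one_smul] at h1
  have h3 : (ρ s - 1) * (ρ s - 1) = ρ s * ρ s - ρ s - ρ s + 1 := by noncomm_ring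
  rw [h3, h1, two_smul]
  abel

theorem Hyp.eq_neg_one_of_trace (h : Hyp p ρ) {T : Set Γℚ} (hT : TSet ρ T) {s : Γℚ}
    (hc : cyc p s = 1) (ht : LinearMap.trace (ZMod p) V (ρ s) = -2) : ρ s = -1 := by
  have h1 := ch h.fin (ρ s)
  rw [ht, h.det, hc, Units.val_one, one_smul] at h1
  have h0 : (ρ s + 1) * (ρ s + 1) = 0 := by
    have h3 : (ρ s + 1) * (ρ s + 1) = ρ s * ρ s + ρ s + ρ s + 1 := by noncomm_ring
    rw [h3, h1, neg_smul, two_smul]
    abel
  have h3 : ρ (s * s) - 1 = (-2 : ZMod p) • (ρ s + 1) := by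
    rw [map_mul, h1, smul_add, neg_smul, neg_smul, two_smul, two_smul]
    abel
  have h4 : ρ (s * s) = 1 := by
    refine h.eq_one_of_unip hT ?_
    rw [h3, smul_mul_smul_comm, h0, smul_zero]
  rw [h4, sub_self] at h3
  have h5 := (smul_eq_zero.mp h3.symm).resolve_left (neg_ne_zero.mpr h.two_ne_zero)
  exact eq_neg_of_add_eq_zero_left h5

/-- A stable line gives a contradiction. -/
theorem Hyp.false_of_eigenvector (h : Hyp p ρ) {v : V} (hv : v ≠ 0)
    (hs : ∀ g, ∃ c : ZMod p, ρ g v = c • v) : False := by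
  rcases h.irr (Submodule.span (ZMod p) {v}) (fun σ x hx => by
    obtain ⟨a, rfl⟩ := Submodule.mem_span_singleton.mp hx
    obtain ⟨c, hc⟩ := hs σ
    rw [map_smul, hc]
    exact Submodule.smul_mem _ _ (Submodule.smul_mem _ _ (Submodule.mem_span_singleton_self v)))
    with h1 | h1
  · exact hv (Submodule.span_singleton_eq_bot.mp h1)
  · have h3 := finrank_span_singleton (K := ZMod p) hv
    rw [h1, finrank_top, h.fin] at h3
    norm_num at h3

/-- **The case `T = Γ`.** -/
theorem Hyp.false_of_univ (h : Hyp p ρ) (hT : TSet ρ (Set.univ : Set Γℚ)) : False := by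
  obtain ⟨u, hu⟩ := IsCyclic.exists_zpow_surjective (G := (ZMod p)ˣ)
  obtain ⟨g₀, hg₀⟩ := DefCond.exists_cyc_eq p u
  have hfd : FiniteDimensional (ZMod p) V := Module.finite_of_finrank_eq_succ h.fin
  -- an eigenvector of `g₀`
  obtain ⟨v, c, hv, hvc⟩ : ∃ (v : V) (c : (ZMod p)ˣ), v ≠ 0 ∧ ρ g₀ v = (c : ZMod p) • v := by
    have h1 := hT.tr g₀ trivial
    rw [sq_eq_sq_iff_eq_or_eq_neg] at h1
    have key : ∀ e : ZMod p, e * e = 1 → LinearMap.trace (ZMod p) V (ρ g₀) =
        e * (1 + (cyc p g₀ : ZMod p)) → ∃ v : V, v ≠ 0 ∧ ρ g₀ v = e • v := by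
      intro e he ht
      by_contra hcon
      push Not at hcon
      have hinj : LinearMap.ker (ρ g₀ - e • 1) = ⊥ := by
        rw [eq_bot_iff]
        intro x hx
        rw [LinearMap.mem_ker, LinearMap.sub_apply, LinearMap.smul_apply, Module.End.one_apply,
          sub_eq_zero] at hx
        by_contra hx0
        exact hcon x hx0 hx
      have hCH := ch h.fin (ρ g₀)
      rw [ht, h.det] at hCH
      have h5 : (ρ g₀ - e • 1) * (ρ g₀ - (e * (cyc p g₀ : ZMod p)) • 1) = 0 := by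
        have : (ρ g₀ - e • 1) * (ρ g₀ - (e * (cyc p g₀ : ZMod p)) • 1) =
            ρ g₀ * ρ g₀ - (e * (1 + (cyc p g₀ : ZMod p))) • ρ g₀ +
              ((e * e) * (cyc p g₀ : ZMod p)) • (1 : Module.End (ZMod p) V) := by
          rw [sub_mul, mul_sub, mul_sub, smul_mul_smul_comm, mul_one, mul_smul_comm, mul_one,
            smul_mul_assoc, one_mul]
          module
        rw [this, hCH, he, one_mul]
        abel
      have h6 : ρ g₀ - (e * (cyc p g₀ : ZMod p)) • 1 = 0 := by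
        refine LinearMap.ext fun x => ?_
        have h7 : (ρ g₀ - (e * (cyc p g₀ : ZMod p)) • 1) x ∈ LinearMap.ker (ρ g₀ - e • 1) := by
          rw [LinearMap.mem_ker, ← Module.End.mul_apply, h5, LinearMap.zero_apply]
        rw [hinj, Submodule.mem_bot] at h7
        exact h7
      rw [sub_eq_zero] at h6
      have h8 : LinearMap.trace (ZMod p) V (ρ g₀) = 2 * (e * (cyc p g₀ : ZMod p)) := by
        rw [h6, map_smul, trace_one h.fin, smul_eq_mul]
        ring
      have he0 : e ≠ 0 := by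
        rintro rfl
        rw [mul_zero] at he
        exact zero_ne_one he
      have h9 : (cyc p g₀ : ZMod p) = 1 := by
        rw [ht] at h8
        have : e * (1 + (cyc p g₀ : ZMod p)) = e * (2 * (cyc p g₀ : ZMod p)) := by
          rw [h8]; ring
        have := mul_left_cancel₀ he0 this
        linear_combination -this
      have hnt := h.nontrivial
      obtain ⟨x, hx⟩ := exists_ne (0 : V)
      refine hcon x hx ?_
      rw [h6, h9, mul_one, LinearMap.smul_apply, Module.End.one_apply]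
    rcases h1 with h1 | h1
    · obtain ⟨v, hv, hvc⟩ := key 1 (one_mul 1) (by rw [h1, one_mul])
      exact ⟨v, 1, hv, by rw [hvc, Units.val_one]⟩
    · obtain ⟨v, hv, hvc⟩ := key (-1) (by ring) (by rw [h1]; ring)
      exact ⟨v, -1, hv, by rw [hvc, Units.val_neg, Units.val_one]⟩
  refine h.false_of_eigenvector hv fun g => ?_
  obtain ⟨n, hn⟩ := hu (cyc p g)
  have h3 : cyc p (g₀ ^ (-n) * g) = 1 := by
    rw [map_mul, map_zpow, hg₀, ← hn, ← zpow_add, neg_add_cancel, zpow_zero]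
  have h4 : ∃ e : ZMod p, ρ (g₀ ^ (-n) * g) = e • (1 : Module.End (ZMod p) V) := by
    have h5 := hT.tr (g₀ ^ (-n) * g) trivial
    rw [h3, Units.val_one, show (1 + 1 : ZMod p) = 2 by norm_num,
      sq_eq_sq_iff_eq_or_eq_neg] at h5
    rcases h5 with h5 | h5
    · exact ⟨1, by rw [h.eq_one_of_trace hT h3 h5, one_smul]⟩
    · exact ⟨-1, by rw [h.eq_neg_one_of_trace hT h3 h5, neg_smul, one_smul]⟩
  obtain ⟨e, he⟩ := h4
  have h5 : ∀ n : ℤ, ρ (g₀ ^ n) v = ((c ^ n : (ZMod p)ˣ) : ZMod p) • v := by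
    have h6 : ρ g₀⁻¹ v = ((c⁻¹ : (ZMod p)ˣ) : ZMod p) • v := by
      have h7 : ρ g₀⁻¹ (ρ g₀ v) = v := by
        rw [← Module.End.mul_apply, ← map_mul, inv_mul_cancel, map_one, Module.End.one_apply]
      rw [hvc, map_smul] at h7
      have h8 : ρ g₀⁻¹ v = ((c⁻¹ : (ZMod p)ˣ) : ZMod p) • ((c : ZMod p) • ρ g₀⁻¹ v) := by
        rw [smul_smul, Units.inv_mul, one_smul]
      rw [h8, h7]
    intro n
    induction n with
    | zero => simp
    | succ n ih =>
      rw [zpow_add_one, map_mul, Module.End.mul_apply, hvc, map_smul, ih, smul_smul,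
        zpow_add_one, Units.val_mul, mul_comm]
    | pred n ih =>
      rw [zpow_sub_one, map_mul, Module.End.mul_apply, h6, map_smul, ih, smul_smul,
        zpow_sub_one, Units.val_mul, mul_comm]
  refine ⟨((c ^ n : (ZMod p)ˣ) : ZMod p) * e, ?_⟩
  have h6 : g = g₀ ^ n * (g₀ ^ (-n) * g) := by
    rw [← mul_assoc, ← zpow_add, add_neg_cancel, zpow_zero, one_mul]
  rw [h6, map_mul, Module.End.mul_apply, he, LinearMap.smul_apply, Module.End.one_apply, map_smul,
    h5, smul_smul, mul_comm]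

end Galois

section three

variable {V : Type} [AddCommGroup V] [Module (ZMod 3) V] {ρ : Γℚ →* Module.End (ZMod 3) V}

theorem units_three (u : (ZMod 3)ˣ) : u = 1 ∨ u = -1 := by
  revert u; decide

theorem units_four (u : (ZMod 4)ˣ) : u = 1 ∨ u = -1 := by
  revert u; decide

/-- **The case `p = 3`.** -/
theorem Hyp.false_of_three (h : Hyp 3 ρ) (hT : TSet ρ {g : Γℚ | cyc 3 g = -1}) : False := by
  have hnt := h.nontrivial
  have h20 := h.two_ne_zero
  -- elements outside the kernel have trace zero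
  have htr : ∀ g : Γℚ, cyc 3 g = -1 → LinearMap.trace (ZMod 3) V (ρ g) = 0 := by
    intro g hg
    have h1 := hT.tr g hg
    rw [hg, Units.val_neg, Units.val_one, add_neg_cancel, zero_pow _root_.two_ne_zero] at h1
    exact pow_eq_zero_iff _root_.two_ne_zero |>.mp h1
  have hsq : ∀ g : Γℚ, cyc 3 g = -1 → ρ g * ρ g = 1 := by
    intro g hg
    rw [ch h.fin, htr g hg, h.det, hg, Units.val_neg, Units.val_one, zero_smul, zero_sub,
      neg_smul, one_smul, neg_neg]
  obtain ⟨c, hc⟩ := DefCond.exists_cyc_eq 3 (-1)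
  have hCC := hsq c hc
  -- the elements of the kernel commute or anticommute with `c`
  have hker : ∀ s : Γℚ, cyc 3 s = 1 → ρ s * ρ c = ρ c * ρ s ∨ ρ s * ρ c = -(ρ c * ρ s) := by
    intro s hs
    have h3 : ∀ t : ZMod 3, t = 0 ∨ t = 2 ∨ t = -2 := by decide
    rcases h3 (LinearMap.trace (ZMod 3) V (ρ s)) with ht | ht | ht
    · right
      have hSS : ρ s * ρ s = -1 := by
        rw [ch h.fin, ht, h.det, hs, Units.val_one, zero_smul, zero_sub, one_smul]
      have h4 := hsq (c * s) (by rw [map_mul, hc, hs, mul_one])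
      rw [map_mul] at h4
      have h5 : ρ s * ρ c * ρ s = ρ c := by
        have : ρ c * (ρ c * ρ s * (ρ c * ρ s)) = (ρ c * ρ c) * (ρ s * ρ c * ρ s) := by
          noncomm_ring
        rw [h4, hCC, one_mul, mul_one] at this
        exact this.symm
      have h6 : ρ s * ρ c * (ρ s * ρ s) = ρ c * ρ s := by
        rw [← mul_assoc, h5]
      rw [hSS, mul_neg, mul_one] at h6
      rw [← h6, neg_neg]
    · left
      rw [h.eq_one_of_trace hT hs ht, one_mul, mul_one]
    · left
      rw [h.eq_neg_one_of_trace hT hs ht, neg_one_mul, mul_neg_one]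
  have hall : ∀ g : Γℚ, ρ g * ρ c = ρ c * ρ g ∨ ρ g * ρ c = -(ρ c * ρ g) := by
    intro g
    rcases units_three (cyc 3 g) with hg | hg
    · exact hker g hg
    · have h1 := hker (c⁻¹ * g) (by rw [map_mul, map_inv, hc, hg]; decide)
      have h3 : ρ g = ρ c * ρ (c⁻¹ * g) := by
        rw [← map_mul]
        congr 1
        group
      rcases h1 with h1 | h1
      · left
        rw [h3, mul_assoc, h1]
      · right
        rw [h3, mul_assoc, h1, mul_neg]
  have hexcl : ∀ g : Γℚ, ¬ (ρ g * ρ c = ρ c * ρ g ∧ ρ g * ρ c = -(ρ c * ρ g)) := by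
    rintro g ⟨h1, h3⟩
    have h4 : (2 : ZMod 3) • (ρ c * ρ g) = 0 := by
      rw [two_smul]
      nth_rewrite 1 [← h1]
      rw [h3, neg_add_cancel]
    have h5 := (smul_eq_zero.mp h4).resolve_left h20
    rw [← map_mul] at h5
    have h6 : ρ (c * g) * ρ (c * g)⁻¹ = 1 := by rw [← map_mul, mul_inv_cancel, map_one]
    rw [h5, zero_mul] at h6
    exact zero_ne_one h6
  classical
  -- the two quadratic characters
  obtain ⟨η, hη⟩ : ∃ η : Γℚ → ZMod 2, ∀ g, η g = if ρ g * ρ c = ρ c * ρ g then 0 else 1 :=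
    ⟨_, fun g => rfl⟩
  obtain ⟨χ, hχ⟩ : ∃ χ : Γℚ → ZMod 2, ∀ g, χ g = if cyc 3 g = 1 then 0 else 1 :=
    ⟨_, fun g => rfl⟩
  have hηadd : ∀ g g' : Γℚ, η (g * g') = η g + η g' := by
    intro g g'
    have e0 : ρ (g * g') * ρ c = ρ g * (ρ g' * ρ c) := by rw [map_mul, mul_assoc]
    have e1 : ρ c * ρ (g * g') = ρ c * ρ g * ρ g' := by rw [map_mul, mul_assoc]
    rcases hall g with h1 | h1 <;> rcases hall g' with h3 | h3
    · have h4 : ρ (g * g') * ρ c = ρ c * ρ (g * g') := by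
        rw [e0, h3, e1, ← h1, mul_assoc]
      rw [hη, hη, hη, if_pos h1, if_pos h3, if_pos h4, add_zero]
    · have h4 : ρ (g * g') * ρ c = -(ρ c * ρ (g * g')) := by
        rw [e0, h3, e1, ← h1, mul_neg, mul_assoc]
      have h5 : ¬ ρ g' * ρ c = ρ c * ρ g' := fun h5 => hexcl g' ⟨h5, h3⟩
      have h6 : ¬ ρ (g * g') * ρ c = ρ c * ρ (g * g') := fun h6 => hexcl _ ⟨h6, h4⟩
      rw [hη, hη, hη, if_pos h1, if_neg h5, if_neg h6, zero_add]
    · have h4 : ρ (g * g') * ρ c = -(ρ c * ρ (g * g')) := by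
        have h1' : ρ c * ρ g = -(ρ g * ρ c) := by rw [h1, neg_neg]
        rw [e0, h3, e1, h1', neg_mul, neg_neg, mul_assoc]
      have h5 : ¬ ρ g * ρ c = ρ c * ρ g := fun h5 => hexcl g ⟨h5, h1⟩
      have h6 : ¬ ρ (g * g') * ρ c = ρ c * ρ (g * g') := fun h6 => hexcl _ ⟨h6, h4⟩
      rw [hη, hη, hη, if_neg h5, if_pos h3, if_neg h6, add_zero]
    · have h4 : ρ (g * g') * ρ c = ρ c * ρ (g * g') := by
        have h1' : ρ c * ρ g = -(ρ g * ρ c) := by rw [h1, neg_neg]
        rw [e0, h3, e1, h1', mul_neg, neg_mul, mul_assoc]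
      have h5 : ¬ ρ g * ρ c = ρ c * ρ g := fun h5 => hexcl g ⟨h5, h1⟩
      have h6 : ¬ ρ g' * ρ c = ρ c * ρ g' := fun h6 => hexcl g' ⟨h6, h3⟩
      rw [hη, hη, hη, if_neg h5, if_neg h6, if_pos h4]
      decide
  have hχadd : ∀ g g' : Γℚ, χ (g * g') = χ g + χ g' := by
    intro g g'
    rw [hχ, hχ, hχ, map_mul]
    rcases units_three (cyc 3 g) with h1 | h1 <;> rcases units_three (cyc 3 g') with h3 | h3 <;>
      rw [h1, h3] <;> decide
  have hone : ∀ g : Γℚ, ρ g = 1 → η g = 0 ∧ χ g = 0 := by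
    intro g hg
    have h1 : cyc 3 g = 1 := h.cyc_of_unip (by rw [hg, sub_self, zero_mul])
    refine ⟨?_, ?_⟩
    · rw [hη, if_pos (by rw [hg, one_mul, mul_one])]
    · rw [hχ, if_pos h1]
  obtain ⟨L, hL, hLρ⟩ := h.level
  -- inertia at `3`
  obtain ⟨A, hA⟩ := FrobExists.exists_liesOverPrime Qbar Nat.prime_three
  obtain ⟨b, hb⟩ : ∃ b : ZMod 2 × ZMod 2, ∀ τ ∈ A.inertiaSubgroupIn ℚ,
      (η τ, χ τ) = 0 ∨ (η τ, χ τ) = b := by
    obtain ⟨x, hx⟩ := IsAlgClosed.exists_pow_nat_eq ((3 : ℕ) : Qbar) (n := 2) (by norm_num)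
    have hx0 : x ≠ 0 := by
      rintro rfl
      rw [zero_pow _root_.two_ne_zero] at hx
      exact Nat.prime_three.ne_zero (by exact_mod_cast hx.symm)
    have htame : Mazur.Tame.IsTameHom A 2 (fun τ : Γℚ => ((η τ, χ τ) : ZMod 2 × ZMod 2)) :=
      { hom := fun σ _ τ _ => by
          show (η (σ * τ), χ (σ * τ)) = (η σ, χ σ) + (η τ, χ τ)
          rw [hηadd, hχadd, Prod.mk_add_mk]
        level := ⟨L, hL, fun σ _ hσ => by
          show (η σ, χ σ) = 0
          rw [(hone σ (hLρ σ hσ)).1, (hone σ (hLρ σ hσ)).2]; rfl⟩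
        kill := fun σ _ => by
          have : ∀ z : ZMod 2 × ZMod 2, 2 • z = 0 := by decide
          exact this _ }
    have hκ : ∀ τ : Γℚ, τ x / x = 1 ∨ τ x / x = -1 := by
      intro τ
      have h1 : τ x * τ x = x * x := by
        rw [← map_mul, ← sq, hx, map_natCast]
      rw [← mul_self_eq_one_iff, div_mul_div_comm, h1, div_self (mul_self_ne_zero.mpr hx0)]
    by_cases hex : ∃ τ₁ ∈ A.inertiaSubgroupIn ℚ, τ₁ x / x = -1
    · obtain ⟨τ₁, hτ₁, hκ₁⟩ := hex
      refine ⟨(η τ₁, χ τ₁), fun τ hτ => ?_⟩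
      rcases hκ τ with h1 | h1
      · left
        have := htame.apply_eq_nsmul Nat.prime_three hA (by norm_num) hx hτ₁ hτ (m := 0)
          (by rw [h1, pow_zero])
        rwa [zero_smul] at this
      · right
        have := htame.apply_eq_nsmul Nat.prime_three hA (by norm_num) hx hτ₁ hτ (m := 1)
          (by rw [h1, hκ₁, pow_one])
        rwa [one_smul] at this
    · push Not at hex
      refine ⟨0, fun τ hτ => Or.inl ?_⟩
      have h1 := (hκ τ).resolve_right (hex τ hτ)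
      have := htame.apply_eq_nsmul Nat.prime_three hA (by norm_num) hx hτ hτ (m := 0)
        (by rw [h1, pow_zero])
      rwa [zero_smul] at this
  -- a nonzero functional killing `b`
  have hmink : ∀ l : ZMod 2 × ZMod 2 →+ ZMod 2, l b = 0 → ∀ g : Γℚ, l (η g, χ g) = 0 := by
    intro l hl
    refine Mazur.Global.hom_trivial (fun g => l (η g, χ g)) (fun σ τ => ?_) L (fun σ hσ => ?_)
      (fun q hq => ?_)
    · show l (η (σ * τ), χ (σ * τ)) = l (η σ, χ σ) + l (η τ, χ τ)
      rw [hηadd, hχadd, ← map_add, Prod.mk_add_mk]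
    · show l (η σ, χ σ) = 0
      rw [(hone σ (hLρ σ hσ)).1, (hone σ (hLρ σ hσ)).2]
      exact map_zero l
    · by_cases hq3 : q = 3
      · subst hq3
        refine ⟨A, hA, fun σ hσ => ?_⟩
        show l (η σ, χ σ) = 0
        rcases hb σ hσ with h1 | h1
        · rw [h1, map_zero]
        · rw [h1, hl]
      · obtain ⟨P, hP⟩ := FrobExists.exists_liesOverPrime Qbar hq
        refine ⟨P, hP, fun σ hσ => ?_⟩
        show l (η σ, χ σ) = 0
        have h1 := h.eq_one_of_unip hT (h.unip q hq hq3 P hP σ hσ)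
        rw [(hone σ h1).1, (hone σ h1).2]
        exact map_zero l
  have hηc : η c = 0 := by rw [hη, if_pos rfl]
  have hχc : χ c = 1 := by
    rw [hχ, if_neg]
    rw [hc]; decide
  have hb3 : b.1 = 0 ∨ b.2 = 0 ∨ b.1 + b.2 = 0 := by
    have : ∀ z : ZMod 2 × ZMod 2, z.1 = 0 ∨ z.2 = 0 ∨ z.1 + z.2 = 0 := by decide
    exact this b
  rcases hb3 with h1 | h1 | h1
  · -- everything commutes with `c`
    have h3 := hmink (AddMonoidHom.fst _ _) h1
    have hcomm : ∀ g : Γℚ, ρ g * ρ c = ρ c * ρ g := by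
      intro g
      by_contra hne
      have h4 : η g = 0 := h3 g
      rw [hη, if_neg hne] at h4
      exact one_ne_zero h4
    rcases h.irr (LinearMap.ker (ρ c - 1)) (fun g x hx => by
      rw [LinearMap.mem_ker] at hx ⊢
      have h5 : (ρ c - 1) * ρ g = ρ g * (ρ c - 1) := by
        rw [sub_mul, mul_sub, hcomm, one_mul, mul_one]
      rw [← Module.End.mul_apply, h5, Module.End.mul_apply, hx, map_zero]) with h6 | h6
    · have h7 : ρ c + 1 = 0 := by
        refine LinearMap.ext fun x => ?_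
        have h8 : (ρ c + 1) x ∈ LinearMap.ker (ρ c - 1) := by
          rw [LinearMap.mem_ker, ← Module.End.mul_apply]
          have : (ρ c - 1) * (ρ c + 1) = ρ c * ρ c - 1 := by noncomm_ring
          rw [this, hCC, sub_self, LinearMap.zero_apply]
        rw [h6, Submodule.mem_bot] at h8
        exact h8
      have h9 := htr c hc
      rw [eq_neg_of_add_eq_zero_left h7, map_neg, trace_one h.fin, neg_eq_zero] at h9
      exact h20 h9
    · have h7 : ρ c = 1 := sub_eq_zero.mp (LinearMap.ker_eq_top.mp h6)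
      have h9 := htr c hc
      rw [h7, trace_one h.fin] at h9
      exact h20 h9
  · have h3 : χ c = 0 := hmink (AddMonoidHom.snd _ _) h1 c
    rw [hχc] at h3
    exact one_ne_zero h3
  · have h3 : η c + χ c = 0 := hmink (AddMonoidHom.fst _ _ + AddMonoidHom.snd _ _) h1 c
    rw [hηc, hχc, zero_add] at h3
    exact one_ne_zero h3

end three

section reduction

variable {p : ℕ} [hpf : Fact p.Prime] {V : Type} [AddCommGroup V] [Module (ZMod p) V]
  {ρ : Γℚ →* Module.End (ZMod p) V}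

theorem Hyp.pow_eq_one (_h : Hyp p ρ) {s : Γℚ} (hs : (ρ s - 1) * (ρ s - 1) = 0) :
    ρ (s ^ p) = 1 := by
  rw [map_pow, LR.GaloisInput.pow_eq_of_sub_one_sq (by rw [sq]; exact hs) p,
    ← Nat.cast_smul_eq_nsmul (ZMod p), ZMod.natCast_self, zero_smul, add_zero]

theorem Hyp.odd (h : Hyp p ρ) : Odd p := hpf.out.odd_of_ne_two h.two

/-- The condition mod `4` may be imposed. -/
theorem Hyp.exists_four (h : Hyp p ρ) (g : Γℚ) :
    ∃ g' : Γℚ, ρ g' = ρ g ∧ cyc 3 g' = cyc 3 g ∧ cyc 4 g' = -1 := by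
  rcases units_four (cyc 4 g) with h1 | h1
  · obtain ⟨A, hA⟩ := FrobExists.exists_liesOverPrime Qbar Nat.prime_two
    obtain ⟨τ, hτ, hcτ⟩ : ∃ τ ∈ A.inertiaSubgroupIn ℚ, cyc 4 τ = -1 :=
      DefCond.exists_inertia_cyc Nat.prime_two 2 A hA (-1)
    have h3 : cyc 3 τ = 1 := cyc_inertia Nat.prime_two (by norm_num) A hA hτ
    refine ⟨g * τ ^ p, ?_, ?_, ?_⟩
    · rw [map_mul, h.pow_eq_one (h.unip 2 Nat.prime_two (Ne.symm h.two) A hA τ hτ), mul_one]
    · rw [map_mul, map_pow, h3, one_pow, mul_one]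
    · rw [map_mul, map_pow, h1, hcτ, h.odd.neg_one_pow, one_mul]
  · exact ⟨g, rfl, rfl, h1⟩

/-- The condition mod `3` may be imposed if `p ≠ 3`. -/
theorem Hyp.exists_three (h : Hyp p ρ) (hp3 : p ≠ 3) (g : Γℚ) :
    ∃ g' : Γℚ, ρ g' = ρ g ∧ cyc 3 g' = -1 := by
  rcases units_three (cyc 3 g) with h1 | h1
  · obtain ⟨A, hA⟩ := FrobExists.exists_liesOverPrime Qbar Nat.prime_three
    obtain ⟨τ, hτ, hcτ⟩ : ∃ τ ∈ A.inertiaSubgroupIn ℚ, cyc 3 τ = -1 :=
      DefCond.exists_inertia_cyc Nat.prime_three 1 A hA (-1)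
    refine ⟨g * τ ^ p, ?_, ?_⟩
    · rw [map_mul, h.pow_eq_one (h.unip 3 Nat.prime_three (Ne.symm hp3) A hA τ hτ), mul_one]
    · rw [map_mul, map_pow, h1, hcτ, h.odd.neg_one_pow, one_mul]
  · exact ⟨g, rfl, h1⟩

/-- **The element.** -/
theorem Hyp.exists_element (h : Hyp p ρ) : ∃ σ : Γℚ, cyc 3 σ = -1 ∧ cyc 4 σ = -1 ∧
    LinearMap.trace (ZMod p) V (ρ σ) ^ 2 ≠ (1 + (cyc p σ : ZMod p)) ^ 2 := by
  by_contra hcon
  push Not at hcon
  by_cases hp3 : p = 3
  · subst hp3
    refine h.false_of_three ⟨?_, ?_, ?_⟩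
    · intro g hg s hs
      rw [Set.mem_ofPred_eq] at hg ⊢
      rw [map_mul, hg, hs, mul_one]
    · intro N hN g x hx
      rcases units_three (cyc 3 g) with h1 | h1
      · obtain ⟨c, hc⟩ := DefCond.exists_cyc_eq 3 (-1)
        have h3 : g = (g * c) * c⁻¹ := by group
        rw [h3, map_mul, Module.End.mul_apply]
        refine hN _ ?_ _ (hN _ ?_ _ hx)
        · rw [Set.mem_ofPred_eq, map_mul, h1, hc, one_mul]
        · rw [Set.mem_ofPred_eq, map_inv, hc, inv_neg, inv_one]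
      · exact hN g h1 x hx
    · intro g hg
      obtain ⟨g', h1, h3, h4⟩ := h.exists_four g
      have h5 := hcon g' (h3.trans hg) h4
      rw [h1, ← h.det, h1, h.det] at h5
      exact h5
  · refine h.false_of_univ ⟨fun _ _ _ _ => trivial, fun N hN g x hx => hN g trivial x hx,
      fun g _ => ?_⟩
    obtain ⟨g₁, h1, h3⟩ := h.exists_three hp3 g
    obtain ⟨g', h4, h5, h6⟩ := h.exists_four g₁
    have h7 := hcon g' (h5.trans h3) h6
    rw [h4, h1, ← h.det, h4, h1, h.det] at h7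
    exact h7

/-- **The primes.** -/
theorem Hyp.exists_prime (h : Hyp p ρ) (S : Finset ℕ) :
    ∃ r : ℕ, r.Prime ∧ r ∉ S ∧ r % 12 = 11 ∧
      ∃ (A : ValuationSubring Qbar) (φ : Γℚ), A.LiesOverPrime r ∧ A.IsFrobeniusAt φ r ∧
        LinearMap.trace (ZMod p) V (ρ φ) ^ 2 ≠ (1 + (cyc p φ : ZMod p)) ^ 2 := by
  obtain ⟨g, hg3, hg4, hgt⟩ := h.exists_element
  obtain ⟨L, hL, hLρ⟩ := h.level
  obtain ⟨ζ, hζ⟩ := exists_primitiveRoot 12
  have hfin' : FiniteDimensional ℚ (IntermediateField.adjoin ℚ ({ζ} : Set Qbar)) :=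
    IntermediateField.adjoin.finiteDimensional (Algebra.IsIntegral.isIntegral ζ)
  let L' : IntermediateField ℚ Qbar := L ⊔ IntermediateField.adjoin ℚ {ζ}
  have hfinL' : FiniteDimensional ℚ L' := IntermediateField.finiteDimensional_sup _ _
  have hζL : ζ ∈ L' := (le_sup_right : _ ≤ L')
    (IntermediateField.subset_adjoin ℚ _ (Set.mem_singleton ζ))
  have hLL : L ≤ L' := le_sup_left
  obtain ⟨ℓ, hℓ, hℓS, A, φ, hA, hφ, hφg⟩ :=
    Density.Final.exists_frobenius_eq L' (S ∪ {2, 3}) g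
  rw [Finset.mem_union, not_or] at hℓS
  have hℓ2 : ℓ ≠ 2 := fun h => hℓS.2 (by rw [h]; decide)
  have hℓ3 : ℓ ≠ 3 := fun h => hℓS.2 (by rw [h]; decide)
  have hfix : ∀ x ∈ L', (g⁻¹ * φ) x = x := fun x hx => by
    rw [AlgEquiv.mul_apply, hφg x hx]
    change g.symm (g x) = x
    exact g.symm_apply_apply x
  have e3 : ρ φ = ρ g := by
    have h1 : ρ (g⁻¹ * φ) = 1 := hLρ _ fun x hx => hfix x (hLL hx)
    have : φ = g * (g⁻¹ * φ) := by group
    rw [this, map_mul, h1, mul_one]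
  have c3 : cyc 3 φ = cyc 3 g := by
    have h1 : cyc 3 (g⁻¹ * φ) = 1 :=
      cyc_eq_one_of_fixes 3 _ (hζ.pow (by norm_num) (show 12 = 4 * 3 by norm_num))
        (by rw [map_pow, hfix ζ hζL])
    rw [map_mul, map_inv, inv_mul_eq_one] at h1
    exact h1.symm
  have c4 : cyc 4 φ = cyc 4 g := by
    have h1 : cyc 4 (g⁻¹ * φ) = 1 :=
      cyc_eq_one_of_fixes 4 _ (hζ.pow (by norm_num) (show 12 = 3 * 4 by norm_num))
        (by rw [map_pow, hfix ζ hζL])
    rw [map_mul, map_inv, inv_mul_eq_one] at h1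
    exact h1.symm
  have m3 : ℓ % 3 = 2 := by
    have h1 : (cyc 3 φ : ZMod 3) = (ℓ : ℕ) := cyc_frobenius hℓ
      (fun h => hℓ3 ((Nat.prime_dvd_prime_iff_eq hℓ Nat.prime_three).mp h)) A hA hφ
    rw [c3, hg3, Units.val_neg, Units.val_one] at h1
    have h5 : ((ℓ : ℕ) : ZMod 3) = ((2 : ℕ) : ZMod 3) := by rw [← h1]; decide
    exact (ZMod.natCast_eq_natCast_iff _ _ _).mp h5
  have m4 : ℓ % 4 = 3 := by
    have h1 : (cyc 4 φ : ZMod 4) = (ℓ : ℕ) := cyc_frobenius hℓ
      (fun h => hℓ2 ((Nat.prime_dvd_prime_iff_eq hℓ Nat.prime_two).mp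
        (hℓ.dvd_of_dvd_pow (show ℓ ∣ 2 ^ 2 from h)))) A hA hφ
    rw [c4, hg4, Units.val_neg, Units.val_one] at h1
    have h5 : ((ℓ : ℕ) : ZMod 4) = ((3 : ℕ) : ZMod 4) := by rw [← h1]; decide
    exact (ZMod.natCast_eq_natCast_iff _ _ _).mp h5
  refine ⟨ℓ, hℓ, hℓS.1, by omega, A, φ, hA, hφ, ?_⟩
  rw [e3, ← h.det, e3, h.det]
  exact hgt

end reduction

section curve

open WeierstrassCurve WeierstrassCurve.Affine WeierstrassCurve.Affine.Point
open scoped WeierstrassCurve.Affine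

theorem hyp_of_curve {W : WeierstrassCurve ℤ} (hΔ : W.Δ ≠ 0) (hss : W.IsSemistableModel) {p : ℕ}
    [hpf : Fact p.Prime] (hp2 : p ≠ 2) (hirr : W.ModRepIsIrreducible p) :
    Hyp p (galoisRepModuleEnd (S := ℚ) (K := Qbar) (W.map (Int.castRingHom ℚ)) p) := by
  have hell : (W.map (Int.castRingHom ℚ)).IsElliptic := by
    refine ⟨?_⟩
    rw [WeierstrassCurve.map_Δ]
    simpa using hΔ
  have hell' : WeierstrassCurve.IsElliptic ((W.map (Int.castRingHom ℚ))⁄Qbar) :=
    EllTorsion.isElliptic_baseChange (W.map (Int.castRingHom ℚ))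
  have hp0 : (p : Qbar) ≠ 0 := by exact_mod_cast hpf.out.ne_zero
  exact
    { two := hp2
      fin := EllTorsion.finrank_torsionBy (W' := W.map (Int.castRingHom ℚ)) (K := Qbar) hp0
        hpf.out.ne_one
      irr := fun N hN => hirr.2 N hN
      level := EllTorsion.galoisRepModuleEnd_factorsThroughFiniteLevel
        (W.map (Int.castRingHom ℚ)) hpf.out.ne_zero
      det := fun σ => EllRed.det_galoisRepModuleEnd W hΔ p σ
      unip := fun q hq hqp A hA τ hτ => LOC.inertia_sub_one_mul_sub_one W hΔ hq (hss q hq)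
        (fun h => hqp ((Nat.prime_dvd_prime_iff_eq hq hpf.out).mp h)) A hA hτ hτ }

/-- **(AUX-R)**: auxiliary primes `r ≡ 11 mod 12` with `a_r² ≢ (r + 1)² mod p`. -/
theorem exists_aux_prime {W : WeierstrassCurve ℤ} (hΔ : W.Δ ≠ 0) (hss : W.IsSemistableModel)
    {p : ℕ} (hp : p.Prime) (hp2 : p ≠ 2) (hirr : W.ModRepIsIrreducible p) (S : Finset ℕ) :
    ∃ r : ℕ, r.Prime ∧ r ∉ S ∧ r % 12 = 11 ∧ W.IsGoodPrimeFor r ∧
      ¬ (p : ℤ) ∣ W.apOfModel r ^ 2 - (r + 1) ^ 2 := by
  have hpf : Fact p.Prime := ⟨hp⟩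
  obtain ⟨r, hr, hrS, hr12, A, φ, hA, hφ, ht⟩ := (hyp_of_curve hΔ hss hp2 hirr).exists_prime
    (S ∪ ({p} ∪ W.Δ.natAbs.primeFactors))
  rw [Finset.mem_union, Finset.mem_union, not_or, not_or, Finset.mem_singleton] at hrS
  have hgood : W.IsGoodPrimeFor r := fun h => hrS.2.2
    (Nat.mem_primeFactors.mpr ⟨hr, Int.natCast_dvd.mp h, Int.natAbs_ne_zero.mpr hΔ⟩)
  obtain ⟨h1, h3⟩ := LR.GaloisInput.frobTraceInput W hp r hr hgood hrS.2.1 A hA φ hφ
  refine ⟨r, hr, hrS.1, hr12, hgood, fun hdvd => ht ?_⟩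
  rw [← (hyp_of_curve hΔ hss hp2 hirr).det, h1, h3]
  have h4 := (ZMod.intCast_zmod_eq_zero_iff_dvd _ p).mpr hdvd
  push_cast at h4
  linear_combination h4

end curve

end Fermat.Agent.DR.AuxPrime
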