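import Fermat.Agent.DR.ResidualCompare
import Fermat.Agent.LOC.Multiplicative

/-!
# Big image of the mod `p` representation of the Frey curve

The restriction of `E[p]` to every subgroup of index `2` is absolutely irreducible (the
Taylor–Wiles hypothesis), because inertia at `2` contains an element acting as a nontrivial
unipotent.
-/

set_option autoImplicit false

open WeierstrassCurve WeierstrassCurve.Affine WeierstrassCurve.Affine.Point Polynomial
open scoped WeierstrassCurve.Affine TensorProduct

namespace Fermat.Agent.DR.FreyBigImage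

open Fermat.Agent.DR.ResidualCompare

local notation "Γℚ" => (AlgebraicClosure ℚ ≃ₐ[ℚ] AlgebraicClosure ℚ)

section general

variable {k : Type} [Field k]

/-- In dimension two, a stable line of a nontrivial unipotent operator is its kernel. -/
theorem line_eq_ker {K V : Type*} [Field K] [AddCommGroup V] [Module K V]
    (hV : Module.finrank K V = 2) (N : Module.End K V) (hN : N * N = 0) (hN0 : N ≠ 0)
    (W : Submodule K V) (hW : ∀ x ∈ W, N x ∈ W) (hW0 : W ≠ ⊥) (hW1 : W ≠ ⊤) :
    W = LinearMap.ker N := by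
  have : FiniteDimensional K V := Module.finite_of_finrank_eq_succ hV
  have h1 : Module.finrank K W = 1 := by
    have h2 : Module.finrank K W < 2 := by
      rw [← hV]; exact Submodule.finrank_lt hW1
    have h3 : 0 < Module.finrank K W := by
      rw [Module.finrank_pos_iff]
      exact Submodule.nontrivial_iff_ne_bot.mpr hW0
    omega
  have hker1 : Module.finrank K (LinearMap.ker N) < 2 := by
    rw [← hV]
    refine Submodule.finrank_lt fun h => hN0 ?_
    exact LinearMap.ker_eq_top.mp h
  -- `W ≤ ker N`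
  have hle : W ≤ LinearMap.ker N := by
    obtain ⟨w, hw, hw0⟩ := Submodule.exists_mem_ne_zero_of_ne_bot hW0
    have hspan : ∀ x ∈ W, ∃ c : K, c • w = x := by
      intro x hx
      have := (finrank_eq_one_iff_of_nonzero' (⟨w, hw⟩ : W) (by
        intro h; exact hw0 (congrArg Subtype.val h))).mp h1 ⟨x, hx⟩
      obtain ⟨c, hc⟩ := this
      exact ⟨c, congrArg Subtype.val hc⟩
    obtain ⟨c, hc⟩ := hspan (N w) (hW w hw)
    have hNN : N (N w) = 0 := by
      rw [← Module.End.mul_apply, hN, LinearMap.zero_apply]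
    have hc0 : c = 0 := by
      rw [← hc, map_smul, ← hc, smul_smul] at hNN
      rcases smul_eq_zero.mp hNN with h | h
      · exact mul_self_eq_zero.mp h
      · exact absurd h hw0
    have hNw : N w = 0 := by rw [← hc, hc0, zero_smul]
    intro x hx
    obtain ⟨d, rfl⟩ := hspan x hx
    rw [LinearMap.mem_ker, map_smul, hNw, smul_zero]
  exact Submodule.eq_of_le_of_finrank_le hle (by omega)

/-- **The Taylor–Wiles hypothesis** for a residual representation containing a nontrivial
unipotent in its image. -/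
theorem irreducible_on_index_two (h2 : (2 : k) ≠ 0) (ρ : ResidualGaloisRep k)
    (habs : ρ.IsAbsolutelyIrreducible) (τ : Γℚ) (hτ : ρ.ρ τ ≠ 1)
    (hτ2 : (ρ.ρ τ - 1) * (ρ.ρ τ - 1) = 0) (K : Type) [Field K] [Algebra k K] (G : Subgroup Γℚ)
    (hG : G.index = 2) (W : Submodule K (ρ.baseChange K).V)
    (hW : ∀ σ ∈ G, ∀ x ∈ W, (ρ.baseChange K).ρ σ x ∈ W) : W = ⊥ ∨ W = ⊤ := by
  have hspan := (BN2.isAbsolutelyIrreducible_iff_span ρ).mp habs
  by_contra hcon
  push Not at hcon
  obtain ⟨hW0, hW1⟩ := hcon
  set ρK := (ρ.baseChange K) with hρK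
  have hnormal : G.Normal := Subgroup.normal_of_index_eq_two hG
  have h2K : (2 : K) ≠ 0 := by
    intro h
    apply h2
    apply (algebraMap k K).injective
    rw [map_ofNat, _root_.map_zero]; exact h
  -- the nilpotent
  let N : Module.End K ρK.V := ρK.ρ τ - 1
  have hNdef : N = (ρ.ρ τ - 1).baseChange K := by
    rw [LinearMap.baseChange_sub, LinearMap.baseChange_one]; rfl
  have hNN : N * N = 0 := by
    rw [hNdef, ← LinearMap.baseChange_mul, hτ2, LinearMap.baseChange_zero]
  have hN0 : N ≠ 0 := by
    intro h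
    apply hτ
    rw [hNdef] at h
    rw [← sub_eq_zero]
    refine LinearMap.ext fun x => ?_
    have h3 := LinearMap.congr_fun h (1 ⊗ₜ[k] x)
    rw [LinearMap.baseChange_tmul, LinearMap.zero_apply] at h3
    have h4 : Function.Injective (fun x : ρ.V => (1 : K) ⊗ₜ[k] x) :=
      Module.FaithfullyFlat.tensorProduct_mk_injective (A := k) (B := K) ρ.V
    apply h4
    simp only [LinearMap.zero_apply, TensorProduct.tmul_zero]
    exact h3
  have hτN : ρK.ρ τ = 1 + N := by simp [N]
  -- stable lines are the kernel of `N`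
  have hline : ∀ W' : Submodule K ρK.V, (∀ σ ∈ G, ∀ x ∈ W', ρK.ρ σ x ∈ W') → W' ≠ ⊥ → W' ≠ ⊤ →
      W' = LinearMap.ker N := by
    intro W' hW' h0 h1
    refine line_eq_ker ρK.finrank_eq N hNN hN0 W' ?_ h0 h1
    intro x hx
    have hmem : τ * τ ∈ G := by
      have := Subgroup.mul_self_mem_of_index_two hG τ
      exact this
    have h3 := hW' _ hmem x hx
    have h4 : ρK.ρ (τ * τ) = 1 + (2 : K) • N := by
      rw [map_mul, hτN, mul_add, mul_one, add_mul, one_mul, hNN, add_zero, two_smul]
      abel
    rw [h4, LinearMap.add_apply, Module.End.one_apply, LinearMap.smul_apply] at h3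
    have h5 : (2 : K) • N x ∈ W' := by
      have := W'.sub_mem h3 hx
      rwa [add_sub_cancel_left] at this
    exact (W'.smul_mem_iff h2K).mp h5
  have hWker := hline W hW hW0 hW1
  -- `W` is stable under the whole group
  have hstab : ∀ g : Γℚ, ∀ x ∈ W, ρK.ρ g x ∈ W := by
    intro g
    let W' : Submodule K ρK.V := W.map (ρK.ρ g)
    have hinj : Function.Injective (ρK.ρ g) := by
      intro x y hxy
      have := congrArg (ρK.ρ g⁻¹) hxy
      rwa [← Module.End.mul_apply, ← Module.End.mul_apply, ← map_mul, inv_mul_cancel, map_one] at this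
    have hsurj : Function.Surjective (ρK.ρ g) := fun y =>
      ⟨ρK.ρ g⁻¹ y, by rw [← Module.End.mul_apply, ← map_mul, mul_inv_cancel, map_one]; rfl⟩
    have hW' : W' = LinearMap.ker N := by
      apply hline
      · rintro σ hσ _ ⟨x, hx, rfl⟩
        refine ⟨ρK.ρ (g⁻¹ * σ * g) x, hW _ ?_ x hx, ?_⟩
        · have := hnormal.conj_mem σ hσ g⁻¹
          rwa [inv_inv] at this
        · rw [← Module.End.mul_apply, ← Module.End.mul_apply, ← map_mul, ← map_mul]
          congr 2
          group
      · intro h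
        apply hW0
        rw [eq_bot_iff]
        intro x hx
        have hx' : ρK.ρ g x ∈ W' := ⟨x, hx, rfl⟩
        rw [h, Submodule.mem_bot] at hx'
        rw [Submodule.mem_bot]
        exact hinj (by rw [hx', _root_.map_zero])
      · intro h
        apply hW1
        rw [eq_top_iff]
        intro x _
        have hx : ρK.ρ g x ∈ W' := h ▸ Submodule.mem_top
        obtain ⟨y, hy, hxy⟩ := hx
        rwa [← hinj hxy]
    intro x hx
    have h3 : ρK.ρ g x ∈ W' := ⟨x, hx, rfl⟩
    rw [hW', ← hWker] at h3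
    exact h3
  rcases BN2.eq_bot_or_eq_top_of_span_eq_top (K := K) ρ.ρ hspan W
    (fun g x hx => hstab g x hx) with h | h
  · exact hW0 h
  · exact hW1 h

end general

section frey

variable (P : FreyPackage)

instance fact_prime : Fact P.p.Prime := ⟨P.pp⟩

theorem frey_hcard : Nat.card (Submodule.torsionBy ℤ
    ((P.freyCurveInt.map (Int.castRingHom ℚ))⁄(AlgebraicClosure ℚ)).Point P.p) = P.p ^ 2 := by
  have := EllTorsion.isElliptic_map_of_Δ_ne_zero (FreyPackage.AgentFrey.freyCurveInt_Δ_ne_zero P)
  exact EllTorsion.card_torsionBy_rat (P.freyCurveInt.map (Int.castRingHom ℚ)) P.pp.ne_zero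

theorem frey_hker : GaloisFactorsThroughFiniteLevel
    (galoisRepModuleEnd (K := AlgebraicClosure ℚ) ℚ
      (P.freyCurveInt.map (Int.castRingHom ℚ)) P.p) := by
  have := EllTorsion.isElliptic_map_of_Δ_ne_zero (FreyPackage.AgentFrey.freyCurveInt_Δ_ne_zero P)
  exact EllTorsion.galoisRepModuleEnd_factorsThroughFiniteLevel
      (P.freyCurveInt.map (Int.castRingHom ℚ)) P.pp.ne_zero

/-- The mod `p` representation of the Frey curve. -/
noncomputable def freyRep : ResidualGaloisRep (ZMod P.p) :=
  (P.freyCurveInt.map (Int.castRingHom ℚ)).residualGaloisRepOf P.p (frey_hcard P) (frey_hker P)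

theorem frey_modRepIsIrreducible
    (hirr : GaloisRepIsIrreducible (K := AlgebraicClosure ℚ) ℚ P.freyCurve P.p) :
    P.freyCurveInt.ModRepIsIrreducible P.p :=
  (VarChange.modRepIsIrreducible_iff_of_isIntegralModelOf
    (FreyPackage.AgentFrey.isIntegralModelOf P) _).mpr hirr

theorem freyRep_isAbsolutelyIrreducible
    (hirr : GaloisRepIsIrreducible (K := AlgebraicClosure ℚ) ℚ P.freyCurve P.p) :
    (freyRep P).IsAbsolutelyIrreducible := by
  have hp5 := P.hp5
  exact isAbsolutelyIrreducible_of_modRepIsIrreducible (by omega) P.freyCurveInt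
    (FreyPackage.AgentFrey.freyCurveInt_Δ_ne_zero P) _ _ (frey_modRepIsIrreducible P hirr)

/-- Inertia at `2` contains an element acting on `E[p]` as a nontrivial unipotent. -/
theorem frey_exists_unipotent :
    ∃ A : ValuationSubring (AlgebraicClosure ℚ), A.LiesOverPrime 2 ∧
      ∃ τ ∈ A.inertiaSubgroupIn ℚ, (freyRep P).ρ τ ≠ 1 ∧
        ((freyRep P).ρ τ - 1) * ((freyRep P).ρ τ - 1) = 0 := by
  have hp5 := P.hp5
  have h : ¬ GaloisRepUnramifiedAt ℚ (AlgebraicClosure ℚ)
      (P.freyCurveInt.map (Int.castRingHom ℚ)) P.p 2 := fun hh =>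
    FreyRamifiedTwo.frey_not_unramifiedAt_two P
      ((VarChange.galoisRepUnramifiedAt_iff_of_isIntegralModelOf
        (FreyPackage.AgentFrey.isIntegralModelOf P) _ _).mp hh)
  unfold GaloisRepUnramifiedAt at h
  push Not at h
  obtain ⟨A, hA, τ, hτ, x, hx⟩ := h
  refine ⟨A, hA, τ, hτ, ?_, ?_⟩
  · intro h1
    exact hx (LinearMap.congr_fun h1 x)
  · refine LinearMap.ext fun (y : Submodule.torsionBy ℤ
      ((P.freyCurveInt.map (Int.castRingHom ℚ))⁄(AlgebraicClosure ℚ)).Point P.p) => ?_
    change τ • (τ • y - y) - (τ • y - y) = 0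
    rw [sub_eq_zero]
    refine Subtype.ext ?_
    refine LOC.inertia_smul_sub P.freyCurveInt Nat.prime_two
      (fun h => FreyPackage.AgentFrey.isSemistableModel P 2 Nat.prime_two h) A hA
      (m := P.p) ?_ hτ ?_
    · intro h
      have := (Nat.prime_dvd_prime_iff_eq Nat.prime_two P.pp).mp h
      omega
    · rw [← natCast_zsmul]
      exact (Submodule.mem_torsionBy_iff _ _).mp y.2

/-- **The Taylor–Wiles hypothesis for the Frey curve.** -/
theorem frey_irreducible_on_index_two
    (hirr : GaloisRepIsIrreducible (K := AlgebraicClosure ℚ) ℚ P.freyCurve P.p)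
    {k : Type} [Field k] (ψ : ZMod P.p →+* k) (K : Type) [Field K] [Algebra k K]
    (G : Subgroup Γℚ) (hG : G.index = 2)
    (W : Submodule K (((freyRep P).baseChangeAlong ψ).baseChange K).V)
    (hW : ∀ σ ∈ G, ∀ x ∈ W, (((freyRep P).baseChangeAlong ψ).baseChange K).ρ σ x ∈ W) :
    W = ⊥ ∨ W = ⊤ := by
  have hp5 := P.hp5
  have hchar : CharP k P.p := charP_of_injective_ringHom (f := ψ) ψ.injective P.p
  obtain ⟨A, hA, τ, hτ, hτ1, hτ2⟩ := frey_exists_unipotent P
  have habs : ((freyRep P).baseChangeAlong ψ).IsAbsolutelyIrreducible :=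
    BN2.isAbsolutelyIrreducible_of_charpoly_eq (RingHom.id k) ψ _ _ (fun σ => by
      rw [charpoly_baseChangeAlong, Polynomial.map_id]) (freyRep_isAbsolutelyIrreducible P hirr)
  refine irreducible_on_index_two ?_ _ habs τ ?_ ?_ K G hG W hW
  · have h : ((2 : ℕ) : k) ≠ 0 := by
      rw [Ne, CharP.cast_eq_zero_iff k P.p 2]
      intro h
      have := (Nat.prime_dvd_prime_iff_eq P.pp Nat.prime_two).mp h
      omega
    exact_mod_cast h
  · intro h
    apply hτ1
    let _ : Algebra (ZMod P.p) k := ψ.toAlgebra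
    have h' : ((freyRep P).ρ τ).baseChange k = 1 := h
    refine LinearMap.ext fun x => ?_
    have h3 := LinearMap.congr_fun h' (1 ⊗ₜ[ZMod P.p] x)
    rw [LinearMap.baseChange_tmul, Module.End.one_apply] at h3
    have h4 : Function.Injective (fun x : (freyRep P).V => (1 : k) ⊗ₜ[ZMod P.p] x) :=
      Module.FaithfullyFlat.tensorProduct_mk_injective (A := ZMod P.p) (B := k) (freyRep P).V
    exact h4 h3
  · let _ : Algebra (ZMod P.p) k := ψ.toAlgebra
    have h' : ((freyRep P).baseChangeAlong ψ).ρ τ - 1 =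
        ((freyRep P).ρ τ - 1).baseChange k := by
      rw [LinearMap.baseChange_sub, LinearMap.baseChange_one]; rfl
    have h5 : ((freyRep P).ρ τ - 1).baseChange k * ((freyRep P).ρ τ - 1).baseChange k = 0 := by
      rw [← LinearMap.baseChange_mul, hτ2, LinearMap.baseChange_zero]
    rw [h']
    exact h5

end frey

end Fermat.Agent.DR.FreyBigImage
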