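import Fermat.Agent.DR.ResidualCompare
import Fermat.Agent.S05
import Fermat.Prelude.Def_FreyPackage_IsConductorLevel

/-!
# S43 from S29, S44, Mazur's principle (non-scalar case) and the scalar case

All inputs are explicit hypotheses:

* `S29Prop` : residual representations attached to eigenforms;
* `S44Prop` : level lowering at `p`;
* `MazurFrey` : Mazur's principle for the Frey curve: an odd prime `q ≠ p` dividing the level
  (prime to `p`) can be removed unless `q ≡ 1 mod p` and `Frob_q` acts on `E[p]` as a scalar;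
* `ScalarFrey` : the scalar case: there is no minimal level prime to `p` divisible by an
  odd prime and all of whose odd prime divisors `q` are scalar (`q ≡ 1 mod p` and `Frob_q` acts on
  `E[p]` as a scalar).
-/

set_option autoImplicit false

open WeierstrassCurve WeierstrassCurve.Affine WeierstrassCurve.Affine.Point
open scoped WeierstrassCurve.Affine

namespace Fermat.Agent.DR.S43Glue

open Fermat.Agent.DR.ResidualCompare

/-- All Frobenius elements at `q` act on `E[p]` (`E` the Frey curve) as scalars. -/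
def IsScalarAt (P : FreyPackage) (q : ℕ) : Prop :=
  ∀ A : ValuationSubring (AlgebraicClosure ℚ), A.LiesOverPrime q →
    ∀ σ : AlgebraicClosure ℚ ≃ₐ[ℚ] AlgebraicClosure ℚ, A.IsFrobeniusAt σ q →
      ∃ c : ZMod P.p, ∀ x : Submodule.torsionBy ℤ (P.freyCurve⁄(AlgebraicClosure ℚ)).Point P.p,
        σ • x = c • x

/-- The statement of S44. -/
def S44Prop : Prop :=
  ∀ (P : FreyPackage) {N : ℕ} (_ : P.IsConductorLevel N) (_ : P.p ∣ N)
    (_ : GaloisRepIsIrreducible (K := AlgebraicClosure ℚ) ℚ P.freyCurve P.p)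
    (_ : P.ModularRepOfLevel N), ∃ M : ℕ, M ∣ N ∧ ¬ P.p ∣ M ∧ P.ModularRepOfLevel M

/-- The statement of S43. -/
def S43Prop : Prop :=
  ∀ (P : FreyPackage) {N q : ℕ} (_ : P.IsConductorLevel N) (_ : q.Prime) (_ : q ≠ 2)
    (_ : q ≠ P.p) (_ : q ∣ N)
    (_ : GaloisRepIsIrreducible (K := AlgebraicClosure ℚ) ℚ P.freyCurve P.p)
    (_ : P.ModularRepOfLevel N) (_ : P.GaloisRepUnramifiedAt q),
    ∃ M : ℕ, M ∣ N ∧ ¬ q ∣ M ∧ P.ModularRepOfLevel M

/-- Mazur's principle for the Frey curve, level prime to `p`, outside the scalar case. -/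
def MazurFrey : Prop :=
  ∀ (P : FreyPackage) {N q : ℕ} (_ : P.IsConductorLevel N) (_ : ¬ P.p ∣ N) (_ : 2 ∣ N)
    (_ : q.Prime) (_ : q ≠ 2) (_ : q ≠ P.p) (_ : q ∣ N)
    (_ : GaloisRepIsIrreducible (K := AlgebraicClosure ℚ) ℚ P.freyCurve P.p)
    (_ : P.ModularRepOfLevel N) (_ : P.GaloisRepUnramifiedAt q)
    (_ : ¬ (q % P.p = 1 ∧ IsScalarAt P q)),
    ∃ M : ℕ, M ∣ N ∧ ¬ q ∣ M ∧ P.ModularRepOfLevel M

/-- The scalar case: a level `N` prime to `p`, minimal for divisibility among the levels with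
`ModularRepOfLevel`, all of whose odd prime divisors are scalar, has no odd prime divisor. -/
def ScalarFrey : Prop :=
  ∀ (P : FreyPackage) {N q : ℕ} (_ : P.IsConductorLevel N) (_ : ¬ P.p ∣ N) (_ : 2 ∣ N)
    (_ : q.Prime) (_ : q ≠ 2) (_ : q ∣ N)
    (_ : GaloisRepIsIrreducible (K := AlgebraicClosure ℚ) ℚ P.freyCurve P.p)
    (_ : P.ModularRepOfLevel N)
    (_ : ∀ M : ℕ, M ∣ N → P.ModularRepOfLevel M → M = N)
    (_ : ∀ r : ℕ, r.Prime → r ∣ N → r ≠ 2 → P.GaloisRepUnramifiedAt r ∧ IsScalarAt P r ∧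
      r % P.p = 1), False

/-- **S43 from its inputs.** -/
theorem s43_of (h29 : S29Prop) (h44 : S44Prop) (hM : MazurFrey)
    (hS : ScalarFrey) : S43Prop := by
  intro P N q hcond hq hq2 hqp hqN hirr hmod hunr
  -- a minimal level dividing `N`
  obtain ⟨M₀, hM₀N, hM₀, hmin⟩ : ∃ M₀ : ℕ, M₀ ∣ N ∧ P.ModularRepOfLevel M₀ ∧
      ∀ M : ℕ, M ∣ M₀ → P.ModularRepOfLevel M → M = M₀ := by
    classical
    let s : Finset ℕ := N.divisors.filter fun M => P.ModularRepOfLevel M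
    have hs : s.Nonempty := ⟨N, by simp [s, hcond.pos.ne', hmod]⟩
    obtain ⟨M₀, hM₀s, hM₀min⟩ := s.exists_min_image id hs
    have hM₀' := Finset.mem_filter.mp hM₀s
    refine ⟨M₀, Nat.dvd_of_mem_divisors hM₀'.1, hM₀'.2, fun M hMM₀ hM => ?_⟩
    have hMN : M ∣ N := hMM₀.trans (Nat.dvd_of_mem_divisors hM₀'.1)
    have hM₀pos : 0 < M₀ := Nat.pos_of_mem_divisors hM₀'.1
    have hMs : M ∈ s := by
      simp only [s, Finset.mem_filter, Nat.mem_divisors]
      exact ⟨⟨hMN, hcond.pos.ne'⟩, hM⟩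
    have h1 : M₀ ≤ M := hM₀min M hMs
    exact le_antisymm (Nat.le_of_dvd hM₀pos hMM₀) h1
  by_cases hqM₀ : q ∣ M₀
  swap
  · exact ⟨M₀, hM₀N, hqM₀, hM₀⟩
  exfalso
  have hM₀pos : 0 < M₀ := Nat.pos_of_dvd_of_pos hM₀N hcond.pos
  have hcond₀ : P.IsConductorLevel M₀ := hcond.of_dvd hM₀N hM₀pos
  have h2 : 2 ∣ M₀ := frey_two_dvd_of_modularRepOfLevel h29 P hirr hM₀
  have hp : ¬ P.p ∣ M₀ := by
    intro hp
    obtain ⟨M, hMM₀, hpM, hM'⟩ := h44 P hcond₀ hp hirr hM₀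
    exact hpM ((hmin M hMM₀ hM').symm ▸ hp)
  have hscal : ∀ r : ℕ, r.Prime → r ∣ M₀ → r ≠ 2 → P.GaloisRepUnramifiedAt r ∧
      IsScalarAt P r ∧ r % P.p = 1 := by
    intro r hr hrM₀ hr2
    have hrp : r ≠ P.p := by rintro rfl; exact hp hrM₀
    have hur : P.GaloisRepUnramifiedAt r := Fermat.Agent.S05.result P hr hr2 hrp
    have hsr : r % P.p = 1 ∧ IsScalarAt P r := by
      by_contra hns
      obtain ⟨M, hMM₀, hrM, hM'⟩ := hM P hcond₀ hp h2 hr hr2 hrp hrM₀ hirr hM₀ hur hns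
      exact hrM ((hmin M hMM₀ hM').symm ▸ hrM₀)
    exact ⟨hur, hsr.2, hsr.1⟩
  exact hS P hcond₀ hp h2 hq hq2 hqM₀ hirr hM₀ hmin hscal

end Fermat.Agent.DR.S43Glue
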