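import Fermat.Agent.DR.NormRed
import Fermat.Agent.DR.Nodal.Spec
import Fermat.Agent.Jan.HeckeNorm
import Fermat.Agent.FF.RelGlobal

set_option autoImplicit false

/-!
# Correspondences and specialisation (piece A7, abstract part)

`CorrRed R R' S φ ψ φ₁ ψ₁`: the diagram `F → Z ← F'` of function fields over `K` with reductions
`R, S, R'` lifts the diagram `G → Y ← G'` over `k`, the degrees of `ψ`, `ψ₁` being the same.
Then `f ↦ N_ψ (φ f)` reduces to `u ↦ N_{ψ₁} (φ₁ u)` and correspondences are compatible with the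
specialisation relation `Spec`.
-/

noncomputable section

open AlgebraicCurve Fermat.Agent.RR Fermat.Agent.JRED
open Fermat.Agent.Jan.HeckeNorm (normAlong normAlong_ne_zero nsmul_correspondence_eq_ord
  pushforwardAlong_eq_ord pullbackAlong_eq_ord)

namespace Fermat.Agent.DR

section OneComponent

variable {K k : Type*} [Field K] [Field k] {A : ValuationSubring K} {π : A →+* k}
  {F F' Z G G' Y : Type*} [Field F] [Field F'] [Field Z] [Field G] [Field G'] [Field Y]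
  [Algebra K F] [Algebra K F'] [Algebra K Z] [Algebra k G] [Algebra k G'] [Algebra k Y]

/-- A lift of a correspondence between function fields along reduction data. -/
structure CorrRed (R : RedDatum K F k G A π) (R' : RedDatum K F' k G' A π)
    (S : RedDatum K Z k Y A π) (φ : F →ₐ[K] Z) (ψ : F' →ₐ[K] Z) (φ₁ : G →ₐ[k] Y)
    (ψ₁ : G' →ₐ[k] Y) : Prop where
  surj : ∀ v : Y, ∃ y, S.Red y v
  along_fst : RedAlong R S φ φ₁
  along_snd : RedAlong R' S ψ ψ₁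
  fin : FiniteAlong K ψ
  fin₁ : FiniteAlong k ψ₁
  finrank : finrankAlong K ψ = finrankAlong k ψ₁

variable {R : RedDatum K F k G A π} {R' : RedDatum K F' k G' A π} {S : RedDatum K Z k Y A π}
  {φ : F →ₐ[K] Z} {ψ : F' →ₐ[K] Z} {φ₁ : G →ₐ[k] Y} {ψ₁ : G' →ₐ[k] Y}

/-- `N_ψ (φ f)` reduces to `N_{ψ₁} (φ₁ u)`. -/
theorem CorrRed.red (H : CorrRed R R' S φ ψ φ₁ ψ₁) (hπ : Function.Surjective π) {f : F} {u : G}
    (h : R.Red f u) : R'.Red (normAlong ψ (φ f)) (normAlong ψ₁ (φ₁ u)) :=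
  RedAlong.norm hπ H.along_snd H.fin H.fin₁ H.surj H.finrank (H.along_fst f u h)

end OneComponent

section TwoComponents

variable {K F k F₁ F₂ : Type*} [Field K] [Field F] [Algebra K F] [Field k] [Field F₁] [Field F₂]
  [Algebra k F₁] [Algebra k F₂] [IsAlgClosed K] [IsAlgClosed k] [FunctionField K F]
  [FunctionField k F₁] [FunctionField k F₂] {A : ValuationSubring K} {π : A →+* k}

variable {X : NodalDatum K F k F₁ F₂ A π} {m : ℕ} {x : Pic0 K F} {y₁ : Pic0 k F₁} {y₂ : Pic0 k F₂}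

/-- **Correspondences are compatible with specialisation.** -/
theorem Spec.correspondence {Z Y₁ Y₂ : Type*} [Field Z] [Field Y₁] [Field Y₂] [Algebra K Z]
    [Algebra k Y₁] [Algebra k Y₂] [HasPrincipalDivisors K Z] [HasPrincipalDivisors k Y₁]
    [HasPrincipalDivisors k Y₂] {S₁ : RedDatum K Z k Y₁ A π} {S₂ : RedDatum K Z k Y₂ A π}
    {φ ψ : F →ₐ[K] Z} {φ₁ ψ₁ : F₁ →ₐ[k] Y₁} {φ₂ ψ₂ : F₂ →ₐ[k] Y₂}
    (hπ : Function.Surjective π)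
    (H₁ : CorrRed X.R₁ X.R₁ S₁ φ ψ φ₁ ψ₁) (H₂ : CorrRed X.R₂ X.R₂ S₂ φ ψ φ₂ ψ₂)
    (hφ : φ.toRingHom.IsIntegral) (hψ : ψ.toRingHom.IsIntegral)
    (hFI : FundamentalIdentityAlong K φ hφ) (hN : NormFormulaAlong K ψ H₁.fin)
    (hφ₁ : φ₁.toRingHom.IsIntegral) (hψ₁ : ψ₁.toRingHom.IsIntegral)
    (hFI₁ : FundamentalIdentityAlong k φ₁ hφ₁) (hN₁ : NormFormulaAlong k ψ₁ H₁.fin₁)
    (hφ₂ : φ₂.toRingHom.IsIntegral) (hψ₂ : ψ₂.toRingHom.IsIntegral)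
    (hFI₂ : FundamentalIdentityAlong k φ₂ hφ₂) (hN₂ : NormFormulaAlong k ψ₂ H₂.fin₁)
    (h : Spec X m x y₁ y₂) :
    Spec X m (Pic0.correspondence φ ψ hφ hψ hFI H₁.fin hN x)
      (Pic0.correspondence φ₁ ψ₁ hφ₁ hψ₁ hFI₁ H₁.fin₁ hN₁ y₁)
      (Pic0.correspondence φ₂ ψ₂ hφ₂ hψ₂ hFI₂ H₂.fin₁ hN₂ y₂) := by
  obtain ⟨D, f, u, D₁, D₂, rfl, rfl, rfl, H, h1, h2⟩ := h
  refine ⟨Pic0.degZeroCorrespondence φ ψ hφ hψ hFI D, normAlong ψ (φ f),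
    (normAlong ψ₁ (φ₁ u.1), normAlong ψ₂ (φ₂ u.2)),
    Pic0.degZeroCorrespondence φ₁ ψ₁ hφ₁ hψ₁ hFI₁ D₁,
    Pic0.degZeroCorrespondence φ₂ ψ₂ hφ₂ hψ₂ hFI₂ D₂, rfl, rfl, rfl, ⟨H.pos, ?_, ?_, ?_, ?_, ?_⟩,
    ?_, ?_⟩
  · exact normAlong_ne_zero ψ H₁.fin ((map_ne_zero φ).mpr H.ne_zero)
  · exact nsmul_correspondence_eq_ord φ ψ hφ hψ H₁.fin hN H.ne_zero H.div_eq
  · exact ⟨H₁.red hπ H.red.1, H₂.red hπ H.red.2⟩
  · exact normAlong_ne_zero ψ₁ H₁.fin₁ ((map_ne_zero φ₁).mpr H.ne₁)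
  · exact normAlong_ne_zero ψ₂ H₂.fin₁ ((map_ne_zero φ₂).mpr H.ne₂)
  · exact nsmul_correspondence_eq_ord φ₁ ψ₁ hφ₁ hψ₁ H₁.fin₁ hN₁ H.ne₁ h1
  · exact nsmul_correspondence_eq_ord φ₂ ψ₂ hφ₂ hψ₂ H₂.fin₁ hN₂ H.ne₂ h2

end TwoComponents

end Fermat.Agent.DR
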