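import Fermat.Agent.DR.S35.Provider
import Fermat.Agent.Mazur.TameTate

set_option autoImplicit false
set_option linter.unusedSectionVars false
set_option linter.style.haveILetI false

/-!
# The toric part of the Tate module of `J₀(N)`, `N` prime, at `N`

`nInput`: for `N` prime, `A ∣ N`, `φ` a Frobenius at `A`, `r ≠ N` prime there is
`Tor ⊆ T_r J₀(N)` with `Mazur.Tame.IsTor A φ Tor` and `φ² = N²` on `Tor`.
-/

noncomputable section

open AlgebraicCurve ModularCurve
open Fermat.Agent.JRED Fermat.Agent.RR Fermat.Agent.DR.Mod Fermat.Agent.DR.ModGal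
open Fermat.Agent.Tate Fermat.Agent.Mazur.Tame Fermat.Agent.JRED.ESGalois

namespace Fermat.Agent.DR.NInput

local notation "Qbar" => AlgebraicClosure ℚ
local notation "Γℚ" => (AlgebraicClosure ℚ ≃ₐ[ℚ] AlgebraicClosure ℚ)

section Abstract

variable {A : ValuationSubring Qbar} {φ : Γℚ} {r : ℕ} [hr : Fact r.Prime]
  {J : Type} [AddCommGroup J] [DistribMulAction Γℚ J]

/-- The compatible systems in `T k`, `k ∈ ℕ`. -/
def torZero (T : ℕ → AddSubgroup J) : Submodule ℤ_[r] (TateModule r J) where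
  carrier := {t | ∀ k, ev k t ∈ T k}
  zero_mem' k := by rw [map_zero]; exact (T k).zero_mem
  add_mem' {s t} hs ht k := by rw [map_add]; exact (T k).add_mem (hs k) (ht k)
  smul_mem' a t ht k := by rw [ev_smul']; exact (T k).nsmul_mem (ht k) _

/-- The saturation. -/
def torSat (T : ℕ → AddSubgroup J) : Submodule ℤ_[r] (TateModule r J) where
  carrier := {t | ∃ n : ℕ, n ≠ 0 ∧ n • t ∈ torZero T}
  zero_mem' := ⟨1, one_ne_zero, by rw [smul_zero]; exact (torZero T).zero_mem⟩
  add_mem' := by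
    rintro s t ⟨n, hn, h⟩ ⟨m, hm, h'⟩
    refine ⟨n * m, mul_ne_zero hn hm, ?_⟩
    rw [smul_add, mul_smul n m t, mul_comm, mul_smul m n s]
    exact (torZero T).add_mem ((torZero T).smul_of_tower_mem m h)
      ((torZero T).smul_of_tower_mem n h')
  smul_mem' := by
    rintro a t ⟨n, hn, h⟩
    refine ⟨n, hn, ?_⟩
    rw [smul_comm]
    exact (torZero T).smul_mem a h

theorem nsmul_injective' {n : ℕ} (hn : n ≠ 0) {t : TateModule r J} (h : n • t = 0) : t = 0 := by
  rw [← Nat.cast_smul_eq_nsmul ℤ_[r]] at h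
  exact eq_zero_of_smul_eq_zero (Nat.cast_ne_zero.mpr hn) h

theorem exists_isTor (T : ℕ → AddSubgroup J) {N : ℕ}
    (hfix : ∀ τ ∈ A.inertiaSubgroupIn ℚ, ∀ (k : ℕ), ∀ x ∈ T k, τ • x = x)
    (hquo : ∀ τ ∈ A.inertiaSubgroupIn ℚ, ∀ (k : ℕ) (x : J), r ^ k • x = 0 → τ • x - x ∈ T k)
    (hstable : ∀ (k : ℕ), ∀ x ∈ T k, φ • x ∈ T k)
    (hfrob : ∀ (k : ℕ) (x : J), r ^ k • x = 0 → φ • φ • x - x ∈ T k)
    (hsq : ∀ (k : ℕ), ∀ x ∈ T k, φ • φ • x = N • x) :
    ∃ Tor : Submodule ℤ_[r] (TateModule r J), IsTor A φ Tor ∧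
      ∀ t ∈ Tor, tact r J φ (tact r J φ t) = N • t := by
  refine ⟨torSat T, ⟨?_, ?_, ?_, ?_, ?_⟩, ?_⟩
  · rintro τ hτ t ⟨n, hn, h⟩
    rw [← sub_eq_zero]
    refine nsmul_injective' hn ?_
    rw [smul_sub, ← map_nsmul, sub_eq_zero]
    exact ext fun k => hfix τ hτ k _ (h k)
  · intro τ hτ t
    refine ⟨1, one_ne_zero, ?_⟩
    rw [one_smul]
    intro k
    rw [map_sub]
    exact hquo τ hτ k _ (pow_smul_ev t k)
  · rintro t ⟨n, hn, h⟩
    refine ⟨n, hn, ?_⟩
    rw [← map_nsmul]
    intro k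
    exact hstable k _ (h k)
  · intro t
    refine ⟨1, one_ne_zero, ?_⟩
    rw [one_smul]
    intro k
    rw [map_sub]
    exact hfrob k _ (pow_smul_ev t k)
  · rintro n hn t ⟨m, hm, h⟩
    exact ⟨m * n, mul_ne_zero hm hn, by rw [mul_smul]; exact h⟩
  · rintro t ⟨n, hn, h⟩
    rw [← sub_eq_zero]
    refine nsmul_injective' hn ?_
    have e1 : n • tact r J φ (tact r J φ t) = tact r J φ (tact r J φ (n • t)) := by
      rw [map_nsmul, map_nsmul]
    rw [smul_sub, e1, smul_comm n N t, sub_eq_zero]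
    refine ext fun k => ?_
    rw [map_nsmul (ev k) N (n • t)]
    exact hsq k _ (h k)

end Abstract

section Genus

theorem genusFF_bar_one : genusFF Qbar (modularFunctionFieldBar 1) = 0 := by
  have h := genusFF_bar_eq_genusFormula 1
  have h2 : nuTwo 1 = 1 := by
    rw [nuTwo, Nat.card_eq_one_iff_unique]
    exact ⟨inferInstance, ⟨⟨0, Subsingleton.elim _ _⟩⟩⟩
  have h3 : nuThree 1 = 1 := by
    rw [nuThree, Nat.card_eq_one_iff_unique]
    exact ⟨inferInstance, ⟨⟨0, Subsingleton.elim _ _⟩⟩⟩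
  rw [genusFormula, h2, h3, cuspCount_one, dedekindPsi_one] at h
  norm_num at h
  exact_mod_cast h

end Genus

section Modular

variable {M q r : ℕ} [NeZero M] [NeZero (M * q)] [hr : Fact r.Prime]

/-- If `X₀(M)` has genus zero and `q ∤ M`: the toric filtration of `J₀(Mq)` at `q`. -/
theorem exists_isTor_modular (hq : q.Prime) (hqr : q ≠ r) (hqM : ¬ q ∣ M)
    (hg : genusFF Qbar (modularFunctionFieldBar M) = 0)
    {B : ValuationSubring Qbar} (hB : B.LiesOverPrime q) {φ : Γℚ} (hφ : B.IsFrobeniusAt φ q) :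
    ∃ Tor : Submodule ℤ_[r] (TateModule r (JZero (M * q))), IsTor B φ Tor ∧
      ∀ t ∈ Tor, tact r (JZero (M * q)) φ (tact r (JZero (M * q)) φ t) = (q ^ 2) • t := by
  have hr' : r.Prime := hr.out
  have i0 : Fact q.Prime := ⟨hq⟩
  have hπ : Function.Surjective (IsLocalRing.residue B) := IsLocalRing.residue_surjective
  have i1 : CharP (IsLocalRing.ResidueField B) q := Mod.charP_of_liesOverPrime hπ hq hB
  have i2 : IsAlgClosed (IsLocalRing.ResidueField B) := isAlgClosed_of_surjective hπ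
  have i3 : ExpChar (IsLocalRing.ResidueField B) q := ExpChar.prime hq
  have hdeg : DegreeInput M (IsLocalRing.ResidueField B) :=
    degreeInput' (NeZero.ne M) hqM
  have hgood : GoodReduction M (IsLocalRing.ResidueField B) :=
    goodReduction hπ hq (NeZero.ne M) hqM
  have i4 := hdeg.functionField
  have i5 := hdeg.functionField'
  have i6 : FunctionField Qbar (modularFunctionFieldBar (M * q)) := functionField_bar (M * q)
  obtain ⟨w, -, Se⟩ := exists_setup_bar (M := M) (q := q) hπ hqM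
  obtain ⟨X, hX, -⟩ := exists_modular_nodalDatum hB hqM Se hdeg hgood
  obtain ⟨C, hfix, hN⟩ := isCompat_frob_sq Se hdeg hgood hX.eq₁ hX.eq₂ hX.shift hφ
  have hm : ∀ k : ℕ, 0 < r ^ k := fun k => pow_pos hr'.pos k
  have hmk : ∀ k : ℕ, ((r ^ k : ℕ) : IsLocalRing.ResidueField B) ≠ 0 := by
    intro k
    rw [Nat.cast_pow]
    refine pow_ne_zero _ fun h => hqr ?_
    rw [CharP.cast_eq_zero_iff _ q] at h
    exact (Nat.prime_dvd_prime_iff_eq hq hr').mp h
  -- the components have no torsion prime to `q`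
  have hzero : ∀ (k : ℕ) (y : Pic0 (IsLocalRing.ResidueField B)
      (modularFunctionFieldFullC (IsLocalRing.ResidueField B) M)), r ^ k • y = 0 → y = 0 := by
    intro k y hy
    have hcard := S35.card_torsion_res hπ hq hB
      (modularFunctionFieldFullC (IsLocalRing.ResidueField B) M) hr' hqr.symm k
    rw [← show genusFF Qbar (modularFunctionFieldBar M) =
      genusFF (IsLocalRing.ResidueField B)
        (modularFunctionFieldFullC (IsLocalRing.ResidueField B) M) from hgood, hg] at hcard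
    rw [mul_zero, zero_mul, pow_zero, Nat.card_eq_one_iff_unique] at hcard
    obtain ⟨hsub, -⟩ := hcard
    have := hsub.elim ⟨y, mem_torsion'.mpr hy⟩ ⟨0, AddSubgroup.zero_mem _⟩
    exact congrArg Subtype.val this
  have hspec : ∀ (k : ℕ) (x : JZero (M * q)), (∃ y₁ y₂, Spec X (r ^ k) x y₁ y₂) →
      InTorus X (r ^ k) x := by
    rintro k x ⟨y₁, y₂, h⟩
    obtain ⟨-, t1, t2⟩ := h.torsion
    rw [hzero k y₁ t1, hzero k y₂ t2] at h
    exact h.inTorus
  let T : ℕ → AddSubgroup (JZero (M * q)) := fun k =>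
    { carrier := {x | InTorus X (r ^ k) x}
      zero_mem' := (Spec.zero (hm k)).inTorus
      add_mem' := fun h h' => InTorus.add h h'
      neg_mem' := fun h => InTorus.neg hπ h }
  refine exists_isTor T ?_ ?_ ?_ ?_ ?_
  · intro τ hτ k x hx
    obtain ⟨a, ha, -, -⟩ := hX.shift
    have Cτ := isCompat_inertia hq Se X hX.eq₁ hX.eq₂ ha (isResidual_one_of_inertia hπ hτ)
    have h := Cτ.smul_torus hπ (hmk k) (fun s _ => one_smul _ _) (fun s _ => one_smul _ _)
      (N := 1) (fun c => by rw [pow_one]; rfl) hx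
    rw [one_smul] at h
    exact h
  · intro τ hτ k x hx
    obtain ⟨a, ha, -, -⟩ := hX.shift
    have Cτ := isCompat_inertia hq Se X hX.eq₁ hX.eq₂ ha (isResidual_one_of_inertia hπ hτ)
    exact hspec k _ (Cτ.exists_spec_sub hπ (fun s _ => one_smul _ _) (fun s _ => one_smul _ _)
      (hm k) hx)
  · intro k x hx
    have hres := isResidual_of_frobenius Se.surj hφ
      (frobeniusEquiv (IsLocalRing.ResidueField B) q) (fun x => rfl)
    have Cφ := isCompat_decomposition Se hX.eq₁ hX.eq₂ hX.shift hX.complete hres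
    exact InTorus.smul Cφ hx
  · intro k x hx
    have h := hspec k _ (C.exists_spec_sub hπ (fun s hs => (hfix s hs).1)
      (fun s hs => (hfix s hs).2) (hm k) hx)
    simp only [map_mul, mul_smul] at h
    exact h
  · intro k x hx
    have h := C.smul_torus hπ (hmk k) (fun s hs => (hfix s hs).1)
      (fun s hs => (hfix s hs).2) hN hx
    simp only [map_mul, mul_smul] at h
    exact h

end Modular

/-- **The `N`-input of S15.** -/
theorem nInput {N r : ℕ} [NeZero N] [hr : Fact r.Prime] (hN : N.Prime) (hNr : N ≠ r)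
    {B : ValuationSubring Qbar} (hB : B.LiesOverPrime N) {φ : Γℚ} (hφ : B.IsFrobeniusAt φ N) :
    ∃ Tor : Submodule ℤ_[r] (TateModule r (JZero N)), IsTor B φ Tor ∧
      ∀ t ∈ Tor, tact r (JZero N) φ (tact r (JZero N) φ t) = (N ^ 2) • t := by
  have key : ∀ (N' : ℕ) [NeZero N'], N' = 1 * N →
      ∃ Tor : Submodule ℤ_[r] (TateModule r (JZero N')), IsTor B φ Tor ∧
        ∀ t ∈ Tor, tact r (JZero N') φ (tact r (JZero N') φ t) = (N ^ 2) • t := by
    intro N' _ h
    subst h
    exact exists_isTor_modular hN hNr (fun h => hN.one_lt.ne' (Nat.dvd_one.mp h)) genusFF_bar_one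
      hB hφ
  exact key N (one_mul N).symm

end Fermat.Agent.DR.NInput
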