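import Fermat.Agent.ECRed.Close
import Fermat.Agent.ECRed.Seq
import Fermat.Agent.ECRed.Nodal
import Mathlib.Data.Nat.Prime.Basic

/-! # Torsion near a node in arbitrary residue characteristic

We consider curves `y² + a₁xy = x³ + a₂x² + a₄x` with `b₂` a unit and `a₄` a nonunit, and show that
if a `p`-torsion point is near the node (`v x < 1`), then some multiple `Q` of it satisfies
`v (x Q) ^ p = v a₄ ^ 2`.
-/

set_option autoImplicit false

namespace Fermat.Agent.DR.NodeTorsion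

open WeierstrassCurve WeierstrassCurve.Affine Polynomial
open Fermat.Agent.ECRed

section formulas

variable {K : Type*} [Field K] {W : WeierstrassCurve K}

/-- A Weierstrass curve of the form `y² + a₁xy = x³ + a₂x² + a₄x`. -/
structure IsNodeForm (W : WeierstrassCurve K) : Prop where
  a₃ : W.a₃ = 0
  a₆ : W.a₆ = 0

lemma nf_eq (hW : IsNodeForm W) {x y : K} (h : W.toAffine.Equation x y) :
    y ^ 2 + W.a₁ * x * y = x ^ 3 + W.a₂ * x ^ 2 + W.a₄ * x := by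
  have := (equation_iff _ _).mp h
  rw [hW.a₃, hW.a₆] at this
  linear_combination this

lemma nf_negY (hW : IsNodeForm W) (x y : K) : W.toAffine.negY x y = -y - W.a₁ * x := by
  rw [negY, hW.a₃]; ring

variable [DecidableEq K]

/-- Product formula for the abscissas of the sum and the difference. -/
lemma xc_add_mul_xc_sub (hW : IsNodeForm W) {P Q : W.toAffine.Point} (hP : P ≠ 0) (hQ : Q ≠ 0)
    (h1 : P ≠ Q) (h2 : P ≠ -Q) :
    xc (P + Q) * xc (P - Q) * (xc P - xc Q) ^ 2 = (xc P * xc Q - W.a₄) ^ 2 := by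
  rcases P with _ | ⟨x₁, y₁, h₁⟩
  · exact absurd rfl hP
  rcases Q with _ | ⟨x₂, y₂, h₂⟩
  · exact absurd rfl hQ
  have hx : x₁ ≠ x₂ := by
    intro hx
    rcases Point.X_eq_iff.mp hx with h | h
    · exact h1 h
    · exact h2 h
  have hd : x₁ - x₂ ≠ 0 := sub_ne_zero.mpr hx
  rw [sub_eq_add_neg (Point.some x₁ y₁ h₁), Point.neg_some, Point.add_of_X_ne hx,
    Point.add_of_X_ne hx, xc_some, xc_some, xc_some, xc_some, slope_of_X_ne hx,
    slope_of_X_ne hx, nf_negY hW, addX, addX]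
  have e₁ := nf_eq hW h₁.1
  have e₂ := nf_eq hW h₂.1
  obtain ⟨a, ha⟩ : ∃ a, a = W.toAffine.a₁ := ⟨_, rfl⟩
  obtain ⟨b, hb⟩ : ∃ a, a = W.toAffine.a₂ := ⟨_, rfl⟩
  obtain ⟨c, hc⟩ : ∃ a, a = W.toAffine.a₄ := ⟨_, rfl⟩
  rw [← ha, ← hb] at e₁ e₂
  rw [← hc] at e₁ e₂
  rw [← ha, ← hb, ← hc]
  have e3 : (((y₁ - y₂) / (x₁ - x₂)) ^ 2 + a * ((y₁ - y₂) / (x₁ - x₂)) - b - x₁ - x₂) =
      ((y₁ - y₂) ^ 2 + a * (y₁ - y₂) * (x₁ - x₂) - (x₁ - x₂) ^ 2 * (b + x₁ + x₂)) /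
        (x₁ - x₂) ^ 2 := by
    field_simp
    ring
  have e4 : (((y₁ - (-y₂ - a * x₂)) / (x₁ - x₂)) ^ 2 +
      a * ((y₁ - (-y₂ - a * x₂)) / (x₁ - x₂)) - b - x₁ - x₂) =
      ((y₁ - (-y₂ - a * x₂)) ^ 2 + a * (y₁ - (-y₂ - a * x₂)) * (x₁ - x₂) -
        (x₁ - x₂) ^ 2 * (b + x₁ + x₂)) / (x₁ - x₂) ^ 2 := by
    field_simp
    ring
  rw [e3, e4, div_mul_div_comm, div_mul_eq_mul_div, div_eq_iff (by positivity)]
  have h5 : ((y₁ - y₂) ^ 2 + a * (y₁ - y₂) * (x₁ - x₂) - (x₁ - x₂) ^ 2 * (b + x₁ + x₂)) *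
      ((y₁ - (-y₂ - a * x₂)) ^ 2 + a * (y₁ - (-y₂ - a * x₂)) * (x₁ - x₂) -
        (x₁ - x₂) ^ 2 * (b + x₁ + x₂)) = (x₁ * x₂ - c) ^ 2 * (x₁ - x₂) ^ 2 := by
    obtain ⟨f₁, hf₁⟩ : ∃ f, f = x₁ ^ 3 + b * x₁ ^ 2 + c * x₁ := ⟨_, rfl⟩
    obtain ⟨f₂, hf₂⟩ : ∃ f, f = x₂ ^ 3 + b * x₂ ^ 2 + c * x₂ := ⟨_, rfl⟩
    obtain ⟨D, hD⟩ : ∃ D, D = (x₁ - x₂) ^ 2 * (b + x₁ + x₂) := ⟨_, rfl⟩
    rw [← hf₁] at e₁
    rw [← hf₂] at e₂
    have g1 : (y₁ - y₂) ^ 2 + a * (y₁ - y₂) * (x₁ - x₂) - (x₁ - x₂) ^ 2 * (b + x₁ + x₂) =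
        (f₁ + f₂ - D) - (2 * y₁ * y₂ + a * x₂ * y₁ + a * x₁ * y₂) := by
      rw [← e₁, ← e₂, hD]; ring
    have g2 : (y₁ - (-y₂ - a * x₂)) ^ 2 + a * (y₁ - (-y₂ - a * x₂)) * (x₁ - x₂) -
        (x₁ - x₂) ^ 2 * (b + x₁ + x₂) =
        (f₁ + f₂ - D) + (2 * y₁ * y₂ + a * x₂ * y₁ + a * x₁ * y₂) + a ^ 2 * x₁ * x₂ := by
      rw [← e₁, ← e₂, hD]; ring
    have g3 : (2 * y₁ * y₂ + a * x₂ * y₁ + a * x₁ * y₂) ^ 2 +
        a ^ 2 * x₁ * x₂ * (2 * y₁ * y₂ + a * x₂ * y₁ + a * x₁ * y₂) =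
        4 * f₁ * f₂ + a ^ 2 * (f₁ * x₂ ^ 2 + f₂ * x₁ ^ 2) := by
      rw [← e₁, ← e₂]; ring
    rw [g1, g2]
    have g4 : ((f₁ + f₂ - D) - (2 * y₁ * y₂ + a * x₂ * y₁ + a * x₁ * y₂)) *
        ((f₁ + f₂ - D) + (2 * y₁ * y₂ + a * x₂ * y₁ + a * x₁ * y₂) + a ^ 2 * x₁ * x₂) =
        (f₁ + f₂ - D) ^ 2 + a ^ 2 * x₁ * x₂ * (f₁ + f₂ - D) -
        (4 * f₁ * f₂ + a ^ 2 * (f₁ * x₂ ^ 2 + f₂ * x₁ ^ 2)) := by
      rw [← g3]; ring
    rw [g4, hf₁, hf₂, hD]; ring
  rw [h5]; ring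

/-- Duplication formula. -/
lemma xc_two (hW : IsNodeForm W) {P : W.toAffine.Point} (hP : P ≠ 0) (h2 : P + P ≠ 0) :
    xc (P + P) * (xc P * (4 * xc P ^ 2 + (W.a₁ ^ 2 + 4 * W.a₂) * xc P + 4 * W.a₄)) =
      (xc P ^ 2 - W.a₄) ^ 2 := by
  rcases P with _ | ⟨x, y, h⟩
  · exact absurd rfl hP
  have e := nf_eq hW h.1
  have hy : y ≠ W.toAffine.negY x y := by
    intro hy
    exact h2 (Point.add_self_of_Y_eq hy)
  rw [Point.add_self_of_Y_ne hy, xc_some, xc_some, slope_of_Y_ne rfl hy, nf_negY hW, addX]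
  rw [nf_negY hW] at hy
  have hy2 : y - (-y - W.a₁ * x) ≠ 0 := sub_ne_zero.mpr hy
  obtain ⟨a, ha⟩ : ∃ a, a = W.toAffine.a₁ := ⟨_, rfl⟩
  obtain ⟨b, hb⟩ : ∃ a, a = W.toAffine.a₂ := ⟨_, rfl⟩
  obtain ⟨c, hc⟩ : ∃ a, a = W.toAffine.a₄ := ⟨_, rfl⟩
  rw [← ha] at hy2
  rw [← ha, ← hb, ← hc] at e
  rw [← ha, ← hb, ← hc]
  have e4 : x * (4 * x ^ 2 + (a ^ 2 + 4 * b) * x + 4 * c) = (y - (-y - a * x)) ^ 2 := by
    linear_combination -4 * e
  rw [e4]
  have e5 : ∀ N d A : K, d ≠ 0 → ((N / d) ^ 2 + a * (N / d) - A) * d ^ 2 =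
      N ^ 2 + a * N * d - A * d ^ 2 := by
    intro N d A hd
    field_simp
  rw [sub_sub, sub_sub, e5 _ _ _ hy2]
  linear_combination (-(a ^ 2) - 4 * b - 8 * x) * e

end formulas

section val

variable {K Γ₀ : Type*} [Field K] [LinearOrderedCommGroupWithZero Γ₀] {v : Valuation K Γ₀}
variable {W : WeierstrassCurve K}

variable [DecidableEq K]

/-- The doubling function has no pole problem: if `1 ≤ v x(P)` then `1 ≤ v x(2P)`. -/
lemma one_le_xc_two_of_one_le (hI : IntCoeff v W) (hW : IsNodeForm W) (h4 : v W.a₄ < 1)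
    {P : W.toAffine.Point} (hP : P ≠ 0) (h2P : P + P ≠ 0) (hx1 : v (xc P) = 1) :
    1 ≤ v (xc (P + P)) := by
  have h := xc_two hW hP h2P
  have h5 : v (xc P ^ 2 - W.a₄) = 1 := by
    rw [v.map_sub_eq_of_lt_left]
    · rw [map_pow, hx1, one_pow]
    · rw [map_pow, hx1, one_pow]; exact h4
  have h44 : v (4 : K) ≤ 1 := by simpa using v_nat_le_one (v := v) 4
  have hb : v (W.a₁ ^ 2 + 4 * W.a₂) ≤ 1 :=
    v.map_add_le (by simpa using v_pow_le hI.a₁ 2) (v_imul_le h44 hI.a₂)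
  have h6 : v (xc P * (4 * xc P ^ 2 + (W.a₁ ^ 2 + 4 * W.a₂) * xc P + 4 * W.a₄)) ≤ 1 := by
    refine v_imul_le hx1.le (v.map_add_le (v.map_add_le ?_ ?_) ?_)
    · exact v_imul_le h44 (by simpa using v_pow_le hx1.le 2)
    · exact v_imul_le hb hx1.le
    · exact v_imul_le h44 h4.le
  have h7 := congrArg v h
  rw [map_mul, map_pow, h5, one_pow] at h7
  by_contra hcon
  push Not at hcon
  have h8 : v (xc (P + P)) *
      v (xc P * (4 * xc P ^ 2 + (W.a₁ ^ 2 + 4 * W.a₂) * xc P + 4 * W.a₄)) < 1 := by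
    calc _ ≤ v (xc (P + P)) * 1 := mul_le_mul_right h6 _
      _ = v (xc (P + P)) := mul_one _
      _ < 1 := hcon
  rw [h7] at h8
  exact lt_irrefl _ h8

/-- If a point near the node is too close to it, then its double is not near the node. -/
lemma one_le_xc_two (hI : IntCoeff v W) (hW : IsNodeForm W) (h4 : v W.a₄ < 1) (h40 : W.a₄ ≠ 0)
    {P : W.toAffine.Point} (hP : P ≠ 0) (h2P : P + P ≠ 0) (hx : v (xc P) ≤ v W.a₄) :
    1 ≤ v (xc (P + P)) := by
  have h := xc_two hW hP h2P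
  have hμ : 0 < v W.a₄ := by rwa [Valuation.pos_iff]
  have h5 : v (xc P ^ 2 - W.a₄) = v W.a₄ := by
    apply v.map_sub_eq_of_lt_right
    rw [map_pow, sq]
    calc v (xc P) * v (xc P) ≤ v W.a₄ * v W.a₄ := mul_le_mul' hx hx
      _ < v W.a₄ * 1 := mul_lt_mul_of_pos_left h4 hμ
      _ = v W.a₄ := mul_one _
  have h44 : v (4 : K) ≤ 1 := by simpa using v_nat_le_one (v := v) 4
  have hb : v (W.a₁ ^ 2 + 4 * W.a₂) ≤ 1 :=
    v.map_add_le (by simpa using v_pow_le hI.a₁ 2) (v_imul_le h44 hI.a₂)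
  have h6 : v (xc P * (4 * xc P ^ 2 + (W.a₁ ^ 2 + 4 * W.a₂) * xc P + 4 * W.a₄)) ≤ v W.a₄ ^ 2 := by
    rw [sq (v W.a₄)]
    refine v_mul_le hx (v.map_add_le (v.map_add_le ?_ ?_) ?_)
    · rw [sq]; exact v_imul_le h44 (v_imul_le (hx.trans h4.le) hx)
    · exact v_imul_le hb hx
    · exact v_imul_le h44 le_rfl
  have h7 : v W.a₄ ^ 2 ≤ v (xc (P + P)) * v W.a₄ ^ 2 := by
    calc v W.a₄ ^ 2 = v ((xc P ^ 2 - W.a₄) ^ 2) := by rw [map_pow, h5]
      _ = v (xc (P + P)) *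
          v (xc P * (4 * xc P ^ 2 + (W.a₁ ^ 2 + 4 * W.a₂) * xc P + 4 * W.a₄)) := by
          rw [← h, map_mul]
      _ ≤ _ := mul_le_mul_right h6 _
  by_contra hcon
  push Not at hcon
  have := mul_lt_mul_of_pos_right hcon (pow_pos hμ 2)
  rw [one_mul] at this
  exact absurd h7 (not_le.mpr this)

/-- Main theorem near a node. -/
theorem exists_xc_pow_eq (hI : IntCoeff v W) (hW : IsNodeForm W)
    (h2 : v (W.a₁ ^ 2 + 4 * W.a₂) = 1) (h4 : v W.a₄ < 1) (h40 : W.a₄ ≠ 0)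
    {p : ℕ} (hp : p.Prime) (hp3 : 3 ≤ p) (hvp : v (p : K) = 1)
    {P : W.toAffine.Point} (hP : p • P = 0) (hP0 : P ≠ 0) (hP1 : v (xc P) < 1) :
    ∃ k : ℕ, k • P ≠ 0 ∧ v (xc (k • P)) ^ p = v W.a₄ ^ 2 := by
  have hμ : 0 < v W.a₄ := by rwa [Valuation.pos_iff]
  have h44 : v (4 : K) ≤ 1 := by simpa using v_nat_le_one (v := v) 4
  -- multiples
  have hord' : ∀ R : W.toAffine.Point, p • R = 0 → R ≠ 0 → ∀ k, 1 ≤ k → k < p → k • R ≠ 0 := by
    intro R hR hR0 k hk1 hkp h0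
    have hord := addOrderOf_eq_prime hR hR0 (hp := ⟨hp⟩)
    have := addOrderOf_dvd_of_nsmul_eq_zero h0
    rw [hord] at this
    exact absurd (Nat.le_of_dvd (by omega) this) (by omega)
  have hord := hord' P hP hP0
  have htor : ∀ k : ℕ, p • (k • P) = 0 := by
    intro k; rw [smul_comm, hP, smul_zero]
  have hint : ∀ R : W.toAffine.Point, p • R = 0 → v (xc R) ≤ 1 := by
    intro R hR
    rcases R with _ | ⟨x, y, h⟩
    · change v (xc (0 : W.toAffine.Point)) ≤ 1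
      rw [xc_zero, map_zero]; exact zero_le
    · exact (v_le_one_of_torsion hI h hvp hR).1
  -- distinctness
  have hne' : ∀ R : W.toAffine.Point, p • R = 0 → R ≠ 0 → ∀ k, 2 ≤ k → k + 1 < p →
      k • R ≠ R ∧ k • R ≠ -R := by
    intro R hR hR0 k hk1 hkp
    constructor
    · intro h
      apply hord' R hR hR0 (k - 1) (by omega) (by omega)
      obtain ⟨j, rfl⟩ : ∃ j, k = j + 1 := ⟨k - 1, by omega⟩
      rw [succ_nsmul] at h
      rw [Nat.add_sub_cancel]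
      exact left_eq_add.mp (by rw [add_comm] at h; exact h.symm)
    · intro h
      apply hord' R hR hR0 (k + 1) (by omega) (by omega)
      rw [succ_nsmul, h, neg_add_cancel]
  -- the recursion
  have hrec' : ∀ R : W.toAffine.Point, p • R = 0 → R ≠ 0 → ∀ k, 2 ≤ k → k + 1 < p →
      xc ((k + 1) • R) * xc ((k - 1) • R) * (xc (k • R) - xc R) ^ 2 =
        (xc (k • R) * xc R - W.a₄) ^ 2 := by
    intro R hR hR0 k hk1 hkp
    obtain ⟨h1, h3⟩ := hne' R hR hR0 k hk1 hkp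
    have h := xc_add_mul_xc_sub hW (hord' R hR hR0 k (by omega) (by omega)) hR0 h1 h3
    have e1 : k • R + R = (k + 1) • R := (succ_nsmul R k).symm
    have e2 : k • R - R = (k - 1) • R := by
      obtain ⟨j, rfl⟩ : ∃ j, k = j + 1 := ⟨k - 1, by omega⟩
      rw [succ_nsmul, Nat.add_sub_cancel, add_sub_cancel_right]
    rwa [e1, e2] at h
  -- points away from the node
  have haway : ∀ R : W.toAffine.Point, p • R = 0 → R ≠ 0 → v (xc R) = 1 →
      ∀ k, 1 ≤ k → k < p → v (xc (k • R)) = 1 := by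
    intro R hR hR0 hR1 k
    have htorR : ∀ k : ℕ, v (xc (k • R)) ≤ 1 := by
      intro k; exact hint _ (by rw [smul_comm, hR, smul_zero])
    induction k using Nat.strong_induction_on with
    | _ k ih =>
      intro hk1 hkp
      rcases Nat.lt_or_ge k 2 with hk | hk
      · obtain rfl : k = 1 := by omega
        rwa [one_smul]
      rcases Nat.lt_or_ge k 3 with hk | hk
      · obtain rfl : k = 2 := by omega
        refine le_antisymm (htorR 2) ?_
        rw [two_nsmul]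
        exact one_le_xc_two_of_one_le hI hW h4 hR0
          (by rw [← two_nsmul]; exact hord' R hR hR0 2 (by omega) hkp) hR1
      · obtain ⟨m, rfl⟩ : ∃ m, k = m + 1 := ⟨k - 1, by omega⟩
        have hm := ih m (by omega) (by omega) (by omega)
        have hm1 := ih (m - 1) (by omega) (by omega) (by omega)
        have h := congrArg v (hrec' R hR hR0 m (by omega) hkp)
        have e1 : v (xc (m • R) * xc R - W.a₄) = 1 := by
          rw [v.map_sub_eq_of_lt_left]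
          · rw [map_mul, hm, hR1, one_mul]
          · rw [map_mul, hm, hR1, one_mul]; exact h4
        have e2 : v (xc (m • R) - xc R) ≤ 1 := v.map_sub_le (htorR m) hR1.le
        rw [map_mul, map_mul, map_pow, map_pow, e1, hm1, mul_one, one_pow] at h
        refine le_antisymm (htorR _) ?_
        by_contra hcon
        push Not at hcon
        have : v (xc ((m + 1) • R)) * v (xc (m • R) - xc R) ^ 2 < 1 := by
          calc _ ≤ v (xc ((m + 1) • R)) * 1 :=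
                mul_le_mul_right (pow_le_one₀ zero_le e2) _
            _ = v (xc ((m + 1) • R)) := mul_one _
            _ < 1 := hcon
        rw [h] at this
        exact lt_irrefl _ this
  have hns : ∀ k, 1 ≤ k → k < p → v (xc (k • P)) < 1 := by
    intro k hk1 hkp
    refine lt_of_le_of_ne (hint _ (htor k)) ?_
    intro hk
    have hcop : Nat.Coprime k p := by
      rw [Nat.coprime_comm]
      exact (Nat.Prime.coprime_iff_not_dvd hp).mpr fun h => by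
        exact absurd (Nat.le_of_dvd (by omega) h) (by omega)
    obtain ⟨m, hmp, hm⟩ := Nat.exists_mul_mod_eq_one_of_coprime hcop (by omega)
    have hPm : P = m • (k • P) := by
      rw [← mul_smul, mul_comm, ← Nat.div_add_mod (k * m) p, hm, add_smul, mul_smul,
        one_smul, smul_comm, hP, smul_zero, zero_add]
    have hm0 : 1 ≤ m := by
      rcases Nat.eq_zero_or_pos m with h | h
      · rw [h, mul_zero, Nat.zero_mod] at hm; omega
      · exact h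
    have := haway (k • P) (htor k) (hord k hk1 hkp) hk m hm0 hmp
    rw [← hPm] at this
    exact hP1.ne this
  have hgt : ∀ k, 1 ≤ k → k < p → v W.a₄ < v (xc (k • P)) := by
    intro k hk1 hkp
    by_contra hle
    push Not at hle
    have hcop : ¬ p ∣ 2 * k := by
      intro h
      rcases hp.dvd_mul.mp h with h | h
      · exact absurd (Nat.le_of_dvd (by omega) h) (by omega)
      · exact absurd (Nat.le_of_dvd (by omega) h) (by omega)
    have hmod : 1 ≤ (2 * k) % p := by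
      rw [Nat.one_le_iff_ne_zero]
      intro h; exact hcop (Nat.dvd_of_mod_eq_zero h)
    have h2k : k • P + k • P = ((2 * k) % p) • P := by
      rw [← two_nsmul, ← mul_smul]
      conv_lhs => rw [← Nat.div_add_mod (2 * k) p, add_smul, mul_comm, mul_smul, hP, smul_zero,
        zero_add]
    have hlt := Nat.mod_lt (2 * k) (show 0 < p by omega)
    have h1 := one_le_xc_two hI hW h4 h40 (hord k hk1 hkp)
      (by rw [h2k]; exact hord _ hmod hlt) hle
    rw [h2k] at h1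
    exact absurd (hns _ hmod hlt) (not_lt.mpr h1)
  -- choose a multiple with maximal valuation
  obtain ⟨k₀, hk₀, hmax⟩ := Finset.exists_max_image (Finset.Ico 1 p) (fun k => v (xc (k • P)))
    ⟨1, by simp; omega⟩
  rw [Finset.mem_Ico] at hk₀
  refine ⟨k₀, hord k₀ hk₀.1 hk₀.2, ?_⟩
  obtain ⟨Q, hQ⟩ : ∃ Q, Q = k₀ • P := ⟨_, rfl⟩
  rw [← hQ] at hmax ⊢
  -- multiples of Q
  have hmul : ∀ k, 1 ≤ k → k < p → ∃ j, 1 ≤ j ∧ j < p ∧ k • Q = j • P := by
    intro k hk1 hkp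
    refine ⟨(k * k₀) % p, ?_, Nat.mod_lt _ (by omega), ?_⟩
    · rw [Nat.one_le_iff_ne_zero]
      intro h
      rcases hp.dvd_mul.mp (Nat.dvd_of_mod_eq_zero h) with h | h
      · exact absurd (Nat.le_of_dvd (by omega) h) (by omega)
      · exact absurd (Nat.le_of_dvd (by omega) h) (by omega)
    · rw [hQ, ← mul_smul]
      conv_lhs => rw [← Nat.div_add_mod (k * k₀) p, add_smul, mul_comm, mul_smul, hP, smul_zero,
        zero_add]
  have hQt : p • Q = 0 := by rw [hQ]; exact htor k₀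
  have hQ0 : Q ≠ 0 := by rw [hQ]; exact hord k₀ hk₀.1 hk₀.2
  have h1Q : (1 : ℕ) • Q = Q := one_smul _ _
  have hQ1 : v (xc Q) < 1 := by rw [hQ]; exact hns k₀ hk₀.1 hk₀.2
  have hQμ : v W.a₄ < v (xc Q) := by rw [hQ]; exact hgt k₀ hk₀.1 hk₀.2
  have hx0 : 0 < v (xc Q) := hμ.trans hQμ
  have hseq := seq_lemma (v := v) (x := fun k => xc (k • Q)) (a := W.a₄) hp3 ?_ hμ ?_ ?_ ?_
  · simpa only [one_smul] using hseq
  · intro k hk1 hkp
    simp only [one_smul]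
    obtain ⟨j, hj1, hjp, hj⟩ := hmul k hk1 hkp
    rw [hj]
    refine ⟨hgt j hj1 hjp, hns j hj1 hjp, hmax j ?_⟩
    rw [Finset.mem_Ico]; exact ⟨hj1, hjp⟩
  · -- duplication
    simp only [one_smul]
    have hQQ : Q + Q = 2 • Q := (two_nsmul Q).symm
    have h := xc_two hW hQ0 (by rw [hQQ]; exact hord' Q hQt hQ0 2 (by omega) (by omega))
    rw [hQQ] at h
    have hx2 : v (4 * xc Q ^ 2) < v (xc Q) := by
      rw [map_mul]
      calc v 4 * v (xc Q ^ 2) ≤ 1 * v (xc Q ^ 2) := mul_le_mul_left h44 _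
        _ = v (xc Q) * v (xc Q) := by rw [one_mul, map_pow, sq]
        _ < v (xc Q) := by simpa using mul_lt_mul_of_pos_left hQ1 hx0
    have hx4 : v (4 * W.a₄) < v (xc Q) := lt_of_le_of_lt (v_imul_le h44 le_rfl) hQμ
    have e2 : v (4 * xc Q ^ 2 + (W.a₁ ^ 2 + 4 * W.a₂) * xc Q + 4 * W.a₄) = v (xc Q) := by
      have e3 : 4 * xc Q ^ 2 + (W.a₁ ^ 2 + 4 * W.a₂) * xc Q + 4 * W.a₄ =
        (W.a₁ ^ 2 + 4 * W.a₂) * xc Q + (4 * xc Q ^ 2 + 4 * W.a₄) := by ring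
      rw [e3, v.map_add_eq_of_lt_left, map_mul, h2, one_mul]
      rw [map_mul, h2, one_mul]
      exact v.map_add_lt hx2 hx4
    have h5 := congrArg v h
    rwa [map_mul, map_mul, e2, map_pow, ← sq] at h5
  · intro k hk1 hkp
    simp only [one_smul]
    have := congrArg v (hrec' Q hQt hQ0 k hk1 hkp)
    rwa [map_mul, map_mul, map_pow, map_pow] at this
  · simp only [one_smul]
    have : (p - 1) • Q = -Q := by
      have h := hQt
      obtain ⟨j, rfl⟩ : ∃ j, p = j + 1 := ⟨p - 1, by omega⟩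
      rw [succ_nsmul] at h
      rw [Nat.add_sub_cancel]
      exact eq_neg_of_add_eq_zero_left h
    rw [this, xc_neg]

end val

end Fermat.Agent.DR.NodeTorsion
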