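import Fermat.Agent.JRED.RedDatum
import Fermat.Prelude.Def_AlgebraicCurve_Correspondence

set_option autoImplicit false

/-!
# Norms are compatible with reduction (piece A7, abstract part)

`R : F ⇝ F'`, `S : L ⇝ L'` reduction data, `L/F`, `L'/F'` finite extensions of the same degree,
`S` extends `R` and has all of `L'` as residue field.  Then `N_{L/F}` reduces to `N_{L'/F'}`.
-/

noncomputable section

open AlgebraicCurve Fermat.Agent.JRED

namespace Fermat.Agent.DR

section Alg

variable {K k : Type*} [Field K] [Field k] {A : ValuationSubring K} {π : A →+* k}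
  {F F' L L' : Type*} [Field F] [Field F'] [Field L] [Field L'] [Algebra K F] [Algebra k F']
  [Algebra K L] [Algebra k L'] [Algebra F L] [Algebra F' L'] [IsScalarTower K F L]
  [IsScalarTower k F' L']

/-- `S` extends `R`. -/
def RedExt (R : RedDatum K F k F' A π) (S : RedDatum K L k L' A π) : Prop :=
  ∀ (w : F) (u : F'), R.Red w u → S.Red (algebraMap F L w) (algebraMap F' L' u)

variable {R : RedDatum K F k F' A π} {S : RedDatum K L k L' A π}

/-- A common normalisation of a finite family. -/
theorem exists_normalize_family (hπ : Function.Surjective π) {ι : Type*} [Fintype ι] (a : ι → F)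
    (ha : a ≠ 0) : ∃ (c : K) (abar : ι → F'), c ≠ 0 ∧ abar ≠ 0 ∧
      ∀ i, R.Red (algebraMap K F c * a i) (abar i) := by
  classical
  have h1 : ∀ i, ∃ (c : K) (u : F'), c ≠ 0 ∧ u ≠ 0 ∧ (a i ≠ 0 → R.Red (algebraMap K F c * a i) u) := by
    intro i
    by_cases hi : a i = 0
    · exact ⟨1, 1, one_ne_zero, one_ne_zero, fun h => absurd hi h⟩
    · obtain ⟨c, hc, u, hu, h⟩ := R.normalize (a i) hi
      exact ⟨c, u, hc, hu, fun _ => h⟩
  choose c u hc hu hred using h1
  obtain ⟨j, hj⟩ := Function.ne_iff.mp ha
  obtain ⟨i₀, hi₀, hmin⟩ := Finset.exists_min_image (Finset.univ.filter fun i => a i ≠ 0)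
    (fun i => A.valuation (c i)) ⟨j, by simpa using hj⟩
  have hi₀' : a i₀ ≠ 0 := by simpa using hi₀
  have h2 : ∀ i, ∃ v : F', R.Red (algebraMap K F (c i₀) * a i) v ∧ (i = i₀ → v ≠ 0) := by
    intro i
    by_cases hi : a i = 0
    · refine ⟨0, ?_, ?_⟩
      · rw [hi, mul_zero]; exact R.zero
      · rintro rfl; exact absurd hi hi₀'
    · by_cases hii : i = i₀
      · subst hii
        exact ⟨u i, hred i hi, fun _ => hu i⟩
      · have h3 : c i₀ / c i ∈ A := by
          rw [← A.valuation_le_one_iff, map_div₀]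
          exact div_le_one_of_le₀ (hmin i (by simpa using hi)) zero_le
        have h4 := RedDatum.smul_mem h3 (hred i hi)
        rw [← mul_assoc, ← map_mul, div_mul_cancel₀ _ (hc i)] at h4
        exact ⟨_, h4, fun h => absurd h hii⟩
  choose v hv hv' using h2
  exact ⟨c i₀, v, hc i₀, Function.ne_iff.mpr ⟨i₀, hv' i₀ rfl⟩, hv⟩

variable (hπ : Function.Surjective π) (hRS : RedExt R S)

omit [IsScalarTower K F L] [IsScalarTower k F' L'] in
theorem red_sum_ext (hRS : RedExt R S) {ι : Type*} [Fintype ι] {b : ι → L} {b' : ι → L'}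
    (hb : ∀ i, S.Red (b i) (b' i)) {a : ι → F} {abar : ι → F'} (ha : ∀ i, R.Red (a i) (abar i)) :
    S.Red (∑ i, a i • b i) (∑ i, abar i • b' i) :=
  RedDatum.sum fun i _ => by
    rw [Algebra.smul_def, Algebra.smul_def]
    exact S.mul (hRS _ _ (ha i)) (hb i)

include hπ hRS in
/-- coefficients of an integral element are integral -/
theorem coeff_red {ι : Type*} [Fintype ι] {b : ι → L} {b' : ι → L'}
    (hb : ∀ i, S.Red (b i) (b' i)) (hli : LinearIndependent F' b') {a : ι → F} {v : L'}
    (h : S.Red (∑ i, a i • b i) v) : ∃ abar : ι → F', ∀ i, R.Red (a i) (abar i) := by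
  by_cases ha : a = 0
  · exact ⟨0, fun i => by rw [ha]; exact R.zero⟩
  obtain ⟨c, abar, hc, hne, hred⟩ := exists_normalize_family (R := R) hπ a ha
  have h1 := red_sum_ext hRS hb hred
  have h2 : ∑ i, (algebraMap K F c * a i) • b i = algebraMap K L c * ∑ i, a i • b i := by
    rw [Finset.mul_sum]
    refine Finset.sum_congr rfl fun i _ => ?_
    rw [Algebra.smul_def, Algebra.smul_def, map_mul, ← IsScalarTower.algebraMap_apply, mul_assoc]
  rw [h2] at h1
  by_cases hcA : c⁻¹ ∈ A
  · refine ⟨fun i => algebraMap k F' (π ⟨c⁻¹, hcA⟩) * abar i, fun i => ?_⟩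
    have h3 := RedDatum.smul_mem hcA (hred i)
    rwa [← mul_assoc, ← map_mul, inv_mul_cancel₀ hc, map_one, one_mul] at h3
  · exfalso
    obtain ⟨hi, h0⟩ := res_inv_eq_zero (π := π) hπ hcA
    have h3 := RedDatum.smul_mem hi h
    rw [h0, map_zero, zero_mul] at h3
    have h4 : (⟨c⁻¹⁻¹, hi⟩ : A) = ⟨c, by simpa using hi⟩ := Subtype.ext (inv_inv c)
    rw [inv_inv] at h3
    have h5 := S.unique h1 h3
    apply hne
    funext i
    exact Fintype.linearIndependent_iff.mp hli abar h5 i

include hπ hRS in
theorem linearIndependent_of_red {ι : Type*} [Fintype ι] {b : ι → L} {b' : ι → L'}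
    (hb : ∀ i, S.Red (b i) (b' i)) (hli : LinearIndependent F' b') : LinearIndependent F b := by
  rw [Fintype.linearIndependent_iff]
  intro a h0
  by_contra hne
  have ha : a ≠ 0 := fun h => hne fun i => congrFun h i
  obtain ⟨c, abar, hc, hne', hred⟩ := exists_normalize_family (R := R) hπ a ha
  have h1 := red_sum_ext hRS hb hred
  have h2 : ∑ i, (algebraMap K F c * a i) • b i = algebraMap K L c * ∑ i, a i • b i := by
    rw [Finset.mul_sum]
    refine Finset.sum_congr rfl fun i _ => ?_
    rw [Algebra.smul_def, Algebra.smul_def, map_mul, ← IsScalarTower.algebraMap_apply, mul_assoc]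
  rw [h2, h0, mul_zero] at h1
  have h5 := S.unique h1 S.zero
  apply hne'
  funext i
  exact Fintype.linearIndependent_iff.mp hli abar h5 i

theorem red_prod {ι : Type*} {s : Finset ι} {w : ι → F} {u : ι → F'}
    (h : ∀ i ∈ s, R.Red (w i) (u i)) : R.Red (∏ i ∈ s, w i) (∏ i ∈ s, u i) := by
  classical
  induction s using Finset.induction_on with
  | empty => simpa using R.one
  | insert a s ha ih =>
    rw [Finset.prod_insert ha, Finset.prod_insert ha]
    exact R.mul (h a (Finset.mem_insert_self a s))
      (ih fun i hi => h i (Finset.mem_insert_of_mem hi))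

theorem red_det {ι : Type*} [Fintype ι] [DecidableEq ι] {M : Matrix ι ι F} {M' : Matrix ι ι F'}
    (h : ∀ i j, R.Red (M i j) (M' i j)) : R.Red M.det M'.det := by
  rw [Matrix.det_apply', Matrix.det_apply']
  refine RedDatum.sum fun σ _ => ?_
  refine R.mul ?_ (red_prod fun i _ => h _ _)
  have := R.const ((Equiv.Perm.sign σ : ℤ) : A)
  simpa using this

include hπ hRS in
/-- **Norms are compatible with reduction.** -/
theorem RedExt.norm [FiniteDimensional F L] [FiniteDimensional F' L']
    (hs : ∀ v : L', ∃ y, S.Red y v) (hn : Module.finrank F L = Module.finrank F' L') {y : L}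
    {ybar : L'} (hy : S.Red y ybar) : R.Red (Algebra.norm F y) (Algebra.norm F' ybar) := by
  classical
  let b' := Module.finBasis F' L'
  choose b hb using fun i => hs (b' i)
  have hli := linearIndependent_of_red hπ hRS hb b'.linearIndependent
  have hcard : Fintype.card (Fin (Module.finrank F' L')) = Module.finrank F L := by
    rw [Fintype.card_fin, hn]
  let B := basisOfLinearIndependentOfCardEqFinrank' b hli hcard
  have hB : ∀ i, B i = b i := fun i => by
    simp [B]
  rw [Algebra.norm_eq_matrix_det B, Algebra.norm_eq_matrix_det b']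
  refine red_det fun i j => ?_
  rw [Algebra.leftMulMatrix_eq_repr_mul, Algebra.leftMulMatrix_eq_repr_mul]
  have h1 : S.Red (∑ i, (B.repr (y * B j) i) • b i) (ybar * b' j) := by
    have e : ∑ i, (B.repr (y * B j) i) • b i = y * B j := by
      have := B.sum_repr (y * B j)
      simpa [hB] using this
    rw [e, hB]
    exact S.mul hy (hb j)
  obtain ⟨abar, habar⟩ := coeff_red hπ hRS hb b'.linearIndependent h1
  have h2 := S.unique h1 (red_sum_ext hRS hb habar)
  have h3 : ∀ i, b'.repr (ybar * b' j) i = abar i := by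
    intro i
    rw [h2, b'.repr_sum_self]
  rw [h3]
  exact habar i

end Alg

section Along

variable {K k : Type*} [Field K] [Field k] {A : ValuationSubring K} {π : A →+* k}
  {F F' L L' : Type*} [Field F] [Field F'] [Field L] [Field L'] [Algebra K F] [Algebra k F']
  [Algebra K L] [Algebra k L'] {R : RedDatum K F k F' A π} {S : RedDatum K L k L' A π}

/-- `S` extends `R` along `φ`, `ψ`. -/
def RedAlong (R : RedDatum K F k F' A π) (S : RedDatum K L k L' A π) (φ : F →ₐ[K] L)
    (ψ : F' →ₐ[k] L') : Prop :=
  ∀ (w : F) (u : F'), R.Red w u → S.Red (φ w) (ψ u)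

/-- **Norms along maps are compatible with reduction.** -/
theorem RedAlong.norm (hπ : Function.Surjective π) {φ : F →ₐ[K] L} {ψ : F' →ₐ[k] L'}
    (hRS : RedAlong R S φ ψ) (h1 : FiniteAlong K φ) (h2 : FiniteAlong k ψ)
    (hs : ∀ v : L', ∃ y, S.Red y v) (hn : finrankAlong K φ = finrankAlong k ψ) {y : L} {ybar : L'}
    (hy : S.Red y ybar) :
    R.Red (@Algebra.norm F L _ _ (algebraAlong φ) y) (@Algebra.norm F' L' _ _ (algebraAlong ψ) ybar) := by
  letI := algebraAlong φ
  letI := algebraAlong ψ
  haveI := isScalarTower_along φ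
  haveI := isScalarTower_along ψ
  haveI : FiniteDimensional F L := h1
  haveI : FiniteDimensional F' L' := h2
  exact RedExt.norm (R := R) (S := S) hπ hRS hs hn hy

end Along

end Fermat.Agent.DR
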