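import Fermat.Agent.JRED.DegreeLe

set_option autoImplicit false

/-!
# Orthonormal bases for a pair of reductions

`R1, R2` are two reduction data of the same field `F / K` above the same valuation ring `A`.
`pair R1 R2` is the joint reduction with values in the ring `F1 × F2`.  If the two reductions are
independent and `[F : K(x)] ≤ [F1 : k(x1)] + [F2 : k(x2)]`, every finite dimensional `K`-subspace
of `F` has a basis with `k`-linearly independent joint reductions.
-/

noncomputable section

open AlgebraicCurve Polynomial IntermediateField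
open Fermat.Agent.JRED

namespace Fermat.Agent.DR.PairOrtho

section Defs

variable (K F k B : Type*) [Field K] [Field F] [Algebra K F] [Field k] [CommRing B] [Algebra k B]

/-- A reduction with values in a `k`-algebra `B` (for a pair of valuations `B = F1 × F2`). -/
structure RingRed (A : ValuationSubring K) (π : A →+* k) where
  Red : F → B → Prop
  add : ∀ {w w' : F} {u u' : B}, Red w u → Red w' u' → Red (w + w') (u + u')
  mul : ∀ {w w' : F} {u u' : B}, Red w u → Red w' u' → Red (w * w') (u * u')
  const : ∀ a : A, Red (algebraMap K F a) (algebraMap k B (π a))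
  unique : ∀ {w : F} {u u' : B}, Red w u → Red w u' → u = u'
  normalize : ∀ w : F, w ≠ 0 → ∃ c : K, c ≠ 0 ∧ ∃ u : B, u ≠ 0 ∧ Red (algebraMap K F c * w) u

end Defs

variable {K F k B : Type*} [Field K] [Field F] [Algebra K F] [Field k] [CommRing B] [Algebra k B]
variable {A : ValuationSubring K} {π : A →+* k}

namespace RingRed

variable (R : RingRed K F k B A π)

theorem one : R.Red 1 1 := by
  have h := R.const 1
  simpa using h

theorem zero : R.Red 0 0 := by
  have h := R.const 0
  simpa using h

variable {R}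

theorem neg {w : F} {u : B} (h : R.Red w u) : R.Red (-w) (-u) := by
  have h1 := R.mul (R.const (-1)) h
  simpa using h1

theorem sub {w w' : F} {u u' : B} (h : R.Red w u) (h' : R.Red w' u') :
    R.Red (w - w') (u - u') := by
  rw [sub_eq_add_neg, sub_eq_add_neg]
  exact R.add h (neg h')

theorem pow {w : F} {u : B} (h : R.Red w u) (n : ℕ) : R.Red (w ^ n) (u ^ n) := by
  induction n with
  | zero => simpa using R.one
  | succ n ih => rw [pow_succ, pow_succ]; exact R.mul ih h

theorem sum {ι : Type*} {s : Finset ι} {w : ι → F} {u : ι → B}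
    (h : ∀ i ∈ s, R.Red (w i) (u i)) : R.Red (∑ i ∈ s, w i) (∑ i ∈ s, u i) := by
  classical
  induction s using Finset.induction_on with
  | empty => simpa using R.zero
  | insert a s ha ih =>
    rw [Finset.sum_insert ha, Finset.sum_insert ha]
    exact R.add (h a (Finset.mem_insert_self a s))
      (ih fun i hi => h i (Finset.mem_insert_of_mem hi))

theorem smul_mem {a : K} (ha : a ∈ A) {w : F} {u : B} (h : R.Red w u) :
    R.Red (algebraMap K F a * w) (algebraMap k B (π ⟨a, ha⟩) * u) :=
  R.mul (R.const ⟨a, ha⟩) h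

variable (R)

/-- `b` is an orthonormal family with reduction `bbar`. -/
structure IsOrtho {ι : Type*} (b : ι → F) (bbar : ι → B) : Prop where
  red : ∀ i, R.Red (b i) (bbar i)
  li : LinearIndependent k bbar

variable {R}

namespace IsOrtho

variable {ι : Type*} {b : ι → F} {bbar : ι → B}

theorem red_sum (h : R.IsOrtho b bbar) (s : Finset ι) (c : ι → K) (hc : ∀ i, c i ∈ A) :
    R.Red (∑ i ∈ s, c i • b i) (∑ i ∈ s, π ⟨c i, hc i⟩ • bbar i) := by
  refine RingRed.sum fun i _ => ?_
  rw [Algebra.smul_def, Algebra.smul_def]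
  exact smul_mem (hc i) (h.red i)

theorem coeff_mem (hπ : Function.Surjective π) (h : R.IsOrtho b bbar) {s : Finset ι} {c : ι → K}
    {u : B} (hu : R.Red (∑ i ∈ s, c i • b i) u) : ∀ i ∈ s, c i ∈ A := by
  classical
  by_contra hcon
  push Not at hcon
  obtain ⟨i₁, hi₁, hc₁⟩ := hcon
  obtain ⟨i₀, hi₀, hmax⟩ := s.exists_max_image (fun i => A.valuation (c i)) ⟨i₁, hi₁⟩
  have hc₀ : c i₀ ∉ A := by
    intro h0
    apply hc₁
    rw [← A.valuation_le_one_iff] at h0 ⊢
    exact (hmax i₁ hi₁).trans h0
  have hne : c i₀ ≠ 0 := fun h0 => hc₀ (h0 ▸ A.zero_mem)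
  obtain ⟨hinv, hinv0⟩ := res_inv_eq_zero hπ hc₀
  have hratio : ∀ i ∈ s, (c i₀)⁻¹ * c i ∈ A := by
    intro i hi
    rw [← A.valuation_le_one_iff, map_mul, map_inv₀]
    have hpos : A.valuation (c i₀) ≠ 0 := (Valuation.ne_zero_iff _).mpr hne
    calc (A.valuation (c i₀))⁻¹ * A.valuation (c i)
        ≤ (A.valuation (c i₀))⁻¹ * A.valuation (c i₀) := by gcongr; exact hmax i hi
      _ = 1 := inv_mul_cancel₀ hpos
  set d : ι → K := fun i => if i ∈ s then (c i₀)⁻¹ * c i else 0 with hd
  have hdA : ∀ i, d i ∈ A := by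
    intro i
    by_cases hi : i ∈ s
    · simp only [hd, if_pos hi]; exact hratio i hi
    · simp only [hd, if_neg hi]; exact A.zero_mem
  have h1 := smul_mem (R := R) hinv hu
  rw [hinv0, map_zero, zero_mul] at h1
  have h2 : algebraMap K F (c i₀)⁻¹ * ∑ i ∈ s, c i • b i = ∑ i ∈ s, d i • b i := by
    rw [Finset.mul_sum]
    refine Finset.sum_congr rfl fun i hi => ?_
    simp only [hd, if_pos hi]
    rw [Algebra.smul_def, Algebra.smul_def, map_mul, mul_assoc]
  rw [h2] at h1
  have h3 := R.unique h1 (h.red_sum s d hdA)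
  have h4 := (linearIndependent_iff'.mp h.li) s (fun i => π ⟨d i, hdA i⟩) h3.symm i₀ hi₀
  have h5 : (⟨d i₀, hdA i₀⟩ : A) = 1 := by
    apply Subtype.ext
    simp only [hd, if_pos hi₀]
    exact inv_mul_cancel₀ hne
  rw [h5, map_one] at h4
  exact one_ne_zero h4

theorem linearIndependent (hπ : Function.Surjective π) (h : R.IsOrtho b bbar) :
    LinearIndependent K b := by
  classical
  rw [linearIndependent_iff']
  intro s c hc i hi
  by_contra hne
  set d : ι → K := fun j => if j ∈ s then (c i)⁻¹ * c j else 0 with hd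
  have h3 : R.Red (∑ j ∈ s, ((c i)⁻¹ * c j) • b j) 0 := by
    have : ∑ j ∈ s, ((c i)⁻¹ * c j) • b j = 0 := by
      simp_rw [mul_smul]
      rw [← Finset.smul_sum, hc, smul_zero]
    rw [this]
    exact R.zero
  have h4 := h.coeff_mem hπ h3
  have hdA : ∀ j, d j ∈ A := by
    intro j
    by_cases hj : j ∈ s
    · simp only [hd, if_pos hj]; exact h4 j hj
    · simp only [hd, if_neg hj]; exact A.zero_mem
  have h5 : ∑ j ∈ s, ((c i)⁻¹ * c j) • b j = ∑ j ∈ s, d j • b j :=
    Finset.sum_congr rfl fun j hj => by simp only [hd, if_pos hj]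
  rw [h5] at h3
  have h6 := R.unique h3 (h.red_sum s d hdA)
  have h7 := (linearIndependent_iff'.mp h.li) s (fun j => π ⟨d j, hdA j⟩) h6.symm i hi
  have h8 : (⟨d i, hdA i⟩ : A) = 1 := by
    apply Subtype.ext
    simp only [hd, if_pos hi]
    exact inv_mul_cancel₀ hne
  rw [h8, map_one] at h7
  exact one_ne_zero h7

end IsOrtho

variable (R)

/-- `W` has an orthonormal basis. -/
def HasOrtho (W : Submodule K F) : Prop :=
  ∃ (n : ℕ) (b : Fin n → F) (bbar : Fin n → B),
    R.IsOrtho b bbar ∧ Submodule.span K (Set.range b) = W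

/-- The reduction of a subspace. -/
def redSub (hπ : Function.Surjective π) (W : Submodule K F) : Submodule k B where
  carrier := {u | ∃ w ∈ W, R.Red w u}
  zero_mem' := ⟨0, W.zero_mem, R.zero⟩
  add_mem' := by
    rintro u u' ⟨w, hw, h⟩ ⟨w', hw', h'⟩
    exact ⟨w + w', W.add_mem hw hw', R.add h h'⟩
  smul_mem' := by
    rintro c u ⟨w, hw, h⟩
    obtain ⟨a, rfl⟩ := hπ c
    refine ⟨(a : K) • w, W.smul_mem _ hw, ?_⟩
    rw [Algebra.smul_def, Algebra.smul_def]
    exact R.mul (R.const a) h

variable {R}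

theorem mem_redSub {hπ : Function.Surjective π} {W : Submodule K F} {u : B} :
    u ∈ R.redSub hπ W ↔ ∃ w ∈ W, R.Red w u := Iff.rfl

theorem redSub_mono {hπ : Function.Surjective π} {W W' : Submodule K F} (h : W ≤ W') :
    R.redSub hπ W ≤ R.redSub hπ W' := by
  rintro u ⟨w, hw, hu⟩
  exact ⟨w, h hw, hu⟩

theorem IsOrtho.redSub_span {n : ℕ} {b : Fin n → F} {bbar : Fin n → B}
    (hπ : Function.Surjective π) (h : R.IsOrtho b bbar) :
    R.redSub hπ (Submodule.span K (Set.range b)) = Submodule.span k (Set.range bbar) := by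
  apply le_antisymm
  · rintro u ⟨w, hw, hu⟩
    obtain ⟨c, rfl⟩ := (Submodule.mem_span_range_iff_exists_fun K).mp hw
    have hc := h.coeff_mem hπ hu
    have hcA : ∀ i, c i ∈ A := fun i => hc i (Finset.mem_univ i)
    rw [R.unique hu (h.red_sum _ c hcA)]
    exact Submodule.sum_mem _ fun i _ =>
      Submodule.smul_mem _ _ (Submodule.subset_span ⟨i, rfl⟩)
  · rw [Submodule.span_le]
    rintro _ ⟨i, rfl⟩
    exact ⟨b i, Submodule.subset_span ⟨i, rfl⟩, h.red i⟩

theorem HasOrtho.finiteDimensional {W : Submodule K F} (h : R.HasOrtho W) :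
    FiniteDimensional K W := by
  obtain ⟨n, b, bbar, -, rfl⟩ := h
  exact FiniteDimensional.span_of_finite K (Set.finite_range b)

theorem HasOrtho.finiteDimensional_redSub (hπ : Function.Surjective π) {W : Submodule K F}
    (h : R.HasOrtho W) : FiniteDimensional k (R.redSub hπ W) := by
  obtain ⟨n, b, bbar, hb, rfl⟩ := h
  rw [hb.redSub_span hπ]
  exact FiniteDimensional.span_of_finite k (Set.finite_range bbar)

/-- The reduction of a subspace with an orthonormal basis has the same dimension. -/
theorem HasOrtho.finrank_redSub (hπ : Function.Surjective π) {W : Submodule K F}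
    (h : R.HasOrtho W) : Module.finrank k (R.redSub hπ W) = Module.finrank K W := by
  obtain ⟨n, b, bbar, hb, rfl⟩ := h
  rw [hb.redSub_span hπ, finrank_span_eq_card hb.li, finrank_span_eq_card (hb.linearIndependent hπ)]

/-- Gaussian elimination: finite dimensional subspaces of the span of an orthonormal family have
orthonormal bases. -/
theorem hasOrtho_of_le_span (hπ : Function.Surjective π) {ι : Type*} {b : ι → F}
    {bbar : ι → B} (h : R.IsOrtho b bbar) :
    ∀ (n : ℕ) (W : Submodule K F) [FiniteDimensional K W], Module.finrank K W = n →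
      W ≤ Submodule.span K (Set.range b) → R.HasOrtho W := by
  classical
  intro n
  induction n using Nat.strong_induction_on with
  | _ n ih =>
  intro W _ hn hW
  by_cases hbot : W = ⊥
  · subst hbot
    refine ⟨0, fun i => i.elim0, fun i => i.elim0,
      ⟨fun i => i.elim0, linearIndependent_empty_type⟩, ?_⟩
    simp [Set.range_eq_empty]
  obtain ⟨w₀, hw₀, hne⟩ := (Submodule.ne_bot_iff W).mp hbot
  obtain ⟨t, ht, u, hu, hred⟩ := R.normalize w₀ hne
  set w := algebraMap K F t * w₀ with hw
  have hwW : w ∈ W := by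
    rw [hw, ← Algebra.smul_def]
    exact W.smul_mem _ hw₀
  obtain ⟨c, hc⟩ := (Finsupp.mem_span_range_iff_exists_finsupp).mp (hW hwW)
  have hc' : ∑ i ∈ c.support, c i • b i = w := hc
  have hcA0 : ∀ i ∈ c.support, c i ∈ A := h.coeff_mem hπ (by rw [hc']; exact hred)
  have hcA : ∀ i, c i ∈ A := by
    intro i
    by_cases hi : i ∈ c.support
    · exact hcA0 i hi
    · rw [Finsupp.notMem_support_iff.mp hi]; exact A.zero_mem
  have hu' : u = ∑ i ∈ c.support, π ⟨c i, hcA i⟩ • bbar i := by
    have h1 := h.red_sum c.support c hcA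
    rw [hc'] at h1
    exact R.unique hred h1
  obtain ⟨i₀, hi₀, hπi₀⟩ : ∃ i ∈ c.support, π ⟨c i, hcA i⟩ ≠ 0 := by
    by_contra hcon
    push Not at hcon
    apply hu
    rw [hu']
    exact Finset.sum_eq_zero fun i hi => by rw [hcon i hi, zero_smul]
  -- the complementary span
  set T : Submodule K F := Submodule.span K (b '' {i | i ≠ i₀}) with hT
  set Tk : Submodule k B := Submodule.span k (bbar '' {i | i ≠ i₀}) with hTk
  have hbT : ∀ i, i ≠ i₀ → b i ∈ T := fun i hi => Submodule.subset_span ⟨i, hi, rfl⟩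
  have hbTk : ∀ i, i ≠ i₀ → bbar i ∈ Tk := fun i hi => Submodule.subset_span ⟨i, hi, rfl⟩
  have hnotT : bbar i₀ ∉ Tk := by
    have h1 := h.li.notMem_span_image (s := {i | i ≠ i₀}) (x := i₀) (by simp)
    exact h1
  -- membership in T of integral elements gives reduction in Tk
  have hTred : ∀ z ∈ T, ∀ v, R.Red z v → v ∈ Tk := by
    intro z hz v hv
    rw [hT, Finsupp.mem_span_image_iff_linearCombination] at hz
    obtain ⟨l, hl, hlz⟩ := hz
    have hlz' : ∑ i ∈ l.support, l i • b i = z := hlz
    have h1 : ∀ i ∈ l.support, l i ∈ A := h.coeff_mem hπ (by rw [hlz']; exact hv)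
    have h2 : ∀ i, l i ∈ A := by
      intro i
      by_cases hi : i ∈ l.support
      · exact h1 i hi
      · rw [Finsupp.notMem_support_iff.mp hi]; exact A.zero_mem
    have h3 := h.red_sum l.support l h2
    rw [hlz'] at h3
    rw [R.unique hv h3]
    refine Submodule.sum_mem _ fun i hi => Submodule.smul_mem _ _ (hbTk i ?_)
    exact (Finsupp.mem_supported K l).mp hl hi
  have huT : u ∉ Tk := by
    intro hcon
    apply hnotT
    have h1 : π ⟨c i₀, hcA i₀⟩ • bbar i₀ ∈ Tk := by
      have h2 : π ⟨c i₀, hcA i₀⟩ • bbar i₀ =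
          u - ∑ i ∈ c.support.erase i₀, π ⟨c i, hcA i⟩ • bbar i := by
        rw [hu', ← Finset.add_sum_erase _ _ hi₀]
        ring
      rw [h2]
      refine Submodule.sub_mem _ hcon (Submodule.sum_mem _ fun i hi =>
        Submodule.smul_mem _ _ (hbTk i (Finset.ne_of_mem_erase hi)))
    exact (Submodule.smul_mem_iff _ hπi₀).mp h1
  have hwT : w ∉ T := fun hcon => huT (hTred w hcon u hred)
  set W' : Submodule K F := W ⊓ T with hW'
  have hlt : W' < W := by
    refine lt_of_le_of_ne inf_le_left fun heq => ?_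
    have : w ∈ W' := heq ▸ hwW
    exact hwT this.2
  have hfin' : FiniteDimensional K W' := Submodule.finiteDimensional_of_le inf_le_left
  have hlt' : Module.finrank K W' < n := hn ▸ Submodule.finrank_lt_finrank_of_lt hlt
  obtain ⟨m, b', bbar', hb', hspan'⟩ := ih _ hlt' W' rfl (inf_le_right.trans
    (Submodule.span_mono (Set.image_subset_range _ _)))
  refine ⟨m + 1, Fin.cons w b', Fin.cons u bbar', ⟨?_, ?_⟩, ?_⟩
  · intro i
    refine Fin.cases ?_ (fun j => ?_) i
    · simpa using hred
    · simpa using hb'.red j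
  · rw [linearIndependent_finCons]
    refine ⟨hb'.li, fun hcon => huT ?_⟩
    refine (Submodule.span_le.mpr ?_ : Submodule.span k (Set.range bbar') ≤ Tk) hcon
    rintro _ ⟨j, rfl⟩
    have hj : b' j ∈ W' := hspan' ▸ Submodule.subset_span ⟨j, rfl⟩
    exact hTred (b' j) hj.2 (bbar' j) (hb'.red j)
  · rw [Fin.range_cons, Submodule.span_insert, hspan']
    apply le_antisymm
    · refine sup_le ?_ inf_le_left
      rw [Submodule.span_singleton_le_iff_mem]
      exact hwW
    · intro z hz
      obtain ⟨l, hl⟩ := (Finsupp.mem_span_range_iff_exists_finsupp).mp (hW hz)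
      have hci₀ : c i₀ ≠ 0 := Finsupp.mem_support_iff.mp hi₀
      rw [Submodule.mem_sup]
      refine ⟨(l i₀ / c i₀) • w, Submodule.smul_mem _ _ (Submodule.mem_span_singleton_self w),
        z - (l i₀ / c i₀) • w, ⟨W.sub_mem hz (W.smul_mem _ hwW), ?_⟩, by ring⟩
      have h1 : z - (l i₀ / c i₀) • w = Finsupp.linearCombination K b (l - (l i₀ / c i₀) • c) := by
        rw [map_sub, map_smul]
        congr 1
        · exact hl.symm
        · congr 1
          exact hc.symm
      show z - (l i₀ / c i₀) • w ∈ T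
      rw [h1, hT, Finsupp.mem_span_image_iff_linearCombination]
      refine ⟨_, ?_, rfl⟩
      rw [Finsupp.mem_supported]
      intro i hi
      rw [Finset.mem_coe, Finsupp.mem_support_iff] at hi
      rintro rfl
      apply hi
      simp only [Finsupp.coe_sub, Finsupp.coe_smul, Pi.sub_apply, Pi.smul_apply, smul_eq_mul]
      rw [div_mul_cancel₀ _ hci₀, sub_self]

/-- Multiplication by an element with regular normalised reduction preserves the existence of
orthonormal bases. -/
theorem HasOrtho.of_mul {W W' : Submodule K F} {q : F} (hq : q ≠ 0)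
    {c : K} (hc : c ≠ 0) {u : B} (hu : IsUnit u) (hred : R.Red (algebraMap K F c * q⁻¹) u)
    (h : R.HasOrtho W') (hW : W' = W.map (LinearMap.mulLeft K q)) : R.HasOrtho W := by
  obtain ⟨n, b, bbar, hb, hspan⟩ := h
  refine ⟨n, fun i => (algebraMap K F c * q⁻¹) * b i, fun i => u * bbar i,
    ⟨fun i => R.mul hred (hb.red i), ?_⟩, ?_⟩
  · have h1 := hb.li.map' (LinearMap.mulLeft k u)
      (LinearMap.ker_eq_bot.mpr (IsUnit.mul_right_injective hu))
    exact h1
  · have h1 : (fun i => (algebraMap K F c * q⁻¹) * b i) =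
        (LinearMap.mulLeft K (algebraMap K F c * q⁻¹)) ∘ b := rfl
    rw [h1, Set.range_comp, Submodule.span_image, hspan, hW, ← Submodule.map_comp]
    have h2 : (LinearMap.mulLeft K (algebraMap K F c * q⁻¹)) ∘ₗ (LinearMap.mulLeft K q) =
        c • (LinearMap.id : F →ₗ[K] F) := by
      refine LinearMap.ext fun z => ?_
      simp only [LinearMap.comp_apply, LinearMap.mulLeft_apply, LinearMap.smul_apply,
        LinearMap.id_apply]
      rw [Algebra.smul_def]
      field_simp
    rw [h2, Submodule.map_smul _ _ _ hc, Submodule.map_id]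

end RingRed

end Fermat.Agent.DR.PairOrtho
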