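import Fermat.Agent.DR.S34Algebra
import Fermat.Agent.GAL.Final

/-!
# S34 from the inputs of the Jacobian teams and the geometric input at `q ∥ N`

`s34_of_inputs (I : GAL.Final.AllInputs) (hU : UnipotentInput p q (JZero N))`.
-/

set_option autoImplicit false
set_option linter.style.haveILetI false

open Polynomial IsLocalRing ModularCurve

namespace Fermat.Agent.DR.S34Wiring

open Fermat.Agent.DR.Relation Fermat.Agent.DR.Core Fermat.Agent.DR.S34Algebra
open Fermat.Agent.S30Wiring (AnemicAlg anemicIncl anemicEval)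

local notation "Qbar" => AlgebraicClosure ℚ
local notation "Γℚ" => (AlgebraicClosure ℚ ≃ₐ[ℚ] AlgebraicClosure ℚ)

section Convert

/-- Conversion between the two forms of the anemic abstract Hecke algebra. -/
noncomputable def toAnemic (S : Finset ℕ) : HeckeS (↑S : Set ℕ) →+* AnemicAlg S :=
  (MvPolynomial.rename (R := ℤ) (fun ℓ : {ℓ : Nat.Primes // (ℓ : ℕ) ∉ (↑S : Set ℕ)} =>
    (⟨ℓ.1, fun h => ℓ.2 (Finset.mem_coe.mpr h)⟩ : {ℓ : Nat.Primes // (ℓ : ℕ) ∉ S}))).toRingHom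

theorem anemicIncl_toAnemic (S : Finset ℕ) (t : HeckeS (↑S : Set ℕ)) :
    anemicIncl S (toAnemic S t) = toHecke (↑S : Set ℕ) t := by
  have h : (anemicIncl S).toRingHom.comp (toAnemic S) = toHecke (↑S : Set ℕ) := by
    refine MvPolynomial.ringHom_ext (fun m => ?_) fun ℓ => ?_
    · simp
    · rw [toHecke_X]
      change anemicIncl S (MvPolynomial.rename _ (MvPolynomial.X ℓ)) = _
      rw [MvPolynomial.rename_X, anemicIncl, MvPolynomial.rename_X]
      rfl
  exact RingHom.congr_fun h t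

theorem anemicEval_toAnemic {N : ℕ} [NeZero N] {S : Finset ℕ}
    (hNS : ∀ q : ℕ, q.Prime → q ∣ N → q ∈ S) (t : HeckeS (↑S : Set ℕ)) :
    anemicEval hNS (toAnemic S t) = evalS N (↑S : Set ℕ) t := by
  have h : (anemicEval hNS).toRingHom.comp (toAnemic S) = evalS N (↑S : Set ℕ) := by
    refine MvPolynomial.ringHom_ext (fun m => ?_) fun ℓ => ?_
    · simp
    · have hN : ¬ ((ℓ.1 : Nat.Primes) : ℕ) ∣ N := fun h =>
        ℓ.2 (Finset.mem_coe.mpr (hNS _ ℓ.1.2 h))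
      rw [show evalS N (↑S : Set ℕ) (MvPolynomial.X ℓ) = CuspForm.heckeAlgebra.T ℓ.1.2 hN ℓ.2 from
        evalS_X_of_not_dvd ℓ.1.2 hN ℓ.2]
      change anemicEval hNS (MvPolynomial.rename _ (MvPolynomial.X ℓ)) = _
      rw [MvPolynomial.rename_X, anemicEval, MvPolynomial.aeval_X]
  exact RingHom.congr_fun h t

end Convert

section Main

variable {𝒪 : Type} [CommRing 𝒪] [IsDomain 𝒪] [IsDiscreteValuationRing 𝒪]
  [IsAdicComplete (maximalIdeal 𝒪) 𝒪] [Finite (ResidueField 𝒪)] [CharZero 𝒪]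
  {p : ℕ} {N : ℕ} [NeZero N] {S : Finset ℕ}
  {θ : CuspForm.heckeAlgebra N 2 (↑S : Set ℕ) →+* ResidueField 𝒪}
  {T : Type} [CommRing T] [IsLocalRing T] [IsNoetherianRing T]
  [IsAdicComplete (maximalIdeal T) T] [Algebra 𝒪 T] [IsLocalHom (algebraMap 𝒪 T)]
  [Module.Finite 𝒪 T] [Module.Free 𝒪 T]

/-- **S34 modulo geometry**, with the inputs in the form delivered by team GAL. -/
theorem isUnipotentOnInertiaAt_of_inputs (hp : p.Prime) (hp𝒪 : (p : 𝒪) ∈ maximalIdeal 𝒪)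
    (hpS : p ∈ S) (hNS : ∀ q : ℕ, q.Prime → q ∣ N → q ∈ S)
    (H : CuspForm.HeckeGaloisRepDatum N (↑S : Set ℕ) 𝒪 θ T)
    (q : ℕ) (hq : q.Prime) (hqp : q ≠ p)
    (I : S30Wiring.Inputs N p S) (hU : UnipotentInput p q (JZero N)) :
    H.ρ.IsUnipotentOnInertiaAt q := by
  refine isUnipotent_of_trace hp hp𝒪 hNS H q hq hqp ?_
  intro P hP τ hτ hdet 𝒪' _ _ _ _ _ _ _ _ _ _ φ
  letI := heckeModuleBar N
  haveI hcomm : SMulCommClass Γℚ HeckeAlg (JZero N) := I.galois_hecke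
  let _ : Module (HeckeS (↑S : Set ℕ)) (JZero N) :=
    Module.compHom (JZero N) (toHecke (↑S : Set ℕ))
  let _ : Algebra (HeckeS (↑S : Set ℕ)) T := (H.π.comp (evalS N (↑S : Set ℕ))).toAlgebra
  have : SMulCommClass Γℚ (HeckeS (↑S : Set ℕ)) (JZero N) :=
    ⟨fun g t x => smul_comm g (toHecke (↑S : Set ℕ) t) x⟩
  have hfr : FrobeniusQuadratic (K := ℚ) (L := Qbar) N p (JZero N) :=
    S30Wiring.frobeniusQuadratic_of_specialization (I.specialization hcomm)
  have hfin : Finite {x : JZero N // p • x = 0} := by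
    have h := I.finite 1
    rw [pow_one] at h
    exact h
  have hsm : SmoothAct (JZero N) := fun x => I.smooth x
  refine trace_eq_two_of_unipotent (R := HeckeS (↑S : Set ℕ)) p H.ρ S hsm hfin
    (frobHyp hpS hNS hp H (JZero N) hfr) τ hdet (hU P hP τ hτ) (φ : T →+* 𝒪')
    (fun k => Ideal.span {((p : 𝒪')) ^ k}) (fun x hx => forall_mem_span_pow hp𝒪 x hx)
    (fun k => ⟨k, fun t ht => ?_⟩)
  have h1 := I.support hNS 𝒪' ((φ : T →+* 𝒪').comp H.π) k (toAnemic S t) (fun x hx => by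
    rw [anemicIncl_toAnemic]
    exact ht x hx)
  rw [anemicEval_toAnemic] at h1
  exact Ideal.mem_span_singleton.mpr h1

/-- S34 for all `q` at which the geometric input is available. -/
theorem s34_of_inputs (I : GAL.Final.AllInputs) (hp : p.Prime)
    (hp𝒪 : (p : 𝒪) ∈ maximalIdeal 𝒪)
    (hpS : p ∈ S) (hNS : ∀ q : ℕ, q.Prime → q ∣ N → q ∈ S)
    (H : CuspForm.HeckeGaloisRepDatum N (↑S : Set ℕ) 𝒪 θ T)
    (q : ℕ) (hq : q.Prime) (hqp : q ≠ p) (hU : UnipotentInput p q (JZero N)) :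
    H.ρ.IsUnipotentOnInertiaAt q :=
  isUnipotentOnInertiaAt_of_inputs hp hp𝒪 hpS hNS H q hq hqp
    ((GAL.Final.galInputs I N p hp).inputs hp S) hU

end Main

end Fermat.Agent.DR.S34Wiring
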